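import Fermat.Agent.S53.Dict

set_option autoImplicit false
set_option linter.unusedSectionVars false

open scoped TensorProduct

namespace Fermat.Agent.S53

section Schur

variable {k : Type} [Field k]

/-- Base change (along an arbitrary algebra structure) of an equivalence of residual
representations. -/
noncomputable def resEquivBaseChange (k' : Type) [Field k'] [Algebra k k']
    {ρ₁ ρ₂ : ResidualGaloisRep k} (e : ResidualGaloisRep.Equiv ρ₁ ρ₂) :
    ResidualGaloisRep.Equiv (ρ₁.baseChange k') (ρ₂.baseChange k') :=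
  { toLinearEquiv := e.toLinearEquiv.baseChange k k' ρ₁.V ρ₂.V
    map_apply := fun σ x => by
      show e.toLinearEquiv.baseChange k k' ρ₁.V ρ₂.V ((ρ₁.ρ σ).baseChange k' x) =
        (ρ₂.ρ σ).baseChange k' (e.toLinearEquiv.baseChange k k' ρ₁.V ρ₂.V x)
      induction x using TensorProduct.induction_on with
      | zero => simp only [map_zero]
      | tmul b v =>
        rw [LinearMap.baseChange_tmul, LinearEquiv.baseChange_tmul, LinearEquiv.baseChange_tmul,
          LinearMap.baseChange_tmul, e.map_apply]
      | add x y hx hy => simp only [map_add, hx, hy] }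

theorem baseChange_toRes (k' : Type) [Field k'] [Algebra k k'] (rb : GQ →* M2 k)
    (h : GaloisFactorsThroughFiniteLevel rb) :
    ((toRes rb h).baseChange k').IsEquiv
      (toRes (mapRep (algebraMap k k') rb) (factors_mapRep (algebraMap k k') h)) := by
  let e : k' ⊗[k] (Fin 2 → k) ≃ₗ[k'] (Fin 2 → k') := TensorProduct.piScalarRight k k' k' (Fin 2)
  refine ⟨⟨e, fun σ x => ?_⟩⟩
  exact piScalarRight_baseChange (rb σ) x

lemma isIrreducible_of_equiv {ρ₁ ρ₂ : ResidualGaloisRep k} (e : ResidualGaloisRep.Equiv ρ₁ ρ₂)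
    (h : ρ₁.IsIrreducible) : ρ₂.IsIrreducible := by
  intro W hW
  have hstab : ∀ σ : AlgebraicClosure ℚ ≃ₐ[ℚ] AlgebraicClosure ℚ,
      ∀ x ∈ W.comap e.toLinearEquiv.toLinearMap, ρ₁.ρ σ x ∈ W.comap e.toLinearEquiv.toLinearMap := by
    intro σ x hx
    rw [Submodule.mem_comap] at hx ⊢
    have := hW σ _ hx
    rw [LinearEquiv.coe_coe] at this ⊢
    rwa [e.map_apply]
  have hmap : (W.comap e.toLinearEquiv.toLinearMap).map e.toLinearEquiv.toLinearMap = W :=
    Submodule.map_comap_eq_of_surjective e.toLinearEquiv.surjective W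
  rcases h _ hstab with h0 | h1
  · left
    rw [← hmap, h0, Submodule.map_bot]
  · right
    rw [← hmap, h1, Submodule.map_top]
    exact LinearMap.range_eq_top.2 e.toLinearEquiv.surjective

/-- **Schur's lemma** in matrix form: a matrix commuting with an absolutely irreducible
matrix representation is scalar. -/
theorem schur_matrix (ρbar : ResidualGaloisRep k) (habs : ρbar.IsAbsolutelyIrreducible)
    (rb : GQ →* M2 k) (hrb : GaloisFactorsThroughFiniteLevel rb)
    (hρ : ρbar.IsEquiv (toRes rb hrb)) (X : M2 k) (hX : ∀ σ, X * rb σ = rb σ * X) :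
    ∃ c : k, X = c • (1 : M2 k) := by
  classical
  obtain ⟨e⟩ := hρ
  obtain ⟨e'⟩ := baseChange_toRes (AlgebraicClosure k) rb hrb
  have hirr : (toRes (mapRep (algebraMap k (AlgebraicClosure k)) rb)
      (factors_mapRep (algebraMap k (AlgebraicClosure k)) hrb)).IsIrreducible :=
    isIrreducible_of_equiv ((resEquivBaseChange (AlgebraicClosure k) e).trans e') habs
  set K := AlgebraicClosure k
  set XK : M2 K := X.map (algebraMap k K) with hXK
  have hcomm : ∀ σ, XK * (rb σ).map (algebraMap k K) = (rb σ).map (algebraMap k K) * XK := by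
    intro σ
    rw [hXK, ← Matrix.map_mul, ← Matrix.map_mul, hX]
  let f : Module.End K (Fin 2 → K) := Matrix.toLin' XK
  obtain ⟨c, hc⟩ := Module.End.exists_eigenvalue f
  have hstab : ∀ σ : AlgebraicClosure ℚ ≃ₐ[ℚ] AlgebraicClosure ℚ,
      ∀ x ∈ Module.End.eigenspace f c, ((rb σ).map (algebraMap k K)).mulVec x ∈
        Module.End.eigenspace f c := by
    intro σ x hx
    rw [Module.End.mem_eigenspace_iff] at hx ⊢
    have hx' : XK.mulVec x = c • x := hx
    show Matrix.toLin' XK _ = _
    rw [Matrix.toLin'_apply, Matrix.mulVec_mulVec, hcomm, ← Matrix.mulVec_mulVec, hx',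
      Matrix.mulVec_smul]
  have htop : Module.End.eigenspace f c = ⊤ := (hirr _ hstab).resolve_left hc
  have hall : ∀ x : Fin 2 → K, XK.mulVec x = c • x := by
    intro x
    have hx : x ∈ Module.End.eigenspace f c := by rw [htop]; exact Submodule.mem_top
    rw [Module.End.mem_eigenspace_iff] at hx
    exact hx
  have hentry : ∀ i j, XK i j = if i = j then c else 0 := by
    intro i j
    have := congrFun (hall (Pi.single j 1)) i
    simpa [Matrix.mulVec_single, Pi.single_apply, eq_comm] using this
  have hinj : Function.Injective (algebraMap k K) := (algebraMap k K).injective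
  refine ⟨X 0 0, ?_⟩
  ext i j
  apply hinj
  have h00 := hentry 0 0
  have hij := hentry i j
  simp only [hXK, Matrix.map_apply, if_true] at h00 hij
  rw [hij, Matrix.smul_apply, Matrix.one_apply, smul_eq_mul]
  split_ifs with h
  · simp [h00]
  · simp

end Schur

end Fermat.Agent.S53
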