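import Mathlib
import Fermat.Prelude.Def_GaloisRep_DeformationCondition
import Fermat.Prelude.Thm_IsLocalRing_isAdicComplete_of_module_finite

set_option autoImplicit false

namespace Fermat.Agent.S53

open IsLocalRing

section TestAlgebra

variable {𝒪 : Type} [CommRing 𝒪] [IsLocalRing 𝒪]
variable {A : Type} [CommRing A] [IsLocalRing A] [Algebra 𝒪 A]

/-- In an Artinian local ring the maximal ideal is nilpotent. -/
theorem exists_maximalIdeal_pow_eq_bot_of_isArtinianRing (B : Type) [CommRing B] [IsLocalRing B]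
    [IsArtinianRing B] : ∃ n : ℕ, maximalIdeal B ^ n = ⊥ := by
  obtain ⟨n, hn⟩ := IsArtinianRing.isNilpotent_jacobson_bot (R := B)
  rw [jacobson_eq_maximalIdeal _ bot_ne_top] at hn
  exact ⟨n, hn⟩

theorem exists_maximalIdeal_pow_eq_bot (h : GaloisRep.IsArtinianTestAlgebra 𝒪 A) :
    ∃ n : ℕ, maximalIdeal A ^ n = ⊥ :=
  haveI := h.isArtinian
  exists_maximalIdeal_pow_eq_bot_of_isArtinianRing A

/-- The residue field of a test algebra is finite when that of `𝒪` is. -/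
theorem finite_residueField_of_testAlgebra [Finite (ResidueField 𝒪)]
    (h : GaloisRep.IsArtinianTestAlgebra 𝒪 A) : Finite (ResidueField A) := by
  have hsurj : Function.Surjective
      ((IsLocalRing.residue A).comp (algebraMap 𝒪 A)) := h.residue_surjective
  haveI := h.isLocalHom
  have hsurj' : Function.Surjective (ResidueField.map (algebraMap 𝒪 A)) := by
    intro x
    obtain ⟨o, rfl⟩ := hsurj x
    exact ⟨residue 𝒪 o, by simp [ResidueField.map_residue]⟩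
  exact Finite.of_surjective _ hsurj'

/-- A test algebra over `𝒪` (finite residue field) is a finite ring. -/
theorem finite_of_testAlgebra [Finite (ResidueField 𝒪)]
    (h : GaloisRep.IsArtinianTestAlgebra 𝒪 A) : Finite A := by
  haveI := h.isArtinian
  haveI := finite_residueField_of_testAlgebra h
  have h1 : Finite (A ⧸ (⊥ : Ideal A)) :=
    (IsLocalRing.finite_quotient_iff (R := A) (I := ⊥)).mpr
      (by obtain ⟨n, hn⟩ := exists_maximalIdeal_pow_eq_bot h; exact ⟨n, hn.le⟩)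
  exact Finite.of_equiv _ (RingEquiv.quotientBot A).toEquiv

end TestAlgebra

section NilIdeal

variable {𝒪 : Type} [CommRing 𝒪] [IsLocalRing 𝒪]
variable {C : Type} [CommRing C] [Algebra 𝒪 C]

/-- Every element of `C` is a unit or lies in `𝔫`, under the hypotheses of the lemmas below. -/
theorem isUnit_or_mem_of_nil_ideal (𝔫 : Ideal C) (h1 : ∀ x ∈ 𝔫, IsNilpotent x)
    (h2 : ∀ c : C, ∃ o : 𝒪, c - algebraMap 𝒪 C o ∈ 𝔫)
    (h4 : ∀ o ∈ maximalIdeal 𝒪, algebraMap 𝒪 C o ∈ 𝔫) (c : C) : IsUnit c ∨ c ∈ 𝔫 := by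
  obtain ⟨o, ho⟩ := h2 c
  by_cases hom : o ∈ maximalIdeal 𝒪
  · right
    have := 𝔫.add_mem ho (h4 o hom)
    simpa using this
  · left
    have hu : IsUnit (algebraMap 𝒪 C o) := by
      have : IsUnit o := by
        by_contra hcon
        exact hom ((IsLocalRing.mem_maximalIdeal o).mpr hcon)
      exact this.map _
    have hnil : IsNilpotent (c - algebraMap 𝒪 C o) := h1 _ ho
    have hcomm : Commute (c - algebraMap 𝒪 C o) (algebraMap 𝒪 C o) := Commute.all _ _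
    have := hnil.isUnit_add_right_of_commute hu hcomm
    simpa using this

theorem isLocalRing_of_nil_ideal [Nontrivial C] (𝔫 : Ideal C) (h1 : ∀ x ∈ 𝔫, IsNilpotent x)
    (h2 : ∀ c : C, ∃ o : 𝒪, c - algebraMap 𝒪 C o ∈ 𝔫)
    (h4 : ∀ o ∈ maximalIdeal 𝒪, algebraMap 𝒪 C o ∈ 𝔫) : IsLocalRing C := by
  refine IsLocalRing.of_nonunits_add ?_
  intro a b ha hb
  have ha' : a ∈ 𝔫 := (isUnit_or_mem_of_nil_ideal 𝔫 h1 h2 h4 a).resolve_left ha
  have hb' : b ∈ 𝔫 := (isUnit_or_mem_of_nil_ideal 𝔫 h1 h2 h4 b).resolve_left hb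
  have hab : a + b ∈ 𝔫 := 𝔫.add_mem ha' hb'
  intro hu
  have hnil := h1 _ hab
  exact hnil.not_isUnit hu

theorem maximalIdeal_eq_of_nil_ideal [IsLocalRing C] (𝔫 : Ideal C) (h1 : ∀ x ∈ 𝔫, IsNilpotent x)
    (h2 : ∀ c : C, ∃ o : 𝒪, c - algebraMap 𝒪 C o ∈ 𝔫)
    (h4 : ∀ o ∈ maximalIdeal 𝒪, algebraMap 𝒪 C o ∈ 𝔫) : maximalIdeal C = 𝔫 := by
  ext c
  rw [IsLocalRing.mem_maximalIdeal, mem_nonunits_iff]
  constructor
  · intro hc
    exact (isUnit_or_mem_of_nil_ideal 𝔫 h1 h2 h4 c).resolve_left hc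
  · intro hc hu
    exact (h1 c hc).not_isUnit hu

theorem isLocalHom_of_nil_ideal [IsLocalRing C] (𝔫 : Ideal C) (h1 : ∀ x ∈ 𝔫, IsNilpotent x)
    (h4 : ∀ o ∈ maximalIdeal 𝒪, algebraMap 𝒪 C o ∈ 𝔫) : IsLocalHom (algebraMap 𝒪 C) := by
  constructor
  intro o ho
  by_contra hcon
  have hom : o ∈ maximalIdeal 𝒪 := (IsLocalRing.mem_maximalIdeal o).mpr hcon
  exact (h1 _ (h4 o hom)).not_isUnit ho

theorem residue_surjective_of_nil_ideal [IsLocalRing C] (𝔫 : Ideal C)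
    (h1 : ∀ x ∈ 𝔫, IsNilpotent x)
    (h2 : ∀ c : C, ∃ o : 𝒪, c - algebraMap 𝒪 C o ∈ 𝔫) :
    Function.Surjective (IsLocalRing.residue C ∘ algebraMap 𝒪 C) := by
  intro x
  obtain ⟨c, rfl⟩ := IsLocalRing.residue_surjective x
  obtain ⟨o, ho⟩ := h2 c
  refine ⟨o, ?_⟩
  have hmem : c - algebraMap 𝒪 C o ∈ maximalIdeal C := by
    rw [IsLocalRing.mem_maximalIdeal, mem_nonunits_iff]
    intro hu
    exact (h1 _ ho).not_isUnit hu
  have := (IsLocalRing.residue_eq_zero_iff _).mpr hmem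
  rw [map_sub, sub_eq_zero] at this
  exact this.symm

/-- A finite `𝒪`-algebra with a nil ideal `𝔫 ⊇ m_𝒪` such that `𝒪 → C/𝔫` is onto is a test
algebra. -/
theorem isArtinianTestAlgebra_of_nil_ideal [IsLocalRing C] [Finite C] (𝔫 : Ideal C)
    (h1 : ∀ x ∈ 𝔫, IsNilpotent x)
    (h2 : ∀ c : C, ∃ o : 𝒪, c - algebraMap 𝒪 C o ∈ 𝔫)
    (h4 : ∀ o ∈ maximalIdeal 𝒪, algebraMap 𝒪 C o ∈ 𝔫) : GaloisRep.IsArtinianTestAlgebra 𝒪 C where
  isLocalHom := isLocalHom_of_nil_ideal 𝔫 h1 h4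
  residue_surjective := residue_surjective_of_nil_ideal 𝔫 h1 h2
  isArtinian := inferInstance

end NilIdeal

end Fermat.Agent.S53
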