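import Mathlib
import Fermat.Agent.S53.CommAlgBasic

set_option autoImplicit false

namespace Fermat.Agent.S53

open IsLocalRing

section ResK

variable {𝒪 : Type} [CommRing 𝒪] [IsLocalRing 𝒪]
variable {A : Type} [CommRing A] [IsLocalRing A] [Algebra 𝒪 A]
variable {B : Type} [CommRing B] [IsLocalRing B] [Algebra 𝒪 B]

theorem isLocalHom_algebraMap_residueField :
    IsLocalHom (algebraMap 𝒪 (ResidueField 𝒪)) := by
  rw [ResidueField.algebraMap_eq]
  infer_instance

/-- The residue field of `𝒪` is itself a test algebra. -/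
theorem isArtinianTestAlgebra_residueField :
    GaloisRep.IsArtinianTestAlgebra 𝒪 (ResidueField 𝒪) where
  isLocalHom := isLocalHom_algebraMap_residueField
  residue_surjective := by
    intro x
    obtain ⟨y, rfl⟩ := IsLocalRing.residue_surjective x
    obtain ⟨o, rfl⟩ := IsLocalRing.residue_surjective y
    exact ⟨o, by simp [ResidueField.algebraMap_eq]⟩
  isArtinian := inferInstance

/-- Any `𝒪`-algebra homomorphism out of a local ring with nil maximal ideal is local. -/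
theorem isLocalHom_of_nil (hnil : ∃ n : ℕ, maximalIdeal A ^ n = ⊥) (φ : A →+* B) :
    IsLocalHom φ := by
  constructor
  intro a ha
  by_contra hcon
  have hm : a ∈ maximalIdeal A := (IsLocalRing.mem_maximalIdeal a).mpr hcon
  obtain ⟨n, hn⟩ := hnil
  have h0 : a ^ n = 0 := by
    have : a ^ n ∈ maximalIdeal A ^ n := Ideal.pow_mem_pow hm n
    rw [hn] at this
    simpa using this
  have h1 : IsUnit (φ a ^ n) := ha.pow n
  rw [← map_pow, h0, map_zero] at h1
  exact not_isUnit_zero h1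

theorem isLocalHom_of_testAlgebra (hA : GaloisRep.IsArtinianTestAlgebra 𝒪 A) (φ : A →+* B) :
    IsLocalHom φ :=
  isLocalHom_of_nil (exists_maximalIdeal_pow_eq_bot hA) φ

theorem residueField_map_bijective (hloc : IsLocalHom (algebraMap 𝒪 A))
    (hsurj : Function.Surjective (IsLocalRing.residue A ∘ algebraMap 𝒪 A)) :
    Function.Bijective (ResidueField.map (algebraMap 𝒪 A)) := by
  refine ⟨(ResidueField.map (algebraMap 𝒪 A)).injective, ?_⟩
  intro x
  obtain ⟨o, rfl⟩ := hsurj x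
  exact ⟨residue 𝒪 o, by simp [ResidueField.map_residue]⟩

/-- The canonical `𝒪`-algebra map `A → k = ResidueField 𝒪` of a local `𝒪`-algebra with residue
field `k`. -/
noncomputable def resK (hloc : IsLocalHom (algebraMap 𝒪 A))
    (hsurj : Function.Surjective (IsLocalRing.residue A ∘ algebraMap 𝒪 A)) :
    A →ₐ[𝒪] ResidueField 𝒪 where
  toRingHom := ((RingEquiv.ofBijective (ResidueField.map (algebraMap 𝒪 A))
      (residueField_map_bijective hloc hsurj)).symm : ResidueField A →+* ResidueField 𝒪).comp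
      (IsLocalRing.residue A)
  commutes' := by
    intro o
    simp only [RingHom.toMonoidHom_eq_coe, OneHom.toFun_eq_coe, MonoidHom.toOneHom_coe,
      MonoidHom.coe_coe, RingHom.coe_comp, RingHom.coe_coe, Function.comp_apply]
    rw [RingEquiv.symm_apply_eq]
    simp [ResidueField.algebraMap_eq, ResidueField.map_residue]

theorem resK_apply_eq_iff (hloc : IsLocalHom (algebraMap 𝒪 A))
    (hsurj : Function.Surjective (IsLocalRing.residue A ∘ algebraMap 𝒪 A)) (a : A)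
    (x : ResidueField 𝒪) :
    resK hloc hsurj a = x ↔ IsLocalRing.residue A a = ResidueField.map (algebraMap 𝒪 A) x := by
  show (RingEquiv.ofBijective (ResidueField.map (algebraMap 𝒪 A))
      (residueField_map_bijective hloc hsurj)).symm (IsLocalRing.residue A a) = x ↔ _
  rw [RingEquiv.symm_apply_eq]
  rfl

theorem resK_eq_zero_iff (hloc : IsLocalHom (algebraMap 𝒪 A))
    (hsurj : Function.Surjective (IsLocalRing.residue A ∘ algebraMap 𝒪 A)) (a : A) :
    resK hloc hsurj a = 0 ↔ a ∈ maximalIdeal A := by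
  rw [resK_apply_eq_iff, map_zero, IsLocalRing.residue_eq_zero_iff]

theorem resK_algebraMap (hloc : IsLocalHom (algebraMap 𝒪 A))
    (hsurj : Function.Surjective (IsLocalRing.residue A ∘ algebraMap 𝒪 A)) (o : 𝒪) :
    resK hloc hsurj (algebraMap 𝒪 A o) = IsLocalRing.residue 𝒪 o := by
  rw [AlgHom.commutes, ResidueField.algebraMap_eq]

theorem resK_surjective (hloc : IsLocalHom (algebraMap 𝒪 A))
    (hsurj : Function.Surjective (IsLocalRing.residue A ∘ algebraMap 𝒪 A)) :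
    Function.Surjective (resK hloc hsurj) := by
  intro x
  obtain ⟨o, rfl⟩ := IsLocalRing.residue_surjective x
  exact ⟨algebraMap 𝒪 A o, resK_algebraMap hloc hsurj o⟩

theorem isLocalHom_resK (hloc : IsLocalHom (algebraMap 𝒪 A))
    (hsurj : Function.Surjective (IsLocalRing.residue A ∘ algebraMap 𝒪 A)) :
    IsLocalHom ((resK hloc hsurj : A →ₐ[𝒪] ResidueField 𝒪) : A →+* ResidueField 𝒪) := by
  constructor
  intro a ha
  by_contra hcon
  have hm : a ∈ maximalIdeal A := (IsLocalRing.mem_maximalIdeal a).mpr hcon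
  have h0 : resK hloc hsurj a = 0 := (resK_eq_zero_iff hloc hsurj a).mpr hm
  have ha' : IsUnit (resK hloc hsurj a) := ha
  rw [h0] at ha'
  exact not_isUnit_zero ha'

/-- Decomposition `a = o + (element of m_A)`. -/
theorem exists_sub_algebraMap_mem_maximalIdeal
    (hsurj : Function.Surjective (IsLocalRing.residue A ∘ algebraMap 𝒪 A)) (a : A) :
    ∃ o : 𝒪, a - algebraMap 𝒪 A o ∈ maximalIdeal A := by
  obtain ⟨o, ho⟩ := hsurj (IsLocalRing.residue A a)
  refine ⟨o, ?_⟩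
  rw [← IsLocalRing.residue_eq_zero_iff, map_sub, sub_eq_zero]
  exact ho.symm

/-- `𝒪`-algebra maps which are local commute with `resK`. -/
theorem resK_comp (hlocA : IsLocalHom (algebraMap 𝒪 A))
    (hsurjA : Function.Surjective (IsLocalRing.residue A ∘ algebraMap 𝒪 A))
    (hlocB : IsLocalHom (algebraMap 𝒪 B))
    (hsurjB : Function.Surjective (IsLocalRing.residue B ∘ algebraMap 𝒪 B))
    (φ : A →ₐ[𝒪] B) (hφ : IsLocalHom (φ : A →+* B)) (a : A) :
    resK hlocB hsurjB (φ a) = resK hlocA hsurjA a := by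
  obtain ⟨o, ho⟩ := exists_sub_algebraMap_mem_maximalIdeal hsurjA a
  have h1 : resK hlocA hsurjA (a - algebraMap 𝒪 A o) = 0 :=
    (resK_eq_zero_iff hlocA hsurjA _).mpr ho
  have h2 : φ (a - algebraMap 𝒪 A o) ∈ maximalIdeal B := by
    rw [IsLocalRing.mem_maximalIdeal, mem_nonunits_iff]
    intro hu
    have : IsUnit (a - algebraMap 𝒪 A o) := hφ.map_nonunit _ hu
    exact (IsLocalRing.mem_maximalIdeal _).mp ho this
  have h3 : resK hlocB hsurjB (φ (a - algebraMap 𝒪 A o)) = 0 :=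
    (resK_eq_zero_iff hlocB hsurjB _).mpr h2
  rw [map_sub, map_sub, AlgHom.commutes, AlgHom.commutes, sub_eq_zero] at h3
  rw [map_sub, AlgHom.commutes, sub_eq_zero] at h1
  rw [h3, h1]

end ResK

section FibProd

variable (𝒪 : Type) [CommRing 𝒪] [IsLocalRing 𝒪]
variable (A : Type) [CommRing A] [IsLocalRing A] [Algebra 𝒪 A]
variable (B : Type) [CommRing B] [IsLocalRing B] [Algebra 𝒪 B]

/-- The fibre product `A ×_k B` over the common residue field, as a subalgebra of `A × B`. -/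
def fibProd : Subalgebra 𝒪 (A × B) where
  carrier := {p | ∃ o : 𝒪, p.1 - algebraMap 𝒪 A o ∈ maximalIdeal A ∧
    p.2 - algebraMap 𝒪 B o ∈ maximalIdeal B}
  mul_mem' := by
    rintro ⟨a, b⟩ ⟨a', b'⟩ ⟨o, ho1, ho2⟩ ⟨o', ho1', ho2'⟩
    refine ⟨o * o', ?_, ?_⟩
    · have : a * a' - algebraMap 𝒪 A (o * o') =
          (a - algebraMap 𝒪 A o) * a' + algebraMap 𝒪 A o * (a' - algebraMap 𝒪 A o') := by
        rw [map_mul]; ring
      show a * a' - algebraMap 𝒪 A (o * o') ∈ maximalIdeal A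
      rw [this]
      exact Ideal.add_mem _ (Ideal.mul_mem_right _ _ ho1) (Ideal.mul_mem_left _ _ ho1')
    · have : b * b' - algebraMap 𝒪 B (o * o') =
          (b - algebraMap 𝒪 B o) * b' + algebraMap 𝒪 B o * (b' - algebraMap 𝒪 B o') := by
        rw [map_mul]; ring
      show b * b' - algebraMap 𝒪 B (o * o') ∈ maximalIdeal B
      rw [this]
      exact Ideal.add_mem _ (Ideal.mul_mem_right _ _ ho2) (Ideal.mul_mem_left _ _ ho2')
  add_mem' := by
    rintro ⟨a, b⟩ ⟨a', b'⟩ ⟨o, ho1, ho2⟩ ⟨o', ho1', ho2'⟩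
    refine ⟨o + o', ?_, ?_⟩
    · have : a + a' - algebraMap 𝒪 A (o + o') =
          (a - algebraMap 𝒪 A o) + (a' - algebraMap 𝒪 A o') := by
        rw [map_add]; ring
      show a + a' - algebraMap 𝒪 A (o + o') ∈ maximalIdeal A
      rw [this]
      exact Ideal.add_mem _ ho1 ho1'
    · have : b + b' - algebraMap 𝒪 B (o + o') =
          (b - algebraMap 𝒪 B o) + (b' - algebraMap 𝒪 B o') := by
        rw [map_add]; ring
      show b + b' - algebraMap 𝒪 B (o + o') ∈ maximalIdeal B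
      rw [this]
      exact Ideal.add_mem _ ho2 ho2'
  algebraMap_mem' := by
    intro o
    refine ⟨o, ?_, ?_⟩
    · show algebraMap 𝒪 A o - algebraMap 𝒪 A o ∈ maximalIdeal A
      rw [sub_self]; exact Ideal.zero_mem _
    · show algebraMap 𝒪 B o - algebraMap 𝒪 B o ∈ maximalIdeal B
      rw [sub_self]; exact Ideal.zero_mem _

variable {𝒪 A B}

theorem mem_fibProd {p : A × B} :
    p ∈ fibProd 𝒪 A B ↔ ∃ o : 𝒪, p.1 - algebraMap 𝒪 A o ∈ maximalIdeal A ∧
      p.2 - algebraMap 𝒪 B o ∈ maximalIdeal B := Iff.rfl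

/-- First projection of the fibre product. -/
def fibProdFst : ↥(fibProd 𝒪 A B) →ₐ[𝒪] A := (AlgHom.fst 𝒪 A B).comp (fibProd 𝒪 A B).val

/-- Second projection of the fibre product. -/
def fibProdSnd : ↥(fibProd 𝒪 A B) →ₐ[𝒪] B := (AlgHom.snd 𝒪 A B).comp (fibProd 𝒪 A B).val

@[simp] theorem fibProdFst_apply (x : ↥(fibProd 𝒪 A B)) : fibProdFst x = x.1.1 := rfl
@[simp] theorem fibProdSnd_apply (x : ↥(fibProd 𝒪 A B)) : fibProdSnd x = x.1.2 := rfl

theorem fibProd_injective :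
    Function.Injective (fun x : ↥(fibProd 𝒪 A B) => (fibProdFst x, fibProdSnd x)) := by
  intro x y h
  apply Subtype.ext
  exact h

theorem mem_fibProd_iff_resK (hlocA : IsLocalHom (algebraMap 𝒪 A))
    (hsurjA : Function.Surjective (IsLocalRing.residue A ∘ algebraMap 𝒪 A))
    (hlocB : IsLocalHom (algebraMap 𝒪 B))
    (hsurjB : Function.Surjective (IsLocalRing.residue B ∘ algebraMap 𝒪 B)) {p : A × B} :
    p ∈ fibProd 𝒪 A B ↔ resK hlocA hsurjA p.1 = resK hlocB hsurjB p.2 := by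
  rw [mem_fibProd]
  constructor
  · rintro ⟨o, h1, h2⟩
    have e1 := (resK_eq_zero_iff hlocA hsurjA _).mpr h1
    have e2 := (resK_eq_zero_iff hlocB hsurjB _).mpr h2
    rw [map_sub, AlgHom.commutes, sub_eq_zero] at e1 e2
    rw [e1, e2]
  · intro h
    obtain ⟨o, ho⟩ := exists_sub_algebraMap_mem_maximalIdeal hsurjA p.1
    refine ⟨o, ho, ?_⟩
    have e1 := (resK_eq_zero_iff hlocA hsurjA _).mpr ho
    rw [map_sub, AlgHom.commutes, sub_eq_zero] at e1
    rw [← resK_eq_zero_iff hlocB hsurjB, map_sub, AlgHom.commutes, sub_eq_zero, ← h, e1]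

theorem fibProd_resK_comm (hlocA : IsLocalHom (algebraMap 𝒪 A))
    (hsurjA : Function.Surjective (IsLocalRing.residue A ∘ algebraMap 𝒪 A))
    (hlocB : IsLocalHom (algebraMap 𝒪 B))
    (hsurjB : Function.Surjective (IsLocalRing.residue B ∘ algebraMap 𝒪 B)) :
    (resK hlocA hsurjA).comp (fibProdFst (𝒪 := 𝒪) (A := A) (B := B)) =
      (resK hlocB hsurjB).comp fibProdSnd := by
  ext x
  exact (mem_fibProd_iff_resK hlocA hsurjA hlocB hsurjB).mp x.2

theorem fibProd_exists_of_resK_eq (hlocA : IsLocalHom (algebraMap 𝒪 A))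
    (hsurjA : Function.Surjective (IsLocalRing.residue A ∘ algebraMap 𝒪 A))
    (hlocB : IsLocalHom (algebraMap 𝒪 B))
    (hsurjB : Function.Surjective (IsLocalRing.residue B ∘ algebraMap 𝒪 B))
    (a : A) (b : B) (h : resK hlocA hsurjA a = resK hlocB hsurjB b) :
    ∃ x : ↥(fibProd 𝒪 A B), fibProdFst x = a ∧ fibProdSnd x = b :=
  ⟨⟨(a, b), (mem_fibProd_iff_resK hlocA hsurjA hlocB hsurjB).mpr h⟩, rfl, rfl⟩

/-- The nil ideal of the fibre product (pairs in `m_A × m_B`). -/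
def fibProdNil : Ideal ↥(fibProd 𝒪 A B) :=
  Ideal.comap (fibProdFst (𝒪 := 𝒪) (A := A) (B := B) : ↥(fibProd 𝒪 A B) →+* A) (maximalIdeal A)

theorem mem_fibProdNil_iff (hlocB : IsLocalHom (algebraMap 𝒪 B)) (x : ↥(fibProd 𝒪 A B)) :
    x ∈ fibProdNil (𝒪 := 𝒪) (A := A) (B := B) ↔
      x.1.1 ∈ maximalIdeal A ∧ x.1.2 ∈ maximalIdeal B := by
  constructor
  · intro hx
    have hx1 : x.1.1 ∈ maximalIdeal A := hx
    refine ⟨hx1, ?_⟩
    obtain ⟨o, ho1, ho2⟩ := x.2
    have hoA : algebraMap 𝒪 A o ∈ maximalIdeal A := by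
      have := Ideal.sub_mem _ hx1 ho1
      simpa using this
    have hom : o ∈ maximalIdeal 𝒪 := by
      rw [IsLocalRing.mem_maximalIdeal, mem_nonunits_iff]
      intro hu
      exact (IsLocalRing.mem_maximalIdeal _).mp hoA (hu.map _)
    have hoB : algebraMap 𝒪 B o ∈ maximalIdeal B := by
      rw [IsLocalRing.mem_maximalIdeal, mem_nonunits_iff]
      intro hu
      exact (IsLocalRing.mem_maximalIdeal _).mp hom (hlocB.map_nonunit _ hu)
    have := Ideal.add_mem _ ho2 hoB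
    simpa using this
  · intro hx
    exact hx.1

theorem fibProdNil_nilpotent (hlocB : IsLocalHom (algebraMap 𝒪 B))
    (hnA : ∃ n : ℕ, maximalIdeal A ^ n = ⊥) (hnB : ∃ n : ℕ, maximalIdeal B ^ n = ⊥)
    (x : ↥(fibProd 𝒪 A B)) (hx : x ∈ fibProdNil (𝒪 := 𝒪) (A := A) (B := B)) :
    IsNilpotent x := by
  obtain ⟨hxA, hxB⟩ := (mem_fibProdNil_iff hlocB x).mp hx
  obtain ⟨n, hn⟩ := hnA
  obtain ⟨m, hm⟩ := hnB
  refine ⟨n + m, ?_⟩
  apply Subtype.ext
  have h1 : x.1.1 ^ (n + m) = 0 := by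
    have : x.1.1 ^ n ∈ maximalIdeal A ^ n := Ideal.pow_mem_pow hxA n
    rw [hn] at this
    rw [pow_add, (Ideal.mem_bot.mp this), zero_mul]
  have h2 : x.1.2 ^ (n + m) = 0 := by
    have : x.1.2 ^ m ∈ maximalIdeal B ^ m := Ideal.pow_mem_pow hxB m
    rw [hm] at this
    rw [pow_add, (Ideal.mem_bot.mp this), mul_zero]
  show ((x ^ (n + m) : ↥(fibProd 𝒪 A B)) : A × B) = 0
  rw [SubmonoidClass.coe_pow]
  exact Prod.ext (by simpa using h1) (by simpa using h2)

theorem fibProd_exists_sub_mem_nil (x : ↥(fibProd 𝒪 A B)) :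
    ∃ o : 𝒪, x - algebraMap 𝒪 ↥(fibProd 𝒪 A B) o ∈
      fibProdNil (𝒪 := 𝒪) (A := A) (B := B) := by
  obtain ⟨o, ho1, _⟩ := x.2
  exact ⟨o, ho1⟩

theorem fibProd_algebraMap_mem_nil (hlocA : IsLocalHom (algebraMap 𝒪 A)) (o : 𝒪)
    (ho : o ∈ maximalIdeal 𝒪) :
    algebraMap 𝒪 ↥(fibProd 𝒪 A B) o ∈ fibProdNil (𝒪 := 𝒪) (A := A) (B := B) := by
  show algebraMap 𝒪 A o ∈ maximalIdeal A
  rw [IsLocalRing.mem_maximalIdeal, mem_nonunits_iff]
  intro hu
  exact (IsLocalRing.mem_maximalIdeal _).mp ho (hlocA.map_nonunit _ hu)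

instance nontrivial_fibProd : Nontrivial ↥(fibProd 𝒪 A B) :=
  ⟨⟨0, 1, fun h => by
    have := congrArg (fun x : ↥(fibProd 𝒪 A B) => x.1.1) h
    simp at this⟩⟩

/-- The fibre product of two test algebras is a local ring. -/
theorem isLocalRing_fibProd (hA : GaloisRep.IsArtinianTestAlgebra 𝒪 A)
    (hB : GaloisRep.IsArtinianTestAlgebra 𝒪 B) : IsLocalRing ↥(fibProd 𝒪 A B) :=
  isLocalRing_of_nil_ideal (fibProdNil (𝒪 := 𝒪) (A := A) (B := B))
    (fibProdNil_nilpotent hB.isLocalHom (exists_maximalIdeal_pow_eq_bot hA)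
      (exists_maximalIdeal_pow_eq_bot hB))
    fibProd_exists_sub_mem_nil
    (fun o ho => fibProd_algebraMap_mem_nil hA.isLocalHom o ho)

theorem maximalIdeal_fibProd [IsLocalRing ↥(fibProd 𝒪 A B)]
    (hA : GaloisRep.IsArtinianTestAlgebra 𝒪 A)
    (hB : GaloisRep.IsArtinianTestAlgebra 𝒪 B) :
    maximalIdeal ↥(fibProd 𝒪 A B) = fibProdNil (𝒪 := 𝒪) (A := A) (B := B) :=
  maximalIdeal_eq_of_nil_ideal (fibProdNil (𝒪 := 𝒪) (A := A) (B := B))
    (fibProdNil_nilpotent hB.isLocalHom (exists_maximalIdeal_pow_eq_bot hA)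
      (exists_maximalIdeal_pow_eq_bot hB))
    fibProd_exists_sub_mem_nil
    (fun o ho => fibProd_algebraMap_mem_nil hA.isLocalHom o ho)

/-- The fibre product of two test algebras is a test algebra. -/
theorem isArtinianTestAlgebra_fibProd [Finite (ResidueField 𝒪)] [IsLocalRing ↥(fibProd 𝒪 A B)]
    (hA : GaloisRep.IsArtinianTestAlgebra 𝒪 A)
    (hB : GaloisRep.IsArtinianTestAlgebra 𝒪 B) :
    GaloisRep.IsArtinianTestAlgebra 𝒪 ↥(fibProd 𝒪 A B) := by
  haveI := finite_of_testAlgebra hA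
  haveI := finite_of_testAlgebra hB
  exact isArtinianTestAlgebra_of_nil_ideal (fibProdNil (𝒪 := 𝒪) (A := A) (B := B))
    (fibProdNil_nilpotent hB.isLocalHom (exists_maximalIdeal_pow_eq_bot hA)
      (exists_maximalIdeal_pow_eq_bot hB))
    fibProd_exists_sub_mem_nil
    (fun o ho => fibProd_algebraMap_mem_nil hA.isLocalHom o ho)

theorem isLocalHom_fibProdFst [IsLocalRing ↥(fibProd 𝒪 A B)]
    (hA : GaloisRep.IsArtinianTestAlgebra 𝒪 A) (hB : GaloisRep.IsArtinianTestAlgebra 𝒪 B) :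
    IsLocalHom ((fibProdFst : ↥(fibProd 𝒪 A B) →ₐ[𝒪] A) : ↥(fibProd 𝒪 A B) →+* A) := by
  constructor
  intro x hx
  by_contra hcon
  have hm : x ∈ maximalIdeal ↥(fibProd 𝒪 A B) := (IsLocalRing.mem_maximalIdeal x).mpr hcon
  rw [maximalIdeal_fibProd hA hB] at hm
  have : fibProdFst x ∈ maximalIdeal A := hm
  exact (IsLocalRing.mem_maximalIdeal _).mp this hx

theorem isLocalHom_fibProdSnd [IsLocalRing ↥(fibProd 𝒪 A B)]
    (hA : GaloisRep.IsArtinianTestAlgebra 𝒪 A) (hB : GaloisRep.IsArtinianTestAlgebra 𝒪 B) :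
    IsLocalHom ((fibProdSnd : ↥(fibProd 𝒪 A B) →ₐ[𝒪] B) : ↥(fibProd 𝒪 A B) →+* B) := by
  constructor
  intro x hx
  by_contra hcon
  have hm : x ∈ maximalIdeal ↥(fibProd 𝒪 A B) := (IsLocalRing.mem_maximalIdeal x).mpr hcon
  rw [maximalIdeal_fibProd hA hB] at hm
  have : fibProdSnd x ∈ maximalIdeal B := ((mem_fibProdNil_iff hB.isLocalHom x).mp hm).2
  exact (IsLocalRing.mem_maximalIdeal _).mp this hx

end FibProd

section SubalgebraTest

variable {𝒪 : Type} [CommRing 𝒪] [IsLocalRing 𝒪]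
variable {A : Type} [CommRing A] [IsLocalRing A] [Algebra 𝒪 A]

/-- The nil ideal of a subalgebra of a test algebra. -/
def subalgNil (C : Subalgebra 𝒪 A) : Ideal ↥C :=
  Ideal.comap (C.val : ↥C →+* A) (maximalIdeal A)

theorem subalgNil_nilpotent (hn : ∃ n : ℕ, maximalIdeal A ^ n = ⊥) (C : Subalgebra 𝒪 A)
    (x : ↥C) (hx : x ∈ subalgNil C) : IsNilpotent x := by
  obtain ⟨n, hn⟩ := hn
  refine ⟨n, ?_⟩
  apply Subtype.ext
  have hx' : (x : A) ∈ maximalIdeal A := hx
  have : (x : A) ^ n ∈ maximalIdeal A ^ n := Ideal.pow_mem_pow hx' n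
  rw [hn] at this
  show ((x ^ n : ↥C) : A) = 0
  rw [SubmonoidClass.coe_pow]
  exact Ideal.mem_bot.mp this

theorem subalg_exists_sub_mem_nil
    (hsurj : Function.Surjective (IsLocalRing.residue A ∘ algebraMap 𝒪 A))
    (C : Subalgebra 𝒪 A) (x : ↥C) :
    ∃ o : 𝒪, x - algebraMap 𝒪 ↥C o ∈ subalgNil C := by
  obtain ⟨o, ho⟩ := exists_sub_algebraMap_mem_maximalIdeal hsurj (x : A)
  exact ⟨o, ho⟩

theorem subalg_algebraMap_mem_nil (hloc : IsLocalHom (algebraMap 𝒪 A)) (C : Subalgebra 𝒪 A)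
    (o : 𝒪) (ho : o ∈ maximalIdeal 𝒪) : algebraMap 𝒪 ↥C o ∈ subalgNil C := by
  show algebraMap 𝒪 A o ∈ maximalIdeal A
  rw [IsLocalRing.mem_maximalIdeal, mem_nonunits_iff]
  intro hu
  exact (IsLocalRing.mem_maximalIdeal _).mp ho (hloc.map_nonunit _ hu)

/-- Every `𝒪`-subalgebra of a test algebra is a local ring. -/
theorem isLocalRing_subalgebra (hA : GaloisRep.IsArtinianTestAlgebra 𝒪 A)
    (C : Subalgebra 𝒪 A) : IsLocalRing ↥C :=
  isLocalRing_of_nil_ideal (subalgNil C)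
    (subalgNil_nilpotent (exists_maximalIdeal_pow_eq_bot hA) C)
    (subalg_exists_sub_mem_nil hA.residue_surjective C)
    (fun o ho => subalg_algebraMap_mem_nil hA.isLocalHom C o ho)

theorem maximalIdeal_subalgebra (hA : GaloisRep.IsArtinianTestAlgebra 𝒪 A)
    (C : Subalgebra 𝒪 A) [IsLocalRing ↥C] : maximalIdeal ↥C = subalgNil C :=
  maximalIdeal_eq_of_nil_ideal (subalgNil C)
    (subalgNil_nilpotent (exists_maximalIdeal_pow_eq_bot hA) C)
    (subalg_exists_sub_mem_nil hA.residue_surjective C)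
    (fun o ho => subalg_algebraMap_mem_nil hA.isLocalHom C o ho)

theorem mem_maximalIdeal_subalgebra_iff (hA : GaloisRep.IsArtinianTestAlgebra 𝒪 A)
    (C : Subalgebra 𝒪 A) [IsLocalRing ↥C] (x : ↥C) :
    x ∈ maximalIdeal ↥C ↔ (x : A) ∈ maximalIdeal A := by
  rw [maximalIdeal_subalgebra hA C]
  rfl

/-- Every `𝒪`-subalgebra of a test algebra is a test algebra. -/
theorem isArtinianTestAlgebra_subalgebra [Finite (ResidueField 𝒪)]
    (hA : GaloisRep.IsArtinianTestAlgebra 𝒪 A)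
    (C : Subalgebra 𝒪 A) [IsLocalRing ↥C] : GaloisRep.IsArtinianTestAlgebra 𝒪 ↥C := by
  haveI := finite_of_testAlgebra hA
  exact isArtinianTestAlgebra_of_nil_ideal (subalgNil C)
    (subalgNil_nilpotent (exists_maximalIdeal_pow_eq_bot hA) C)
    (subalg_exists_sub_mem_nil hA.residue_surjective C)
    (fun o ho => subalg_algebraMap_mem_nil hA.isLocalHom C o ho)

theorem isLocalHom_subalgebra_val (hA : GaloisRep.IsArtinianTestAlgebra 𝒪 A)
    (C : Subalgebra 𝒪 A) [IsLocalRing ↥C] : IsLocalHom ((C.val : ↥C →ₐ[𝒪] A) : ↥C →+* A) := by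
  constructor
  intro x hx
  by_contra hcon
  have hm : x ∈ maximalIdeal ↥C := (IsLocalRing.mem_maximalIdeal x).mpr hcon
  rw [mem_maximalIdeal_subalgebra_iff hA C] at hm
  exact (IsLocalRing.mem_maximalIdeal _).mp hm hx

end SubalgebraTest

section QuotientTest

variable {𝒪 : Type} [CommRing 𝒪] [IsLocalRing 𝒪]
variable {A : Type} [CommRing A] [IsLocalRing A] [Algebra 𝒪 A]

theorem isLocalRing_quotient (J : Ideal A) (hJ : J ≠ ⊤) : IsLocalRing (A ⧸ J) :=
  haveI : Nontrivial (A ⧸ J) := Ideal.Quotient.nontrivial_iff.mpr hJ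
  IsLocalRing.of_surjective' (Ideal.Quotient.mk J) Ideal.Quotient.mk_surjective

theorem isLocalHom_quotient_mk (J : Ideal A) [IsLocalRing (A ⧸ J)] :
    IsLocalHom (Ideal.Quotient.mk J) :=
  IsLocalHom.of_surjective (Ideal.Quotient.mk J) Ideal.Quotient.mk_surjective

theorem isLocalHom_algebraMap_quotient (hloc : IsLocalHom (algebraMap 𝒪 A)) (J : Ideal A)
    [IsLocalRing (A ⧸ J)] : IsLocalHom (algebraMap 𝒪 (A ⧸ J)) := by
  haveI := hloc
  haveI := isLocalHom_quotient_mk J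
  have : algebraMap 𝒪 (A ⧸ J) = (Ideal.Quotient.mk J).comp (algebraMap 𝒪 A) := rfl
  rw [this]
  infer_instance

theorem residue_surjective_quotient
    (hsurj : Function.Surjective (IsLocalRing.residue A ∘ algebraMap 𝒪 A)) (J : Ideal A)
    [IsLocalRing (A ⧸ J)] :
    Function.Surjective (IsLocalRing.residue (A ⧸ J) ∘ algebraMap 𝒪 (A ⧸ J)) := by
  haveI := isLocalHom_quotient_mk J
  intro x
  obtain ⟨y, rfl⟩ := IsLocalRing.residue_surjective x
  obtain ⟨a, rfl⟩ := Ideal.Quotient.mk_surjective y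
  obtain ⟨o, ho⟩ := exists_sub_algebraMap_mem_maximalIdeal hsurj a
  refine ⟨o, ?_⟩
  have h1 : Ideal.Quotient.mk J (a - algebraMap 𝒪 A o) ∈ maximalIdeal (A ⧸ J) := by
    rw [IsLocalRing.mem_maximalIdeal, mem_nonunits_iff]
    intro hu
    exact (IsLocalRing.mem_maximalIdeal _).mp ho
      ((isLocalHom_quotient_mk J).map_nonunit _ hu)
  have h2 := (IsLocalRing.residue_eq_zero_iff _).mpr h1
  rw [map_sub, map_sub, sub_eq_zero] at h2
  exact h2.symm

/-- A proper quotient of a test algebra is a test algebra. -/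
theorem isArtinianTestAlgebra_quotient (hA : GaloisRep.IsArtinianTestAlgebra 𝒪 A) (J : Ideal A)
    [IsLocalRing (A ⧸ J)] : GaloisRep.IsArtinianTestAlgebra 𝒪 (A ⧸ J) where
  isLocalHom := isLocalHom_algebraMap_quotient hA.isLocalHom J
  residue_surjective := residue_surjective_quotient hA.residue_surjective J
  isArtinian :=
    haveI := hA.isArtinian
    (Ideal.Quotient.mk_surjective (I := J)).isArtinianRing

/-- For a Noetherian local `𝒪`-algebra `A` with residue field `k` (finite), `A ⧸ J` is a test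
algebra whenever `m_A ^ n ≤ J ≠ ⊤`. -/
theorem isArtinianTestAlgebra_quotient_of_pow_le [Finite (ResidueField 𝒪)] [IsNoetherianRing A]
    (hloc : IsLocalHom (algebraMap 𝒪 A))
    (hsurj : Function.Surjective (IsLocalRing.residue A ∘ algebraMap 𝒪 A)) (J : Ideal A)
    [IsLocalRing (A ⧸ J)] (n : ℕ) (hn : maximalIdeal A ^ n ≤ J) :
    GaloisRep.IsArtinianTestAlgebra 𝒪 (A ⧸ J) where
  isLocalHom := isLocalHom_algebraMap_quotient hloc J
  residue_surjective := residue_surjective_quotient hsurj J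
  isArtinian := by
    haveI : Finite (ResidueField A) :=
      Finite.of_surjective _ (residueField_map_bijective hloc hsurj).2
    haveI : Finite (A ⧸ J) := (IsLocalRing.finite_quotient_iff).mpr ⟨n, hn⟩
    infer_instance

theorem finite_quotient_of_pow_le [Finite (ResidueField 𝒪)] [IsNoetherianRing A]
    (hloc : IsLocalHom (algebraMap 𝒪 A))
    (hsurj : Function.Surjective (IsLocalRing.residue A ∘ algebraMap 𝒪 A)) (J : Ideal A)
    (n : ℕ) (hn : maximalIdeal A ^ n ≤ J) : Finite (A ⧸ J) := by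
  haveI : Finite (ResidueField A) :=
    Finite.of_surjective _ (residueField_map_bijective hloc hsurj).2
  exact (IsLocalRing.finite_quotient_iff).mpr ⟨n, hn⟩

theorem maximalIdeal_pow_ne_top (n : ℕ) (hn : n ≠ 0) : maximalIdeal A ^ n ≠ ⊤ := by
  intro h
  have h1 : maximalIdeal A ^ n ≤ maximalIdeal A := Ideal.pow_le_self hn
  rw [h] at h1
  exact (IsLocalRing.maximalIdeal.isMaximal A).ne_top (top_le_iff.mp h1)

end QuotientTest

section ToFibProd

variable {𝒪 : Type} [CommRing 𝒪] [IsLocalRing 𝒪]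
variable {A : Type} [CommRing A] [IsLocalRing A] [Algebra 𝒪 A]
variable {B : Type} [CommRing B] [IsLocalRing B] [Algebra 𝒪 B]
variable {Q : Type} [CommRing Q] [IsLocalRing Q] [Algebra 𝒪 Q]

theorem mem_fibProd_self_iff
    (hsurj : Function.Surjective (IsLocalRing.residue A ∘ algebraMap 𝒪 A)) {p : A × A} :
    p ∈ fibProd 𝒪 A A ↔ p.1 - p.2 ∈ maximalIdeal A := by
  rw [mem_fibProd]
  constructor
  · rintro ⟨o, h1, h2⟩
    have := Ideal.sub_mem _ h1 h2
    simpa using this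
  · intro h
    obtain ⟨o, ho⟩ := exists_sub_algebraMap_mem_maximalIdeal hsurj p.2
    refine ⟨o, ?_, ho⟩
    have := Ideal.add_mem _ h ho
    simpa using this

theorem prod_mem_fibProd
    (hsurjQ : Function.Surjective (IsLocalRing.residue Q ∘ algebraMap 𝒪 Q))
    (pA : Q →ₐ[𝒪] A) (pB : Q →ₐ[𝒪] B)
    (hpA : IsLocalHom (pA : Q →+* A)) (hpB : IsLocalHom (pB : Q →+* B)) (q : Q) :
    (pA.prod pB) q ∈ fibProd 𝒪 A B := by
  obtain ⟨o, ho⟩ := exists_sub_algebraMap_mem_maximalIdeal hsurjQ q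
  refine ⟨o, ?_, ?_⟩
  · show pA q - algebraMap 𝒪 A o ∈ maximalIdeal A
    rw [← AlgHom.commutes pA, ← map_sub, IsLocalRing.mem_maximalIdeal, mem_nonunits_iff]
    intro hu
    exact (IsLocalRing.mem_maximalIdeal _).mp ho (hpA.map_nonunit _ hu)
  · show pB q - algebraMap 𝒪 B o ∈ maximalIdeal B
    rw [← AlgHom.commutes pB, ← map_sub, IsLocalRing.mem_maximalIdeal, mem_nonunits_iff]
    intro hu
    exact (IsLocalRing.mem_maximalIdeal _).mp ho (hpB.map_nonunit _ hu)

/-- The canonical map of a local `𝒪`-algebra `Q` (residue field `k`) with two local maps to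
`A` and `B` into the fibre product `A ×_k B`. -/
def toFibProd (hsurjQ : Function.Surjective (IsLocalRing.residue Q ∘ algebraMap 𝒪 Q))
    (pA : Q →ₐ[𝒪] A) (pB : Q →ₐ[𝒪] B)
    (hpA : IsLocalHom (pA : Q →+* A)) (hpB : IsLocalHom (pB : Q →+* B)) :
    Q →ₐ[𝒪] ↥(fibProd 𝒪 A B) :=
  AlgHom.codRestrict (pA.prod pB) (fibProd 𝒪 A B) (prod_mem_fibProd hsurjQ pA pB hpA hpB)

theorem fibProdFst_comp_toFibProd
    (hsurjQ : Function.Surjective (IsLocalRing.residue Q ∘ algebraMap 𝒪 Q))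
    (pA : Q →ₐ[𝒪] A) (pB : Q →ₐ[𝒪] B)
    (hpA : IsLocalHom (pA : Q →+* A)) (hpB : IsLocalHom (pB : Q →+* B)) :
    fibProdFst.comp (toFibProd hsurjQ pA pB hpA hpB) = pA := by
  ext q; rfl

theorem fibProdSnd_comp_toFibProd
    (hsurjQ : Function.Surjective (IsLocalRing.residue Q ∘ algebraMap 𝒪 Q))
    (pA : Q →ₐ[𝒪] A) (pB : Q →ₐ[𝒪] B)
    (hpA : IsLocalHom (pA : Q →+* A)) (hpB : IsLocalHom (pB : Q →+* B)) :
    fibProdSnd.comp (toFibProd hsurjQ pA pB hpA hpB) = pB := by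
  ext q; rfl

theorem toFibProd_injective
    (hsurjQ : Function.Surjective (IsLocalRing.residue Q ∘ algebraMap 𝒪 Q))
    (pA : Q →ₐ[𝒪] A) (pB : Q →ₐ[𝒪] B)
    (hpA : IsLocalHom (pA : Q →+* A)) (hpB : IsLocalHom (pB : Q →+* B))
    (hinj : Function.Injective (fun x => (pA x, pB x))) :
    Function.Injective (toFibProd hsurjQ pA pB hpA hpB) := by
  intro x y h
  apply hinj
  have := congrArg (fun z : ↥(fibProd 𝒪 A B) => (z : A × B)) h
  exact this

end ToFibProd

end Fermat.Agent.S53
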