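import Mathlib
import Fermat.Prelude.Def_GaloisRep_DeformationCondition

set_option autoImplicit false
set_option linter.style.haveILetI false
set_option linter.unusedSectionVars false

noncomputable section

namespace Fermat.Agent.S53.H113

open IsLocalRing GaloisRep
open scoped TensorProduct

/-! ### Transitivity of base change -/

theorem cancelBaseChange_baseChange {A B C V : Type} [CommRing A] [CommRing B] [CommRing C]
    [Algebra A B] [Algebra B C] [Algebra A C] [IsScalarTower A B C]
    [AddCommGroup V] [Module A V] (f : Module.End A V) (x : C ⊗[B] (B ⊗[A] V)) :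
    TensorProduct.AlgebraTensorModule.cancelBaseChange A B C C V
      ((f.baseChange B).baseChange C x) =
    f.baseChange C (TensorProduct.AlgebraTensorModule.cancelBaseChange A B C C V x) := by
  induction x using TensorProduct.induction_on with
  | zero => simp only [map_zero]
  | tmul c y =>
    induction y using TensorProduct.induction_on with
    | zero => simp only [TensorProduct.tmul_zero, map_zero]
    | tmul b v =>
      simp only [LinearMap.baseChange_tmul,
        TensorProduct.AlgebraTensorModule.cancelBaseChange_tmul]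
    | add y z hy hz =>
      simp only [TensorProduct.tmul_add, map_add, hy, hz]
  | add x y hx hy => simp only [map_add, hx, hy]

/-- Base change of adic Galois representations is transitive (up to equivalence). -/
theorem baseChangeAlong_comp_isEquiv {A B C : Type} [CommRing A] [IsLocalRing A]
    [CommRing B] [IsLocalRing B] [CommRing C] [IsLocalRing C]
    (φ : A →+* B) (hφ : IsLocalHom φ) (ψ : B →+* C) (hψ : IsLocalHom ψ)
    (hψφ : IsLocalHom (ψ.comp φ)) (ρ : GaloisRepAdic A) :
    ((ρ.baseChangeAlong φ hφ).baseChangeAlong ψ hψ).IsEquiv (ρ.baseChangeAlong (ψ.comp φ) hψφ) := by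
  letI : Algebra A B := φ.toAlgebra
  letI : Algebra B C := ψ.toAlgebra
  letI : Algebra A C := (ψ.comp φ).toAlgebra
  haveI : IsScalarTower A B C := IsScalarTower.of_algebraMap_eq (fun _ => rfl)
  exact ⟨⟨TensorProduct.AlgebraTensorModule.cancelBaseChange A B C C ρ.V,
    fun σ x => cancelBaseChange_baseChange (ρ.ρ σ) x⟩⟩

/-- Variant with the composite given up to equality. -/
theorem baseChangeAlong_comp_isEquiv' {A B C : Type} [CommRing A] [IsLocalRing A]
    [CommRing B] [IsLocalRing B] [CommRing C] [IsLocalRing C]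
    (φ : A →+* B) (hφ : IsLocalHom φ) (ψ : B →+* C) (hψ : IsLocalHom ψ)
    (χ : A →+* C) (hχ : IsLocalHom χ) (h : ψ.comp φ = χ) (ρ : GaloisRepAdic A) :
    ((ρ.baseChangeAlong φ hφ).baseChangeAlong ψ hψ).IsEquiv (ρ.baseChangeAlong χ hχ) := by
  subst h
  exact baseChangeAlong_comp_isEquiv φ hφ ψ hψ hχ ρ

theorem isEquiv_symm {A : Type} [CommRing A] [IsLocalRing A] {ρ ρ' : GaloisRepAdic A}
    (h : ρ.IsEquiv ρ') : ρ'.IsEquiv ρ := h.elim fun e => ⟨e.symm⟩

theorem isEquiv_trans {A : Type} [CommRing A] [IsLocalRing A] {ρ ρ' ρ'' : GaloisRepAdic A}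
    (h : ρ.IsEquiv ρ') (h' : ρ'.IsEquiv ρ'') : ρ.IsEquiv ρ'' :=
  h.elim fun e => h'.elim fun e' => ⟨e.trans e'⟩

theorem isEquiv_refl {A : Type} [CommRing A] [IsLocalRing A] (ρ : GaloisRepAdic A) :
    ρ.IsEquiv ρ := ⟨GaloisRepAdic.Equiv.refl ρ⟩

theorem isEquiv_baseChangeAlong {A B : Type} [CommRing A] [IsLocalRing A]
    [CommRing B] [IsLocalRing B] (φ : A →+* B) (hφ : IsLocalHom φ) {ρ ρ' : GaloisRepAdic A}
    (h : ρ.IsEquiv ρ') : (ρ.baseChangeAlong φ hφ).IsEquiv (ρ'.baseChangeAlong φ hφ) :=
  h.elim fun e => ⟨e.baseChangeAlong φ hφ⟩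

/-! ### Test algebras -/

section TestAlgebra

variable {𝒪 : Type} [CommRing 𝒪] [IsLocalRing 𝒪]

/-- Any `𝒪`-algebra homomorphism from a local `𝒪`-algebra to a local `𝒪`-algebra `B` with
`𝒪 → B` local and residue field generated by `𝒪` is a local homomorphism. -/
theorem isLocalHom_algHom {A B : Type} [CommRing A] [IsLocalRing A] [Algebra 𝒪 A]
    [CommRing B] [IsLocalRing B] [Algebra 𝒪 B]
    (hloc : IsLocalHom (algebraMap 𝒪 B))
    (hB : Function.Surjective (IsLocalRing.residue B ∘ algebraMap 𝒪 B))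
    (φ : A →ₐ[𝒪] B) : IsLocalHom (φ : A →+* B) := by
  refine ⟨fun a ha => ?_⟩
  have ha' : IsUnit (φ a) := ha
  by_contra hna
  have ham : a ∈ maximalIdeal A := hna
  obtain ⟨c, hc⟩ := hB (residue B (φ a))
  have hc' : residue B (algebraMap 𝒪 B c) = residue B (φ a) := hc
  have hcB : IsUnit (algebraMap 𝒪 B c) := by
    by_contra hn
    have h0 : residue B (algebraMap 𝒪 B c) = 0 := (IsLocalRing.residue_eq_zero_iff _).mpr hn
    rw [hc'] at h0
    exact (IsLocalRing.residue_eq_zero_iff _).mp h0 ha'
  have hcu : IsUnit c := hloc.map_nonunit c hcB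
  have hcA : IsUnit (algebraMap 𝒪 A c) := hcu.map _
  have hu : IsUnit (a - algebraMap 𝒪 A c) := by
    by_contra hn
    have hn' : a - algebraMap 𝒪 A c ∈ maximalIdeal A := hn
    have : algebraMap 𝒪 A c ∈ maximalIdeal A := by
      have := (maximalIdeal A).sub_mem ham hn'
      simpa using this
    exact this hcA
  have hu' : IsUnit (φ (a - algebraMap 𝒪 A c)) := hu.map φ
  have h0 : residue B (φ (a - algebraMap 𝒪 A c)) = 0 := by
    rw [map_sub, φ.commutes, map_sub, hc', sub_self]
  exact (IsLocalRing.residue_eq_zero_iff _).mp h0 hu'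

theorem isLocalHom_algHom_of_test {A B : Type} [CommRing A] [IsLocalRing A] [Algebra 𝒪 A]
    [CommRing B] [IsLocalRing B] [Algebra 𝒪 B] (hB : IsArtinianTestAlgebra 𝒪 B)
    (φ : A →ₐ[𝒪] B) : IsLocalHom (φ : A →+* B) :=
  isLocalHom_algHom hB.isLocalHom hB.residue_surjective φ

/-- The residue field of `𝒪` is an Artinian test algebra. -/
theorem isArtinianTestAlgebra_residueField :
    IsArtinianTestAlgebra 𝒪 (ResidueField 𝒪) where
  isLocalHom := by
    rw [IsLocalRing.ResidueField.algebraMap_eq]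
    infer_instance
  residue_surjective := by
    apply Function.Surjective.comp
    · exact IsLocalRing.residue_surjective
    · rw [IsLocalRing.ResidueField.algebraMap_eq]
      exact IsLocalRing.residue_surjective
  isArtinian := inferInstance

section resk

variable {A : Type} [CommRing A] [IsLocalRing A] [Algebra 𝒪 A]

theorem residueField_map_bijective (hloc : IsLocalHom (algebraMap 𝒪 A))
    (hsurj : Function.Surjective (IsLocalRing.residue A ∘ algebraMap 𝒪 A)) :
    Function.Bijective (IsLocalRing.ResidueField.map (algebraMap 𝒪 A)) := by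
  refine ⟨RingHom.injective _, fun y => ?_⟩
  obtain ⟨c, hc⟩ := hsurj y
  exact ⟨residue 𝒪 c, by rw [IsLocalRing.ResidueField.map_residue]; exact hc⟩

/-- The residue map of a test algebra, with values in the residue field of `𝒪`. -/
def resk (hloc : IsLocalHom (algebraMap 𝒪 A))
    (hsurj : Function.Surjective (IsLocalRing.residue A ∘ algebraMap 𝒪 A)) :
    A →ₐ[𝒪] ResidueField 𝒪 :=
  { ((RingEquiv.ofBijective (IsLocalRing.ResidueField.map (algebraMap 𝒪 A))
        (residueField_map_bijective hloc hsurj)).symm : ResidueField A →+* ResidueField 𝒪).comp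
      (residue A) with
    commutes' := fun c => by
      show (RingEquiv.ofBijective (IsLocalRing.ResidueField.map (algebraMap 𝒪 A))
        (residueField_map_bijective hloc hsurj)).symm (residue A (algebraMap 𝒪 A c)) =
          algebraMap 𝒪 (ResidueField 𝒪) c
      rw [RingEquiv.symm_apply_eq]
      show _ = IsLocalRing.ResidueField.map (algebraMap 𝒪 A) (residue 𝒪 c)
      rw [IsLocalRing.ResidueField.map_residue] }

theorem resk_eq_zero_iff (hloc : IsLocalHom (algebraMap 𝒪 A))
    (hsurj : Function.Surjective (IsLocalRing.residue A ∘ algebraMap 𝒪 A)) (a : A) :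
    resk hloc hsurj a = 0 ↔ a ∈ maximalIdeal A := by
  show (RingEquiv.ofBijective (IsLocalRing.ResidueField.map (algebraMap 𝒪 A))
        (residueField_map_bijective hloc hsurj)).symm (residue A a) = 0 ↔ _
  rw [RingEquiv.map_eq_zero_iff, IsLocalRing.residue_eq_zero_iff]

theorem isUnit_iff_resk_ne_zero (hloc : IsLocalHom (algebraMap 𝒪 A))
    (hsurj : Function.Surjective (IsLocalRing.residue A ∘ algebraMap 𝒪 A)) (a : A) :
    IsUnit a ↔ resk hloc hsurj a ≠ 0 := by
  rw [Ne, resk_eq_zero_iff, IsLocalRing.mem_maximalIdeal, mem_nonunits_iff, not_not]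

theorem resk_surjective (hloc : IsLocalHom (algebraMap 𝒪 A))
    (hsurj : Function.Surjective (IsLocalRing.residue A ∘ algebraMap 𝒪 A)) :
    Function.Surjective (resk hloc hsurj) := by
  intro y
  obtain ⟨c, rfl⟩ := IsLocalRing.residue_surjective y
  exact ⟨algebraMap 𝒪 A c, (resk hloc hsurj).commutes c⟩

end resk

section Finite

variable [Finite (ResidueField 𝒪)] {A : Type} [CommRing A] [IsLocalRing A] [Algebra 𝒪 A]

/-- An Artinian test algebra over `𝒪` (with finite residue field) is a finite ring. -/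
theorem finite_of_isArtinianTestAlgebra (hA : IsArtinianTestAlgebra 𝒪 A) : Finite A := by
  haveI := hA.isArtinian
  haveI : Finite (ResidueField A) :=
    Finite.of_surjective _ (residueField_map_bijective hA.isLocalHom hA.residue_surjective).2
  haveI : Finite (A ⧸ maximalIdeal A) := ‹Finite (ResidueField A)›
  obtain ⟨n, hn⟩ : ∃ n, maximalIdeal A ^ n = ⊥ := by
    have h := IsArtinianRing.isNilpotent_jacobson_bot (R := A)
    rw [IsLocalRing.jacobson_eq_maximalIdeal ⊥ bot_ne_top] at h
    obtain ⟨n, hn⟩ := h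
    exact ⟨n, hn⟩
  have hfin : Finite (A ⧸ maximalIdeal A ^ n) :=
    Ideal.finite_quotient_pow (IsNoetherian.noetherian (maximalIdeal A)) n
  rw [hn] at hfin
  exact Finite.of_equiv _ (RingEquiv.quotientBot A).toEquiv

end Finite

section FibreProduct

variable {A B : Type} [CommRing A] [IsLocalRing A] [Algebra 𝒪 A]
  [CommRing B] [IsLocalRing B] [Algebra 𝒪 B]

/-- The fibre product `A ×_k B` over the residue field `k` of `𝒪`. -/
def fibProd (hA : IsArtinianTestAlgebra 𝒪 A) (hB : IsArtinianTestAlgebra 𝒪 B) :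
    Subalgebra 𝒪 (A × B) :=
  AlgHom.equalizer ((resk hA.isLocalHom hA.residue_surjective).comp (AlgHom.fst 𝒪 A B))
    ((resk hB.isLocalHom hB.residue_surjective).comp (AlgHom.snd 𝒪 A B))

variable (hA : IsArtinianTestAlgebra 𝒪 A) (hB : IsArtinianTestAlgebra 𝒪 B)

theorem mem_fibProd (x : A × B) :
    x ∈ fibProd hA hB ↔ resk hA.isLocalHom hA.residue_surjective x.1 =
      resk hB.isLocalHom hB.residue_surjective x.2 := Iff.rfl

def fibProdFst : fibProd hA hB →ₐ[𝒪] A := (AlgHom.fst 𝒪 A B).comp (fibProd hA hB).val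

def fibProdSnd : fibProd hA hB →ₐ[𝒪] B := (AlgHom.snd 𝒪 A B).comp (fibProd hA hB).val

theorem fibProdFst_apply (x : fibProd hA hB) : fibProdFst hA hB x = x.1.1 := rfl

theorem fibProdSnd_apply (x : fibProd hA hB) : fibProdSnd hA hB x = x.1.2 := rfl

theorem isUnit_fibProd_iff (x : fibProd hA hB) : IsUnit x ↔ IsUnit x.1.1 := by
  constructor
  · intro h
    exact h.map (fibProdFst hA hB)
  · intro h
    have hx := (mem_fibProd hA hB x.1).mp x.2
    have h2 : IsUnit x.1.2 := by
      rw [isUnit_iff_resk_ne_zero hB.isLocalHom hB.residue_surjective, ← hx,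
        ← isUnit_iff_resk_ne_zero hA.isLocalHom hA.residue_surjective]
      exact h
    obtain ⟨u, hu⟩ := h
    obtain ⟨v, hv⟩ := h2
    have hmem : ((↑u⁻¹ : A), (↑v⁻¹ : B)) ∈ fibProd hA hB := by
      rw [mem_fibProd]
      show resk hA.isLocalHom hA.residue_surjective (↑u⁻¹ : A) =
        resk hB.isLocalHom hB.residue_surjective (↑v⁻¹ : B)
      have e1 : resk hA.isLocalHom hA.residue_surjective (↑u⁻¹ : A) *
          resk hA.isLocalHom hA.residue_surjective (u : A) = 1 := by
        rw [← map_mul, Units.inv_mul, map_one]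
      have e2 : resk hB.isLocalHom hB.residue_surjective (↑v⁻¹ : B) *
          resk hB.isLocalHom hB.residue_surjective (v : B) = 1 := by
        rw [← map_mul, Units.inv_mul, map_one]
      rw [hu, hx, ← hv] at e1
      have hne : resk hB.isLocalHom hB.residue_surjective (v : B) ≠ 0 := by
        intro h0
        rw [h0, mul_zero] at e2
        exact zero_ne_one e2
      exact mul_right_cancel₀ hne (e1.trans e2.symm)
    refine ⟨⟨x, ⟨_, hmem⟩, ?_, ?_⟩, rfl⟩
    · apply Subtype.ext
      show ((x.1.1 * (↑u⁻¹ : A), x.1.2 * (↑v⁻¹ : B)) : A × B) = (1, 1)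
      rw [← hu, ← hv, Units.mul_inv, Units.mul_inv]
    · apply Subtype.ext
      show (((↑u⁻¹ : A) * x.1.1, (↑v⁻¹ : B) * x.1.2) : A × B) = (1, 1)
      rw [← hu, ← hv, Units.inv_mul, Units.inv_mul]

theorem isLocalHom_fibProdFst : IsLocalHom (fibProdFst hA hB : fibProd hA hB →+* A) :=
  ⟨fun x hx => (isUnit_fibProd_iff hA hB x).mpr hx⟩

instance isLocalRing_fibProd : IsLocalRing (fibProd hA hB) :=
  haveI := isLocalHom_fibProdFst hA hB
  RingHom.domain_isLocalRing (fibProdFst hA hB : fibProd hA hB →+* A)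

theorem isArtinianTestAlgebra_fibProd [Finite (ResidueField 𝒪)] :
    IsArtinianTestAlgebra 𝒪 (fibProd hA hB) where
  isLocalHom := by
    refine ⟨fun c hc => ?_⟩
    have h1 : IsUnit (fibProdFst hA hB (algebraMap 𝒪 (fibProd hA hB) c)) :=
      hc.map (fibProdFst hA hB)
    rw [AlgHom.commutes] at h1
    exact hA.isLocalHom.map_nonunit c h1
  residue_surjective := by
    intro y
    obtain ⟨x, rfl⟩ := IsLocalRing.residue_surjective y
    obtain ⟨c, hc⟩ := hA.residue_surjective (residue A x.1.1)
    refine ⟨c, ?_⟩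
    show residue _ (algebraMap 𝒪 (fibProd hA hB) c) = residue _ x
    rw [← sub_eq_zero, ← map_sub, IsLocalRing.residue_eq_zero_iff, IsLocalRing.mem_maximalIdeal,
      mem_nonunits_iff, isUnit_fibProd_iff]
    have : residue A (algebraMap 𝒪 A c - x.1.1) = 0 := by
      rw [map_sub, sub_eq_zero]
      exact hc
    rw [IsLocalRing.residue_eq_zero_iff] at this
    exact this
  isArtinian := by
    haveI := finite_of_isArtinianTestAlgebra hA
    haveI := finite_of_isArtinianTestAlgebra hB
    haveI : Finite (fibProd hA hB) := Subtype.finite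
    infer_instance

theorem isLocalHom_fibProdSnd [Finite (ResidueField 𝒪)] :
    IsLocalHom (fibProdSnd hA hB : fibProd hA hB →+* B) :=
  isLocalHom_algHom_of_test hB _

end FibreProduct

section Descent

variable [Finite (ResidueField 𝒪)]
variable {𝒟 : ∀ ⦃A : Type⦄ [CommRing A] [IsLocalRing A] [Algebra 𝒪 A], GaloisRepAdic A → Prop}

/-- Any two `𝒪`-algebra homomorphisms from a test algebra to the residue field of `𝒪` agree. -/
theorem algHom_residueField_eq {Q : Type} [CommRing Q] [IsLocalRing Q] [Algebra 𝒪 Q]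
    (hsurj : Function.Surjective (IsLocalRing.residue Q ∘ algebraMap 𝒪 Q))
    (h h' : Q →ₐ[𝒪] ResidueField 𝒪) : h = h' := by
  have key : ∀ (g : Q →ₐ[𝒪] ResidueField 𝒪) (x : Q), x ∈ maximalIdeal Q → g x = 0 := by
    intro g x hx
    haveI := isLocalHom_algHom_of_test (isArtinianTestAlgebra_residueField (𝒪 := 𝒪)) g
    by_contra hne
    have hu : IsUnit ((g : Q →+* ResidueField 𝒪) x) := (isUnit_iff_ne_zero).mpr hne
    exact hx (isUnit_of_map_unit (g : Q →+* ResidueField 𝒪) x hu)
  ext x
  obtain ⟨c, hc⟩ := hsurj (residue Q x)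
  have hx : x - algebraMap 𝒪 Q c ∈ maximalIdeal Q := by
    rw [← IsLocalRing.residue_eq_zero_iff, map_sub, sub_eq_zero]
    exact hc.symm
  have e1 := key h _ hx
  have e2 := key h' _ hx
  rw [map_sub, AlgHom.commutes, sub_eq_zero] at e1 e2
  rw [e1, e2]

/-- **Joint-injective descent.** If `pA : Q → A`, `pB : Q → B` are jointly injective
`𝒪`-algebra homomorphisms of Artinian test algebras and the base changes of `ρ` to `A` and `B`
satisfy the deformation condition, then so does `ρ`. -/
theorem of_jointly_injective (h𝒟 : IsDeformationCondition 𝒪 𝒟)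
    {Q A B : Type} [CommRing Q] [IsLocalRing Q] [Algebra 𝒪 Q]
    [CommRing A] [IsLocalRing A] [Algebra 𝒪 A] [CommRing B] [IsLocalRing B] [Algebra 𝒪 B]
    (hQ : IsArtinianTestAlgebra 𝒪 Q) (hA : IsArtinianTestAlgebra 𝒪 A)
    (hB : IsArtinianTestAlgebra 𝒪 B)
    (pA : Q →ₐ[𝒪] A) (pB : Q →ₐ[𝒪] B)
    (hpA : IsLocalHom (pA : Q →+* A)) (hpB : IsLocalHom (pB : Q →+* B))
    (hinj : Function.Injective (fun x => (pA x, pB x)))
    (ρ : GaloisRepAdic Q)
    (h1 : 𝒟 (ρ.baseChangeAlong (pA : Q →+* A) hpA))
    (h2 : 𝒟 (ρ.baseChangeAlong (pB : Q →+* B) hpB)) : 𝒟 ρ := by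
  -- the fibre product and the induced map
  have hF := isArtinianTestAlgebra_fibProd hA hB
  let ι : Q →ₐ[𝒪] fibProd hA hB :=
    AlgHom.codRestrict (AlgHom.prod pA pB) (fibProd hA hB) (fun x => by
      rw [mem_fibProd]
      exact DFunLike.congr_fun (algHom_residueField_eq hQ.residue_surjective
        ((resk hA.isLocalHom hA.residue_surjective).comp pA)
        ((resk hB.isLocalHom hB.residue_surjective).comp pB)) x)
  have hι : IsLocalHom (ι : Q →+* fibProd hA hB) := isLocalHom_algHom_of_test hF ι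
  have hιinj : Function.Injective ι := by
    intro x y hxy
    apply hinj
    have := congrArg Subtype.val hxy
    exact this
  have hFst := isLocalHom_fibProdFst hA hB
  have hSnd := isLocalHom_fibProdSnd hA hB
  -- 𝒟 on the fibre product
  have hρF : 𝒟 (ρ.baseChangeAlong (ι : Q →+* fibProd hA hB) hι) := by
    refine h𝒟.of_fibreProduct hA hB (isArtinianTestAlgebra_residueField (𝒪 := 𝒪)) hF
      (resk hA.isLocalHom hA.residue_surjective) (resk hB.isLocalHom hB.residue_surjective)
      (fibProdFst hA hB) (fibProdSnd hA hB) hFst hSnd ?_ ?_ ?_ ?_ ?_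
    · ext x
      exact x.2
    · intro x y hxy
      apply Subtype.ext
      exact hxy
    · intro a b hab
      exact ⟨⟨(a, b), hab⟩, rfl, rfl⟩
    · refine h𝒟.of_isEquiv hA (isEquiv_symm ?_) h1
      exact baseChangeAlong_comp_isEquiv' _ hι _ hFst _ hpA rfl ρ
    · refine h𝒟.of_isEquiv hB (isEquiv_symm ?_) h2
      exact baseChangeAlong_comp_isEquiv' _ hι _ hSnd _ hpB rfl ρ
  exact h𝒟.of_baseChangeAlong_injective hQ hF ι hι hιinj hρF

end Descent

end TestAlgebra

end Fermat.Agent.S53.H113
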