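import Mathlib
import Fermat.Prelude.Def_GaloisRep_DeformationRingData
import Fermat.Prelude.Def_GaloisRep_DeformationCondition
import Fermat.Prelude.Thm_IsLocalRing_isAdicComplete_of_module_finite
import Fermat.Agent.S53.CommAlgTest
import Fermat.Agent.S53.GlueInj
import Fermat.Agent.S53.H173.Eval
import Fermat.Agent.S53.H596.Tower
import Fermat.Agent.S53.H596.PowerSeriesCNL

set_option autoImplicit false

/-!
# Commutative algebra consumed by `Abstract.lean`

All statements needed by the abstract pro-representability proof, in the exact shape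
in which they are used.  Statements: helper353 (verbatim).  Proofs: helper393, by reduction to
the finished comm-alg block (helper713 `CommAlgBasic`/`CommAlgTest`, helper173 `H173/*`,
helper596 `H596/*`, helper113 `GlueInj`).
-/

namespace Fermat.Agent.S53.CA

open IsLocalRing GaloisRep

section Test

variable {𝒪 : Type} [CommRing 𝒪] [IsLocalRing 𝒪]

/-- local ring structure on the quotient by a proper ideal -/
theorem isLocalRing_quot {A : Type} [CommRing A] [IsLocalRing A] {J : Ideal A} (hJ : J ≠ ⊤) :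
    IsLocalRing (A ⧸ J) :=
  haveI : Nontrivial (A ⧸ J) := Ideal.Quotient.nontrivial_iff.mpr hJ
  IsLocalRing.of_surjective' (Ideal.Quotient.mk J) Ideal.Quotient.mk_surjective

/-- (CA1) the maximal ideal of a test algebra is nilpotent -/
theorem test_pow_eq_bot {A : Type} [CommRing A] [IsLocalRing A] [Algebra 𝒪 A]
    (hA : IsArtinianTestAlgebra 𝒪 A) : ∃ n : ℕ, maximalIdeal A ^ n = ⊥ :=
  Fermat.Agent.S53.exists_maximalIdeal_pow_eq_bot hA

/-- (CA2a) a subalgebra of a test algebra is local -/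
theorem test_subalgebra_isLocalRing [Finite (ResidueField 𝒪)]
    {A : Type} [CommRing A] [IsLocalRing A] [Algebra 𝒪 A]
    (hA : IsArtinianTestAlgebra 𝒪 A) (A' : Subalgebra 𝒪 A) : IsLocalRing A' :=
  Fermat.Agent.S53.isLocalRing_subalgebra hA A'

/-- (CA2b) a subalgebra of a test algebra is a test algebra -/
theorem test_subalgebra [Finite (ResidueField 𝒪)]
    {A : Type} [CommRing A] [IsLocalRing A] [Algebra 𝒪 A]
    (hA : IsArtinianTestAlgebra 𝒪 A) (A' : Subalgebra 𝒪 A) [IsLocalRing A'] :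
    IsArtinianTestAlgebra 𝒪 A' :=
  Fermat.Agent.S53.isArtinianTestAlgebra_subalgebra hA A'

/-- (CA3) a quotient of a test algebra by a proper ideal is a test algebra -/
theorem test_quotient {A : Type} [CommRing A] [IsLocalRing A] [Algebra 𝒪 A]
    (hA : IsArtinianTestAlgebra 𝒪 A) (J : Ideal A) [IsLocalRing (A ⧸ J)] :
    IsArtinianTestAlgebra 𝒪 (A ⧸ J) :=
  Fermat.Agent.S53.isArtinianTestAlgebra_quotient hA J

/-- the fibre product `A ×_k A` as a subalgebra of `A × A` -/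
def fibreSq (𝒪 : Type) [CommRing 𝒪] (A : Type) [CommRing A] [IsLocalRing A] [Algebra 𝒪 A] :
    Subalgebra 𝒪 (A × A) where
  carrier := {p | p.1 - p.2 ∈ maximalIdeal A}
  mul_mem' := by
    intro a b ha hb
    simp only [Set.mem_ofPred_eq, Prod.fst_mul, Prod.snd_mul] at *
    have : a.1 * b.1 - a.2 * b.2 = a.1 * (b.1 - b.2) + (a.1 - a.2) * b.2 := by ring
    rw [this]
    exact Ideal.add_mem _ (Ideal.mul_mem_left _ _ hb) (Ideal.mul_mem_right _ _ ha)
  add_mem' := by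
    intro a b ha hb
    simp only [Set.mem_ofPred_eq, Prod.fst_add, Prod.snd_add] at *
    have : a.1 + b.1 - (a.2 + b.2) = (a.1 - a.2) + (b.1 - b.2) := by ring
    rw [this]
    exact Ideal.add_mem _ ha hb
  algebraMap_mem' := by
    intro r
    simp

theorem mem_fibreSq {A : Type} [CommRing A] [IsLocalRing A] [Algebra 𝒪 A] {p : A × A} :
    p ∈ fibreSq 𝒪 A ↔ p.1 - p.2 ∈ maximalIdeal A := Iff.rfl

/-- the ideal of pairs with both coordinates in the maximal ideal -/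
def fibreSqNil (𝒪 : Type) [CommRing 𝒪] (A : Type) [CommRing A] [IsLocalRing A] [Algebra 𝒪 A] :
    Ideal ↥(fibreSq 𝒪 A) :=
  Ideal.comap (((AlgHom.fst 𝒪 A A).comp (fibreSq 𝒪 A).val : ↥(fibreSq 𝒪 A) →ₐ[𝒪] A) :
    ↥(fibreSq 𝒪 A) →+* A) (maximalIdeal A)

theorem mem_fibreSqNil {A : Type} [CommRing A] [IsLocalRing A] [Algebra 𝒪 A]
    (x : ↥(fibreSq 𝒪 A)) : x ∈ fibreSqNil 𝒪 A ↔ x.1.1 ∈ maximalIdeal A := Iff.rfl

theorem snd_mem_of_mem_fibreSqNil {A : Type} [CommRing A] [IsLocalRing A] [Algebra 𝒪 A]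
    (x : ↥(fibreSq 𝒪 A)) (hx : x ∈ fibreSqNil 𝒪 A) : x.1.2 ∈ maximalIdeal A := by
  have h1 : x.1.1 ∈ maximalIdeal A := hx
  have h2 : x.1.1 - x.1.2 ∈ maximalIdeal A := x.2
  have := (maximalIdeal A).sub_mem h1 h2
  simpa using this

theorem isUnit_of_not_mem_fibreSqNil {A : Type} [CommRing A] [IsLocalRing A] [Algebra 𝒪 A]
    (x : ↥(fibreSq 𝒪 A)) (hx : x ∉ fibreSqNil 𝒪 A) : IsUnit x := by
  have h1 : IsUnit x.1.1 := by
    by_contra h
    exact hx ((IsLocalRing.mem_maximalIdeal _).mpr h)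
  have h2 : IsUnit x.1.2 := by
    by_contra h
    have h2' : x.1.2 ∈ maximalIdeal A := (IsLocalRing.mem_maximalIdeal _).mpr h
    have h3 : x.1.1 - x.1.2 ∈ maximalIdeal A := x.2
    have := (maximalIdeal A).add_mem h3 h2'
    rw [sub_add_cancel] at this
    exact (IsLocalRing.mem_maximalIdeal _).mp this h1
  obtain ⟨u, hu⟩ := h1
  obtain ⟨v, hv⟩ := h2
  have hmem : (((u⁻¹ : Aˣ) : A), ((v⁻¹ : Aˣ) : A)) ∈ fibreSq 𝒪 A := by
    rw [mem_fibreSq]
    show ((u⁻¹ : Aˣ) : A) - ((v⁻¹ : Aˣ) : A) ∈ maximalIdeal A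
    have h3 : x.1.1 - x.1.2 ∈ maximalIdeal A := x.2
    have e : ((u⁻¹ : Aˣ) : A) - ((v⁻¹ : Aˣ) : A) =
        -(((u⁻¹ : Aˣ) : A) * ((v⁻¹ : Aˣ) : A) * (x.1.1 - x.1.2)) := by
      rw [← hu, ← hv]
      have e1 : ((u⁻¹ : Aˣ) : A) * (u : A) = 1 := by simp
      have e2 : ((v⁻¹ : Aˣ) : A) * (v : A) = 1 := by simp
      calc ((u⁻¹ : Aˣ) : A) - ((v⁻¹ : Aˣ) : A)
          = ((u⁻¹ : Aˣ) : A) * (((v⁻¹ : Aˣ) : A) * (v : A)) -
              ((v⁻¹ : Aˣ) : A) * (((u⁻¹ : Aˣ) : A) * (u : A)) := by rw [e1, e2]; ring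
        _ = -(((u⁻¹ : Aˣ) : A) * ((v⁻¹ : Aˣ) : A) * ((u : A) - (v : A))) := by ring
    rw [e]
    exact (maximalIdeal A).neg_mem (Ideal.mul_mem_left _ _ h3)
  refine isUnit_iff_exists_inv.mpr ⟨⟨_, hmem⟩, ?_⟩
  apply Subtype.ext
  apply Prod.ext
  · show x.1.1 * ((u⁻¹ : Aˣ) : A) = 1
    rw [← hu]; simp
  · show x.1.2 * ((v⁻¹ : Aˣ) : A) = 1
    rw [← hv]; simp

theorem not_isUnit_of_mem_fibreSqNil {A : Type} [CommRing A] [IsLocalRing A] [Algebra 𝒪 A]
    (x : ↥(fibreSq 𝒪 A)) (hx : x ∈ fibreSqNil 𝒪 A) : ¬ IsUnit x := by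
  intro hu
  have h1 : IsUnit (((AlgHom.fst 𝒪 A A).comp (fibreSq 𝒪 A).val : ↥(fibreSq 𝒪 A) →ₐ[𝒪] A) x) :=
    hu.map _
  have h2 : x.1.1 ∈ maximalIdeal A := hx
  exact (IsLocalRing.mem_maximalIdeal _).mp h2 h1

/-- (CA4a) the fibre product is local -/
theorem fibreSq_isLocalRing {A : Type} [CommRing A] [IsLocalRing A] [Algebra 𝒪 A] :
    IsLocalRing (fibreSq 𝒪 A) := by
  haveI : Nontrivial ↥(fibreSq 𝒪 A) :=
    ⟨⟨0, 1, fun h => by
      have := congrArg (fun x : ↥(fibreSq 𝒪 A) => x.1.1) h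
      simp at this⟩⟩
  refine IsLocalRing.of_nonunits_add ?_
  intro a b ha hb
  have ha' : a ∈ fibreSqNil 𝒪 A := by
    by_contra h
    exact ha (isUnit_of_not_mem_fibreSqNil a h)
  have hb' : b ∈ fibreSqNil 𝒪 A := by
    by_contra h
    exact hb (isUnit_of_not_mem_fibreSqNil b h)
  exact not_isUnit_of_mem_fibreSqNil _ ((fibreSqNil 𝒪 A).add_mem ha' hb')

theorem fibreSq_maximalIdeal {A : Type} [CommRing A] [IsLocalRing A] [Algebra 𝒪 A]
    [IsLocalRing (fibreSq 𝒪 A)] : maximalIdeal ↥(fibreSq 𝒪 A) = fibreSqNil 𝒪 A := by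
  ext x
  rw [IsLocalRing.mem_maximalIdeal, mem_nonunits_iff]
  constructor
  · intro h
    by_contra h'
    exact h (isUnit_of_not_mem_fibreSqNil x h')
  · exact not_isUnit_of_mem_fibreSqNil x

/-- (CA4b) the fibre product of a test algebra is a test algebra -/
theorem test_fibreSq [Finite (ResidueField 𝒪)] {A : Type} [CommRing A] [IsLocalRing A]
    [Algebra 𝒪 A] (hA : IsArtinianTestAlgebra 𝒪 A) [IsLocalRing (fibreSq 𝒪 A)] :
    IsArtinianTestAlgebra 𝒪 (fibreSq 𝒪 A) := by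
  haveI : Finite A := Fermat.Agent.S53.finite_of_testAlgebra hA
  haveI : Finite ↥(fibreSq 𝒪 A) := Subtype.finite
  refine Fermat.Agent.S53.isArtinianTestAlgebra_of_nil_ideal (fibreSqNil 𝒪 A) ?_ ?_ ?_
  · intro x hx
    obtain ⟨n, hn⟩ := Fermat.Agent.S53.exists_maximalIdeal_pow_eq_bot hA
    have h1 : x.1.1 ∈ maximalIdeal A := hx
    have h2 : x.1.2 ∈ maximalIdeal A := snd_mem_of_mem_fibreSqNil x hx
    refine ⟨n, ?_⟩
    apply Subtype.ext
    apply Prod.ext
    · show x.1.1 ^ n = 0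
      have := Ideal.pow_mem_pow h1 n
      rwa [hn, Ideal.mem_bot] at this
    · show x.1.2 ^ n = 0
      have := Ideal.pow_mem_pow h2 n
      rwa [hn, Ideal.mem_bot] at this
  · intro c
    obtain ⟨o, ho⟩ := Fermat.Agent.S53.exists_sub_algebraMap_mem_maximalIdeal
      hA.residue_surjective c.1.1
    exact ⟨o, ho⟩
  · intro o ho
    show algebraMap 𝒪 A o ∈ maximalIdeal A
    rw [IsLocalRing.mem_maximalIdeal, mem_nonunits_iff]
    intro hu
    exact (IsLocalRing.mem_maximalIdeal _).mp ho (hA.isLocalHom.map_nonunit _ hu)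

/-- (CA5) Artinian quotients of a complete Noetherian local algebra -/
theorem test_quotient_pow {A : Type} [CommRing A] [IsLocalRing A] [IsNoetherianRing A]
    [Algebra 𝒪 A] (hloc : IsLocalHom (algebraMap 𝒪 A))
    (hres : Function.Surjective (IsLocalRing.residue A ∘ algebraMap 𝒪 A))
    (n : ℕ) [IsLocalRing (A ⧸ maximalIdeal A ^ n)] :
    IsArtinianTestAlgebra 𝒪 (A ⧸ maximalIdeal A ^ n) where
  isLocalHom := Fermat.Agent.S53.isLocalHom_algebraMap_quotient hloc _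
  residue_surjective := Fermat.Agent.S53.residue_surjective_quotient hres _
  isArtinian := by
    rw [isArtinianRing_iff_isNilpotent_maximalIdeal]
    haveI : IsLocalHom (Ideal.Quotient.mk (maximalIdeal A ^ n)) :=
      Fermat.Agent.S53.isLocalHom_quotient_mk _
    refine ⟨n, ?_⟩
    have h1 : maximalIdeal (A ⧸ maximalIdeal A ^ n) =
        (maximalIdeal A).map (Ideal.Quotient.mk (maximalIdeal A ^ n)) := by
      apply le_antisymm
      · intro y hy
        obtain ⟨a, rfl⟩ := Ideal.Quotient.mk_surjective y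
        refine Ideal.mem_map_of_mem _ ?_
        rw [IsLocalRing.mem_maximalIdeal, mem_nonunits_iff] at hy ⊢
        intro hu
        exact hy (hu.map _)
      · rw [Ideal.map_le_iff_le_comap]
        intro a ha
        rw [Ideal.mem_comap, IsLocalRing.mem_maximalIdeal, mem_nonunits_iff]
        intro hu
        exact (IsLocalRing.mem_maximalIdeal _).mp ha
          (isUnit_of_map_unit (Ideal.Quotient.mk (maximalIdeal A ^ n)) a hu)
    rw [h1, ← Ideal.map_pow, Ideal.zero_eq_bot, Ideal.map_quotient_self]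

/-- (CA6) a test algebra is adically complete -/
theorem test_isAdicComplete {A : Type} [CommRing A] [IsLocalRing A] [Algebra 𝒪 A]
    (hA : IsArtinianTestAlgebra 𝒪 A) : IsAdicComplete (maximalIdeal A) A :=
  haveI := hA.isArtinian
  inferInstance

/-- any ring hom out of a test algebra into a local ring is local -/
theorem test_isLocalHom {A B : Type} [CommRing A] [IsLocalRing A] [Algebra 𝒪 A]
    [CommRing B] [IsLocalRing B]
    (hA : IsArtinianTestAlgebra 𝒪 A) (φ : A →+* B) : IsLocalHom φ :=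
  Fermat.Agent.S53.isLocalHom_of_nil (Fermat.Agent.S53.exists_maximalIdeal_pow_eq_bot hA) φ

end Test

section PowerSeries

variable (𝒪 : Type) [CommRing 𝒪] [IsDomain 𝒪] [IsDiscreteValuationRing 𝒪]
  [IsAdicComplete (IsLocalRing.maximalIdeal 𝒪) 𝒪] [Finite (IsLocalRing.ResidueField 𝒪)]

/-- the power series ring in `d` variables -/
abbrev PS (d : ℕ) : Type := MvPowerSeries (Fin d) 𝒪

/-- (CA7a) -/
theorem ps_isAdicComplete (d : ℕ) : IsAdicComplete (maximalIdeal (PS 𝒪 d)) (PS 𝒪 d) :=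
  Fermat.Agent.S53.H173.isAdicComplete_mvPowerSeries

/-- (CA7b) -/
theorem ps_isLocalHom (d : ℕ) : IsLocalHom (algebraMap 𝒪 (PS 𝒪 d)) :=
  Fermat.Agent.S53.H596.isLocalHom_algebraMap_mvPowerSeries

/-- (CA7c) -/
theorem ps_residue_surjective (d : ℕ) :
    Function.Surjective (IsLocalRing.residue (PS 𝒪 d) ∘ algebraMap 𝒪 (PS 𝒪 d)) :=
  Fermat.Agent.S53.H596.residue_surjective_mvPowerSeries

/-- (CA7d) -/
theorem ps_finite_quotient (d n : ℕ) : Finite (PS 𝒪 d ⧸ maximalIdeal (PS 𝒪 d) ^ n) :=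
  Fermat.Agent.S53.finite_quotient_of_pow_le (𝒪 := 𝒪) (ps_isLocalHom 𝒪 d)
    (ps_residue_surjective 𝒪 d) _ n le_rfl

/-- (CA7e) the variables lie in the maximal ideal -/
theorem ps_X_mem (d : ℕ) (l : Fin d) :
    (MvPowerSeries.X l : PS 𝒪 d) ∈ maximalIdeal (PS 𝒪 d) :=
  Fermat.Agent.S53.H173.X_mem_maximalIdeal l

variable {𝒪}

/-- (CA8a) evaluation maps into complete local algebras -/
theorem exists_evalS {d : ℕ} {A : Type} [CommRing A] [IsLocalRing A] [Algebra 𝒪 A]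
    [IsAdicComplete (maximalIdeal A) A] (hloc : IsLocalHom (algebraMap 𝒪 A))
    (b : Fin d → A) (hb : ∀ l, b l ∈ maximalIdeal A) :
    ∃ φ : PS 𝒪 d →ₐ[𝒪] A, IsLocalHom (φ : PS 𝒪 d →+* A) ∧ ∀ l, φ (MvPowerSeries.X l) = b l :=
  haveI := hloc
  ⟨Fermat.Agent.S53.H173.evalLocal b hb, Fermat.Agent.S53.H173.isLocalHom_evalLocal b hb,
    fun l => Fermat.Agent.S53.H173.evalLocal_X b hb l⟩

/-- (CA8b) local algebra maps out of the power series ring are determined by the variables -/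
theorem evalS_ext {d : ℕ} {A : Type} [CommRing A] [IsLocalRing A] [Algebra 𝒪 A]
    [IsHausdorff (maximalIdeal A) A]
    (φ ψ : PS 𝒪 d →ₐ[𝒪] A) (hφ : ∀ l, φ (MvPowerSeries.X l) ∈ maximalIdeal A)
    (h : ∀ l, φ (MvPowerSeries.X l) = ψ (MvPowerSeries.X l)) : φ = ψ :=
  Fermat.Agent.S53.H173.algHom_ext_of_X φ ψ hφ h

/-- (CA8c) surjectivity criterion (target a test algebra) -/
theorem evalS_surjective {d : ℕ} {A : Type} [CommRing A] [IsLocalRing A] [Algebra 𝒪 A]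
    (hA : IsArtinianTestAlgebra 𝒪 A)
    (φ : PS 𝒪 d →ₐ[𝒪] A)
    (h : maximalIdeal A ≤ (maximalIdeal 𝒪).map (algebraMap 𝒪 A) ⊔
      Ideal.span (Set.range fun l => φ (MvPowerSeries.X l)) ⊔ maximalIdeal A ^ 2) :
    Function.Surjective φ := by
  haveI := hA.isArtinian
  haveI := hA.isLocalHom
  have hφloc : IsLocalHom (φ : PS 𝒪 d →+* A) :=
    Fermat.Agent.S53.H113.isLocalHom_algHom hA.isLocalHom hA.residue_surjective φ
  have hφ : ∀ l, φ (MvPowerSeries.X l) ∈ maximalIdeal A :=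
    fun l => Fermat.Agent.S53.H173.X_mem_of_isLocalHom φ hφloc l
  refine Fermat.Agent.S53.H173.surjective_of_maximalIdeal_le φ hφ hA.residue_surjective ?_
  exact Fermat.Agent.S53.H596.maximalIdeal_le_of_le_sup_sq _ h

/-- (CA9) tower lemma -/
theorem tower {d : ℕ} (I : ℕ → Ideal (PS 𝒪 d))
    (hI : ∀ n, I n = I (n + 1) ⊔ maximalIdeal (PS 𝒪 d) ^ n) (n : ℕ) :
    I n = (⨅ j, I j) ⊔ maximalIdeal (PS 𝒪 d) ^ n := by
  haveI : IsAdicComplete (maximalIdeal (PS 𝒪 d)) (PS 𝒪 d) := ps_isAdicComplete 𝒪 d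
  refine (Fermat.Agent.S53.H596.tower_eq (maximalIdeal (PS 𝒪 d)) I ?_ ?_ ?_ n).symm
  · refine antitone_nat_of_succ_le fun k => ?_
    rw [hI k]
    exact le_sup_left
  · intro k
    rw [hI k]
    exact le_sup_right
  · intro k
    exact (hI k).le

theorem ne_top_of_isLocalRing_quot {S : Type} [CommRing S] (I : Ideal S)
    [IsLocalRing (S ⧸ I)] : I ≠ ⊤ := by
  intro h
  have : Nontrivial (S ⧸ I) := inferInstance
  exact (Ideal.Quotient.nontrivial_iff.mp this) h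

/-- (CA10a) quotients of the power series ring are complete -/
theorem ps_quot_isAdicComplete {d : ℕ} (I : Ideal (PS 𝒪 d)) [IsLocalRing (PS 𝒪 d ⧸ I)] :
    IsAdicComplete (maximalIdeal (PS 𝒪 d ⧸ I)) (PS 𝒪 d ⧸ I) := by
  haveI : IsAdicComplete (maximalIdeal (PS 𝒪 d)) (PS 𝒪 d) := ps_isAdicComplete 𝒪 d
  exact Fermat.Agent.S53.H596.isAdicComplete_quotient I (ne_top_of_isLocalRing_quot I)

/-- (CA10b) -/
theorem ps_quot_isLocalHom {d : ℕ} (I : Ideal (PS 𝒪 d)) [IsLocalRing (PS 𝒪 d ⧸ I)] :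
    IsLocalHom (algebraMap 𝒪 (PS 𝒪 d ⧸ I)) :=
  Fermat.Agent.S53.isLocalHom_algebraMap_quotient (ps_isLocalHom 𝒪 d) I

/-- (CA10c) -/
theorem ps_quot_residue_surjective {d : ℕ} (I : Ideal (PS 𝒪 d)) [IsLocalRing (PS 𝒪 d ⧸ I)] :
    Function.Surjective
      (IsLocalRing.residue (PS 𝒪 d ⧸ I) ∘ algebraMap 𝒪 (PS 𝒪 d ⧸ I)) :=
  Fermat.Agent.S53.residue_surjective_quotient (ps_residue_surjective 𝒪 d) I

/-- (CA10d) quotients by open proper ideals are test algebras -/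
theorem ps_quot_test {d : ℕ} (I : Ideal (PS 𝒪 d)) [IsLocalRing (PS 𝒪 d ⧸ I)] (n : ℕ)
    (hn : maximalIdeal (PS 𝒪 d) ^ n ≤ I) : IsArtinianTestAlgebra 𝒪 (PS 𝒪 d ⧸ I) :=
  Fermat.Agent.S53.isArtinianTestAlgebra_quotient_of_pow_le (ps_isLocalHom 𝒪 d)
    (ps_residue_surjective 𝒪 d) I n hn

end PowerSeries

end Fermat.Agent.S53.CA

namespace Fermat.Agent.S53.CA

open IsLocalRing GaloisRep

/-- (CA11) the residue field is a test algebra -/
theorem test_residueField (𝒪 : Type) [CommRing 𝒪] [IsLocalRing 𝒪] :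
    IsArtinianTestAlgebra 𝒪 (ResidueField 𝒪) :=
  Fermat.Agent.S53.isArtinianTestAlgebra_residueField

end Fermat.Agent.S53.CA
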