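import Fermat.Agent.S53.Abstract6

set_option autoImplicit false
set_option linter.unusedSectionVars false
set_option linter.unusedVariables false
set_option linter.style.haveILetI false

namespace Fermat.Agent.S53

open IsLocalRing GaloisRep CA

/-- Abstract pro-representability: a rigid family has a universal point. -/
theorem exists_universalPoint
    (𝒪 : Type) [CommRing 𝒪] [IsDomain 𝒪] [IsDiscreteValuationRing 𝒪]
    [IsAdicComplete (IsLocalRing.maximalIdeal 𝒪) 𝒪] [Finite (IsLocalRing.ResidueField 𝒪)]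
    (ι : Type) (c : ι → 𝒪) (L : PointFamily 𝒪 ι) (hL : IsRigidFamily 𝒪 ι c L) :
    Nonempty (UniversalPoint 𝒪 ι L) := by
  obtain ⟨d, idx, hsep⟩ := exists_sep hL
  haveI := isLocalRing_Iinf hL hsep
  haveI : IsAdicComplete (maximalIdeal (PS 𝒪 d ⧸ Iinf c L idx)) (PS 𝒪 d ⧸ Iinf c L idx) :=
    ps_quot_isAdicComplete _
  haveI : IsLocalHom (algebraMap 𝒪 (PS 𝒪 d ⧸ Iinf c L idx)) := ps_quot_isLocalHom _
  exact ⟨{
    R := PS 𝒪 d ⧸ Iinf c L idx
    residue_surjective := ps_quot_residue_surjective _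
    xu := xu hL hsep
    mem := xu_mem hL hsep
    universal := fun A _ _ _ _ _ hloc hres y hy => xu_universal hL hsep hloc hres y hy }⟩

end Fermat.Agent.S53
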