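import Fermat.Agent.S53.Final
import Fermat.Agent.S53.H416.TangentBridge

set_option autoImplicit false
set_option linter.unusedSectionVars false
set_option linter.unusedVariables false

open IsLocalRing GaloisRep

noncomputable section

namespace Fermat.Agent.S53

variable {𝒪 : Type} [CommRing 𝒪] [IsDomain 𝒪] [IsDiscreteValuationRing 𝒪]
    [IsAdicComplete (IsLocalRing.maximalIdeal 𝒪) 𝒪]

/-- `Lpred` is a rigid family in the sense of helper353's `AbstractDefs`. -/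
theorem isRigidFamily_Lpred
    (ρbar : ResidualGaloisRep (IsLocalRing.ResidueField 𝒪))
    (𝒟 : ∀ ⦃A : Type⦄ [CommRing A] [IsLocalRing A] [Algebra 𝒪 A], GaloisRepAdic A → Prop)
    (h𝒟 : GaloisRep.IsDeformationCondition 𝒪 𝒟)
    (hbar : 𝒟 (GaloisRepAdic.ofResidualGaloisRep ρbar))
    (hfin : GaloisRep.TangentFinite 𝒪 ρbar 𝒟)
    (rbar : GQ →* M2 (ResidueField 𝒪)) (hrbar : GaloisFactorsThroughFiniteLevel rbar)
    (e0 : ρbar.IsEquiv (toRes rbar hrbar))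
    (c : Idx → 𝒪) (hc : ∀ t, residue 𝒪 (c t) = entries rbar t)
    (K : RigidKit 𝒪 c) :
    IsRigidFamily 𝒪 Idx c (Lpred 𝒟 K) where
  res := fun A _ _ _ hA x hx => by
    obtain ⟨-, -, -, -, hl, -⟩ := hx
    exact hl
  base := Lpred_base h𝒟 K ρbar hbar rbar hrbar e0 hc
  map := fun A B _ _ _ _ _ _ hA hB φ hφ x hx => Lpred_map h𝒟 K hA hB φ hφ hx
  inj := fun A B _ _ _ _ _ _ hA hB φ hφ hinj x hx => Lpred_inj h𝒟 K hA hB φ hφ hinj hx
  fibre := fun A B C P _ _ _ _ _ _ _ _ _ _ _ _ hA hB hC hP f g pA pB hpA hpB hfg hinj hsurj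
      x hxA hxB =>
    Lpred_fibre h𝒟 K hA hB hC hP f g pA pB hpA hpB hfg hinj hsurj hxA hxB
  tangent := H416.tangent_of_finite Idx c (Lpred 𝒟 K)
    (fun A _ _ _ hA x hx => by
      obtain ⟨-, -, -, -, hl, -⟩ := hx
      exact hl)
    (fun A B _ _ _ _ _ _ hA hB φ hφ x hx => Lpred_map h𝒟 K hA hB φ hφ hx)
    (Lpred_tangent_finite ρbar 𝒟 hfin rbar hrbar e0 c hc K)
  limit := fun A _ _ _ _ _ hloc hsurj x =>
    ⟨fun hx B _ _ _ hB q hq hqs => Lpred_limit_mp h𝒟 K hloc hsurj hx hB q hq hqs,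
     fun h => Lpred_limit_mpr h𝒟 K hloc hsurj h⟩

/-- The S53 statement from the abstract core in helper353's shape. -/
theorem nonempty_deformationRingData_of_rigidFamilyCore
    (hD : ∀ (𝒪 : Type) [CommRing 𝒪] [IsDomain 𝒪] [IsDiscreteValuationRing 𝒪]
      [IsAdicComplete (IsLocalRing.maximalIdeal 𝒪) 𝒪] [Finite (IsLocalRing.ResidueField 𝒪)]
      (ι : Type) (c : ι → 𝒪) (L : PointFamily 𝒪 ι), IsRigidFamily 𝒪 ι c L →
      Nonempty (UniversalPoint 𝒪 ι L))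
    (𝒪 : Type) [CommRing 𝒪] [IsDomain 𝒪] [IsDiscreteValuationRing 𝒪]
    [IsAdicComplete (IsLocalRing.maximalIdeal 𝒪) 𝒪] [Finite (IsLocalRing.ResidueField 𝒪)]
    (ρbar : ResidualGaloisRep (IsLocalRing.ResidueField 𝒪))
    (𝒟 : ∀ ⦃A : Type⦄ [CommRing A] [IsLocalRing A] [Algebra 𝒪 A], GaloisRepAdic A → Prop)
    (habs : ρbar.IsAbsolutelyIrreducible)
    (h𝒟 : GaloisRep.IsDeformationCondition 𝒪 𝒟)
    (hbar : 𝒟 (GaloisRepAdic.ofResidualGaloisRep ρbar))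
    (hfin : GaloisRep.TangentFinite 𝒪 ρbar 𝒟) :
    Nonempty (GaloisRep.DeformationRingData 𝒪 ρbar 𝒟) := by
  obtain ⟨rbar, hrbar, c, e0, hc, ⟨K⟩⟩ :=
    exists_rigidKit_of_rigidStatement 𝒪 Rigid.rigidStatement ρbar habs
  obtain ⟨U⟩ := hD 𝒪 Idx c (Lpred 𝒟 K)
    (isRigidFamily_Lpred ρbar 𝒟 h𝒟 hbar hfin rbar hrbar e0 c hc K)
  exact deformationRingData_of_universalPoint 𝒪 ρbar 𝒟 habs h𝒟 rbar hrbar e0 c hc K U

end Fermat.Agent.S53

end
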