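import Mathlib
import Fermat.Prelude.Def_GaloisRep_Adic

set_option autoImplicit false
set_option linter.unusedSectionVars false

open scoped TensorProduct

namespace Fermat.Agent.S53

/-- The absolute Galois group of `ℚ`. -/
abbrev GQ : Type := AlgebraicClosure ℚ ≃ₐ[ℚ] AlgebraicClosure ℚ

/-- `2 × 2` matrices. -/
abbrev M2 (A : Type) : Type := Matrix (Fin 2) (Fin 2) A

/-- Matrices acting on column vectors, as a monoid homomorphism. -/
noncomputable def matEnd (A : Type) [CommRing A] : M2 A →* Module.End A (Fin 2 → A) :=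
  (Matrix.toLinAlgEquiv' (R := A) (n := Fin 2)).toAlgHom.toRingHom.toMonoidHom

@[simp] lemma matEnd_apply {A : Type} [CommRing A] (P : M2 A) (v : Fin 2 → A) :
    matEnd A P v = P.mulVec v := rfl

lemma matEnd_injective (A : Type) [CommRing A] : Function.Injective (matEnd A) :=
  (Matrix.toLinAlgEquiv' (R := A) (n := Fin 2)).injective

section Adic

variable {A : Type} [CommRing A] [IsLocalRing A]

/-- Adic continuity of a matrix-valued representation. -/
def MatCont (r : GQ →* M2 A) : Prop :=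
  ∀ n : ℕ, ∃ L : IntermediateField ℚ (AlgebraicClosure ℚ), FiniteDimensional ℚ L ∧
    ∀ σ : GQ, (∀ x ∈ L, σ x = x) → ∀ i j, (r σ - 1) i j ∈ IsLocalRing.maximalIdeal A ^ n

lemma mem_smul_top_pi_iff (I : Ideal A) (w : Fin 2 → A) :
    w ∈ I • (⊤ : Submodule A (Fin 2 → A)) ↔ ∀ i, w i ∈ I := by
  constructor
  · intro hw
    refine Submodule.smul_induction_on hw ?_ ?_
    · intro a ha v _ i
      simpa [smul_eq_mul] using I.mul_mem_right (v i) ha
    · intro x y hx hy i
      simpa using I.add_mem (hx i) (hy i)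
  · intro hw
    have : w = ∑ i, w i • (Pi.single i (1 : A) : Fin 2 → A) := by
      ext j
      simp [Finset.sum_apply, Pi.single_apply]
    rw [this]
    exact Submodule.sum_mem _ fun i _ => Submodule.smul_mem_smul (hw i) Submodule.mem_top

/-- The adic Galois representation attached to a matrix-valued representation. -/
noncomputable def toAdic (r : GQ →* M2 A) (hr : MatCont r) : GaloisRepAdic A where
  V := Fin 2 → A
  finrank_eq := by simp
  ρ := (matEnd A).comp r
  isAdicContinuous := by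
    intro n
    obtain ⟨L, hL, h⟩ := hr n
    refine ⟨L, hL, fun σ hσ v => ?_⟩
    rw [mem_smul_top_pi_iff]
    intro i
    have : ((matEnd A).comp r) σ v - v = (r σ - 1).mulVec v := by
      simp [Matrix.sub_mulVec]
    rw [this]
    simp only [Matrix.mulVec, dotProduct]
    exact Ideal.sum_mem _ fun j _ => Ideal.mul_mem_right _ _ (h σ hσ i j)

@[simp] lemma toAdic_ρ_apply (r : GQ →* M2 A) (hr : MatCont r) (σ : GQ) (v : Fin 2 → A) :
    (toAdic r hr).ρ σ v = (r σ).mulVec v := rfl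

lemma repr_mem_of_mem_smul_top {V : Type} [AddCommGroup V] [Module A V]
    (b : Module.Basis (Fin 2) A V) (I : Ideal A) {w : V}
    (hw : w ∈ I • (⊤ : Submodule A V)) (i : Fin 2) : b.repr w i ∈ I := by
  refine Submodule.smul_induction_on hw ?_ ?_
  · intro a ha v _
    simpa [smul_eq_mul] using I.mul_mem_right (b.repr v i) ha
  · intro x y hx hy
    simpa using I.add_mem hx hy

/-- Every adic Galois representation is equivalent to a matrix one. -/
theorem exists_toAdic (ρ : GaloisRepAdic A) :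
    ∃ (r : GQ →* M2 A) (hr : MatCont r), ρ.IsEquiv (toAdic r hr) := by
  classical
  let b : Module.Basis (Fin 2) A ρ.V := Module.finBasisOfFinrankEq A ρ.V ρ.finrank_eq
  let r : GQ →* M2 A := (LinearMap.toMatrixAlgEquiv b).toAlgHom.toRingHom.toMonoidHom.comp ρ.ρ
  have hrσ : ∀ σ, r σ = LinearMap.toMatrix b b (ρ.ρ σ) := fun σ => rfl
  have hr : MatCont r := by
    intro n
    obtain ⟨L, hL, h⟩ := ρ.isAdicContinuous n
    refine ⟨L, hL, fun σ hσ i j => ?_⟩
    have h1 : (r σ - 1) i j = b.repr (ρ.ρ σ (b j) - b j) i := by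
      rw [hrσ, ← LinearMap.toMatrix_one b, ← map_sub, LinearMap.toMatrix_apply]
      rfl
    rw [h1]
    exact repr_mem_of_mem_smul_top b _ (h σ hσ (b j)) i
  refine ⟨r, hr, ⟨⟨b.equivFun, fun σ x => ?_⟩⟩⟩
  rw [toAdic_ρ_apply, hrσ]
  exact (LinearMap.toMatrix_mulVec_repr b b (ρ.ρ σ) x).symm

/-- The linear automorphism of `A²` given by an invertible matrix. -/
noncomputable def unitEquiv (P : (M2 A)ˣ) : (Fin 2 → A) ≃ₗ[A] (Fin 2 → A) :=
  Matrix.toLin'OfInv (M := ((P⁻¹ : (M2 A)ˣ) : M2 A)) (M' := (P : M2 A)) (by simp) (by simp)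

@[simp] lemma unitEquiv_apply (P : (M2 A)ˣ) (v : Fin 2 → A) :
    unitEquiv P v = (P : M2 A).mulVec v := rfl

/-- The invertible matrix of a linear automorphism of `A²`. -/
noncomputable def equivUnit (f : (Fin 2 → A) ≃ₗ[A] (Fin 2 → A)) : (M2 A)ˣ :=
  ⟨LinearMap.toMatrix' f.toLinearMap, LinearMap.toMatrix' f.symm.toLinearMap,
    by rw [← LinearMap.toMatrix'_comp]; simp, by rw [← LinearMap.toMatrix'_comp]; simp⟩

lemma equivUnit_mulVec (f : (Fin 2 → A) ≃ₗ[A] (Fin 2 → A)) (v : Fin 2 → A) :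
    ((equivUnit f : (M2 A)ˣ) : M2 A).mulVec v = f v := by
  show (LinearMap.toMatrix' f.toLinearMap).mulVec v = f v
  rw [LinearMap.toMatrix'_mulVec]; rfl

lemma mulVec_injective_M2 {P Q : M2 A} (h : ∀ v : Fin 2 → A, P.mulVec v = Q.mulVec v) : P = Q := by
  apply Matrix.toLin'.injective
  exact LinearMap.ext fun v => by simpa using h v

/-- Equivalence of matrix representations is conjugacy. -/
theorem toAdic_isEquiv_iff (r r' : GQ →* M2 A) (hr : MatCont r) (hr' : MatCont r') :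
    (toAdic r hr).IsEquiv (toAdic r' hr') ↔ ∃ P : (M2 A)ˣ, ∀ σ, (P : M2 A) * r σ = r' σ * P := by
  constructor
  · rintro ⟨e⟩
    let f : (Fin 2 → A) ≃ₗ[A] (Fin 2 → A) := e.toLinearEquiv
    have hf : ∀ σ x, f ((r σ).mulVec x) = (r' σ).mulVec (f x) := e.map_apply
    refine ⟨equivUnit f, fun σ => mulVec_injective_M2 fun v => ?_⟩
    rw [← Matrix.mulVec_mulVec, ← Matrix.mulVec_mulVec, equivUnit_mulVec, equivUnit_mulVec]
    exact hf σ v
  · rintro ⟨P, hP⟩
    refine ⟨⟨unitEquiv P, fun σ x => ?_⟩⟩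
    show (P : M2 A).mulVec ((r σ).mulVec x) = (r' σ).mulVec ((P : M2 A).mulVec x)
    rw [Matrix.mulVec_mulVec, Matrix.mulVec_mulVec, hP]

/-- Conjugating a matrix representation by a unit. -/
noncomputable def conjRep (P : (M2 A)ˣ) (r : GQ →* M2 A) : GQ →* M2 A where
  toFun σ := (P : M2 A) * r σ * ((P⁻¹ : (M2 A)ˣ) : M2 A)
  map_one' := by simp
  map_mul' σ τ := by
    rw [map_mul]
    simp only [mul_assoc]
    congr 2
    rw [← mul_assoc (((P⁻¹ : (M2 A)ˣ) : M2 A)), Units.inv_mul, one_mul]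

@[simp] lemma conjRep_apply (P : (M2 A)ˣ) (r : GQ →* M2 A) (σ : GQ) :
    conjRep P r σ = (P : M2 A) * r σ * ((P⁻¹ : (M2 A)ˣ) : M2 A) := rfl

lemma conjRep_mul_eq (P : (M2 A)ˣ) (r : GQ →* M2 A) (σ : GQ) :
    (P : M2 A) * r σ = conjRep P r σ * P := by
  simp [mul_assoc]

lemma entry_mul_mul_mem (I : Ideal A) (P X Q : M2 A) (hX : ∀ i j, X i j ∈ I) (i j : Fin 2) :
    (P * X * Q) i j ∈ I := by
  rw [Matrix.mul_apply]
  refine Ideal.sum_mem _ fun l _ => Ideal.mul_mem_right _ _ ?_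
  rw [Matrix.mul_apply]
  exact Ideal.sum_mem _ fun k _ => Ideal.mul_mem_left _ _ (hX k l)

lemma MatCont.conj {r : GQ →* M2 A} (hr : MatCont r) (P : (M2 A)ˣ) : MatCont (conjRep P r) := by
  intro n
  obtain ⟨L, hL, h⟩ := hr n
  refine ⟨L, hL, fun σ hσ i j => ?_⟩
  have h1 : conjRep P r σ - 1 = (P : M2 A) * (r σ - 1) * ((P⁻¹ : (M2 A)ˣ) : M2 A) := by
    simp [mul_sub, sub_mul]
  rw [h1]
  exact entry_mul_mul_mem _ _ _ _ (h σ hσ) i j

lemma toAdic_conjRep_isEquiv (r : GQ →* M2 A) (hr : MatCont r) (P : (M2 A)ˣ) :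
    (toAdic r hr).IsEquiv (toAdic (conjRep P r) (hr.conj P)) :=
  (toAdic_isEquiv_iff _ _ _ _).2 ⟨P, conjRep_mul_eq P r⟩

end Adic

section Map

variable {A B : Type} [CommRing A] [CommRing B]

/-- Push a matrix representation forward along a ring homomorphism. -/
noncomputable def mapRep (φ : A →+* B) (r : GQ →* M2 A) : GQ →* M2 B :=
  φ.mapMatrix.toMonoidHom.comp r

@[simp] lemma mapRep_apply (φ : A →+* B) (r : GQ →* M2 A) (σ : GQ) :
    mapRep φ r σ = (r σ).map φ := rfl

lemma mapRep_apply_apply (φ : A →+* B) (r : GQ →* M2 A) (σ : GQ) (i j : Fin 2) :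
    mapRep φ r σ i j = φ (r σ i j) := rfl

lemma mapRep_comp {C : Type} [CommRing C] (ψ : B →+* C) (φ : A →+* B) (r : GQ →* M2 A) :
    mapRep ψ (mapRep φ r) = mapRep (ψ.comp φ) r := by
  ext σ i j; rfl

lemma mapRep_id (r : GQ →* M2 A) : mapRep (RingHom.id A) r = r := by
  ext σ i j; rfl

lemma MatCont.map [IsLocalRing A] [IsLocalRing B] {r : GQ →* M2 A} (hr : MatCont r)
    (φ : A →+* B) (hφ : IsLocalHom φ) : MatCont (mapRep φ r) := by
  intro n
  obtain ⟨L, hL, h⟩ := hr n
  refine ⟨L, hL, fun σ hσ i j => ?_⟩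
  have hmap : (IsLocalRing.maximalIdeal A ^ n).map φ ≤ IsLocalRing.maximalIdeal B ^ n := by
    rw [Ideal.map_pow]
    exact Ideal.pow_right_mono (Ideal.map_le_iff_le_comap.mpr fun a ha =>
      Ideal.mem_comap.mpr (haveI := hφ; map_nonunit φ a ha)) n
  have h1 : (mapRep φ r σ - 1) i j = φ ((r σ - 1) i j) := by
    simp only [mapRep_apply, Matrix.sub_apply, Matrix.map_apply, map_sub]
    congr 1
    by_cases hij : i = j
    · subst hij; simp
    · simp [hij]
  rw [h1]
  exact hmap (Ideal.mem_map_of_mem φ (h σ hσ i j))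

/-- Compatibility of `piScalarRight` with base change of a matrix endomorphism. -/
lemma piScalarRight_baseChange [Algebra A B] (P : M2 A) (x : B ⊗[A] (Fin 2 → A)) :
    TensorProduct.piScalarRight A B B (Fin 2) ((matEnd A P).baseChange B x) =
      (P.map (algebraMap A B)).mulVec (TensorProduct.piScalarRight A B B (Fin 2) x) := by
  induction x using TensorProduct.induction_on with
  | zero => simp
  | tmul b v =>
    rw [LinearMap.baseChange_tmul]
    ext i
    simp only [TensorProduct.piScalarRight_apply, TensorProduct.piScalarRightHom_tmul,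
      matEnd_apply, Matrix.mulVec, dotProduct, Matrix.map_apply, Algebra.smul_def, map_sum,
      map_mul, Finset.sum_mul, mul_assoc]
  | add x y hx hy => simp only [map_add, hx, hy, Matrix.mulVec_add]

theorem baseChangeAlong_toAdic [IsLocalRing A] [IsLocalRing B] (φ : A →+* B) (hφ : IsLocalHom φ)
    (r : GQ →* M2 A) (hr : MatCont r) :
    ((toAdic r hr).baseChangeAlong φ hφ).IsEquiv (toAdic (mapRep φ r) (hr.map φ hφ)) := by
  let _ : Algebra A B := φ.toAlgebra
  let e : B ⊗[A] (Fin 2 → A) ≃ₗ[B] (Fin 2 → B) := TensorProduct.piScalarRight A B B (Fin 2)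
  refine ⟨⟨e, fun σ x => ?_⟩⟩
  exact piScalarRight_baseChange (r σ) x

end Map

section Res

variable {k : Type} [Field k]

/-- The residual Galois representation attached to a matrix-valued representation. -/
noncomputable def toRes (rb : GQ →* M2 k) (h : GaloisFactorsThroughFiniteLevel rb) :
    ResidualGaloisRep k where
  V := Fin 2 → k
  finrank_eq := by simp
  ρ := (matEnd k).comp rb
  factorsThroughFiniteLevel := by
    obtain ⟨L, hL, h1⟩ := h
    exact ⟨L, hL, fun σ hσ => by rw [MonoidHom.comp_apply, h1 σ hσ, map_one]⟩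

@[simp] lemma toRes_ρ_apply (rb : GQ →* M2 k) (h : GaloisFactorsThroughFiniteLevel rb) (σ : GQ)
    (v : Fin 2 → k) : (toRes rb h).ρ σ v = (rb σ).mulVec v := rfl

/-- Every residual Galois representation is equivalent to a matrix one. -/
theorem exists_toRes (ρ : ResidualGaloisRep k) :
    ∃ (rb : GQ →* M2 k) (h : GaloisFactorsThroughFiniteLevel rb), ρ.IsEquiv (toRes rb h) := by
  classical
  let b : Module.Basis (Fin 2) k ρ.V := Module.finBasisOfFinrankEq k ρ.V ρ.finrank_eq
  let r : GQ →* M2 k := (LinearMap.toMatrixAlgEquiv b).toAlgHom.toRingHom.toMonoidHom.comp ρ.ρ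
  have hrσ : ∀ σ, r σ = LinearMap.toMatrix b b (ρ.ρ σ) := fun σ => rfl
  have hr : GaloisFactorsThroughFiniteLevel r := by
    obtain ⟨L, hL, h⟩ := ρ.factorsThroughFiniteLevel
    exact ⟨L, hL, fun σ hσ => by rw [MonoidHom.comp_apply, h σ hσ, map_one]⟩
  refine ⟨r, hr, ⟨⟨b.equivFun, fun σ x => ?_⟩⟩⟩
  rw [toRes_ρ_apply, hrσ]
  exact (LinearMap.toMatrix_mulVec_repr b b (ρ.ρ σ) x).symm

/-- Equivalence of residual matrix representations is conjugacy. -/
theorem toRes_isEquiv_iff (r r' : GQ →* M2 k) (hr : GaloisFactorsThroughFiniteLevel r)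
    (hr' : GaloisFactorsThroughFiniteLevel r') :
    (toRes r hr).IsEquiv (toRes r' hr') ↔ ∃ P : (M2 k)ˣ, ∀ σ, (P : M2 k) * r σ = r' σ * P := by
  constructor
  · rintro ⟨e⟩
    let f : (Fin 2 → k) ≃ₗ[k] (Fin 2 → k) := e.toLinearEquiv
    have hf : ∀ σ x, f ((r σ).mulVec x) = (r' σ).mulVec (f x) := e.map_apply
    refine ⟨equivUnit f, fun σ => mulVec_injective_M2 fun v => ?_⟩
    rw [← Matrix.mulVec_mulVec, ← Matrix.mulVec_mulVec, equivUnit_mulVec, equivUnit_mulVec]
    exact hf σ v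
  · rintro ⟨P, hP⟩
    refine ⟨⟨unitEquiv P, fun σ x => ?_⟩⟩
    show (P : M2 k).mulVec ((r σ).mulVec x) = (r' σ).mulVec ((P : M2 k).mulVec x)
    rw [Matrix.mulVec_mulVec, Matrix.mulVec_mulVec, hP]

lemma factors_mapRep {k' : Type} [Field k'] (ψ : k →+* k') {rb : GQ →* M2 k}
    (h : GaloisFactorsThroughFiniteLevel rb) : GaloisFactorsThroughFiniteLevel (mapRep ψ rb) := by
  obtain ⟨L, hL, h1⟩ := h
  refine ⟨L, hL, fun σ hσ => ?_⟩
  show ψ.mapMatrix (rb σ) = 1
  rw [h1 σ hσ, map_one]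

theorem baseChangeAlong_toRes {k' : Type} [Field k'] (ψ : k →+* k') (rb : GQ →* M2 k)
    (h : GaloisFactorsThroughFiniteLevel rb) :
    ((toRes rb h).baseChangeAlong ψ).IsEquiv (toRes (mapRep ψ rb) (factors_mapRep ψ h)) := by
  let _ : Algebra k k' := ψ.toAlgebra
  let e : k' ⊗[k] (Fin 2 → k) ≃ₗ[k'] (Fin 2 → k') := TensorProduct.piScalarRight k k' k' (Fin 2)
  refine ⟨⟨e, fun σ x => ?_⟩⟩
  exact piScalarRight_baseChange (rb σ) x

end Res

section Residual

variable {A : Type} [CommRing A] [IsLocalRing A]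

lemma MatCont.factors_residue {r : GQ →* M2 A} (hr : MatCont r) :
    GaloisFactorsThroughFiniteLevel (mapRep (IsLocalRing.residue A) r) := by
  obtain ⟨L, hL, h⟩ := hr 1
  refine ⟨L, hL, fun σ hσ => ?_⟩
  ext i j
  have h1 := h σ hσ i j
  rw [pow_one, ← IsLocalRing.residue_eq_zero_iff, Matrix.sub_apply, map_sub, sub_eq_zero] at h1
  rw [mapRep_apply, Matrix.map_apply, h1]
  by_cases hij : i = j
  · subst hij; simp
  · simp [hij]

theorem residual_toAdic (r : GQ →* M2 A) (hr : MatCont r) :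
    (toAdic r hr).residual.IsEquiv
      (toRes (mapRep (IsLocalRing.residue A) r) hr.factors_residue) := by
  let e : IsLocalRing.ResidueField A ⊗[A] (Fin 2 → A) ≃ₗ[IsLocalRing.ResidueField A]
      (Fin 2 → IsLocalRing.ResidueField A) :=
    TensorProduct.piScalarRight A (IsLocalRing.ResidueField A) (IsLocalRing.ResidueField A) (Fin 2)
  refine ⟨⟨e, fun σ x => ?_⟩⟩
  exact piScalarRight_baseChange (r σ) x

end Residual

section Lift

open IsLocalRing

variable {A : Type} [CommRing A] [IsLocalRing A]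

/-- Every invertible matrix over the residue field lifts to an invertible matrix. -/
theorem exists_unit_lift (Pb : (M2 (ResidueField A))ˣ) :
    ∃ P : (M2 A)ˣ, (P : M2 A).map (residue A) = (Pb : M2 (ResidueField A)) := by
  classical
  choose f hf using fun (ij : Fin 2 × Fin 2) =>
    residue_surjective ((Pb : M2 (ResidueField A)) ij.1 ij.2)
  let P : M2 A := Matrix.of fun i j => f (i, j)
  have hP : P.map (residue A) = (Pb : M2 (ResidueField A)) := by
    ext i j
    simp [P, hf]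
  have hdet : IsUnit P.det := by
    rw [← residue_ne_zero_iff_isUnit]
    have h1 : residue A P.det = (Pb : M2 (ResidueField A)).det := by
      rw [RingHom.map_det, RingHom.mapMatrix_apply, hP]
    rw [h1]
    exact ((Matrix.isUnit_iff_isUnit_det _).1 Pb.isUnit).ne_zero
  obtain ⟨u, hu⟩ := (Matrix.isUnit_iff_isUnit_det P).2 hdet
  exact ⟨u, by rw [hu]; exact hP⟩

lemma map_unit_inv {B : Type} [CommRing B] (φ : A →+* B) (P : (M2 A)ˣ) :
    (((P⁻¹ : (M2 A)ˣ) : M2 A)).map φ = ((Units.map φ.mapMatrix.toMonoidHom P)⁻¹ : (M2 B)ˣ) := by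
  rw [← map_inv]
  rfl

variable {𝒪 : Type} [CommRing 𝒪] [IsLocalRing 𝒪] [Algebra 𝒪 A] [IsLocalHom (algebraMap 𝒪 A)]

/-- A matrix representation lifting `rb` has residual representation `ρbar`. -/
theorem residual_isEquiv_of_lift (ρbar : ResidualGaloisRep (ResidueField 𝒪))
    (rb : GQ →* M2 (ResidueField 𝒪)) (hrb : GaloisFactorsThroughFiniteLevel rb)
    (hρbar : ρbar.IsEquiv (toRes rb hrb)) (r : GQ →* M2 A) (hr : MatCont r)
    (hlift : ∀ σ, (r σ).map (residue A) = (rb σ).map (ResidueField.map (algebraMap 𝒪 A))) :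
    (toAdic r hr).residual.IsEquiv
      (ρbar.baseChangeAlong (ResidueField.map (algebraMap 𝒪 A))) := by
  obtain ⟨e1⟩ := residual_toAdic r hr
  obtain ⟨e2⟩ := baseChangeAlong_toRes (ResidueField.map (algebraMap 𝒪 A)) rb hrb
  obtain ⟨e3⟩ := hρbar
  have e4 : (toRes (mapRep (residue A) r) hr.factors_residue).IsEquiv
      (toRes (mapRep (ResidueField.map (algebraMap 𝒪 A)) rb)
        (factors_mapRep (ResidueField.map (algebraMap 𝒪 A)) hrb)) := by
    rw [toRes_isEquiv_iff]
    exact ⟨1, fun σ => by simp [hlift σ]⟩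
  obtain ⟨e4⟩ := e4
  exact ⟨(e1.trans e4).trans
    ((e3.baseChangeAlong (ResidueField.map (algebraMap 𝒪 A))).trans e2).symm⟩

/-- Every deformation of `ρbar ≅ toRes rb` is equivalent to a matrix representation
lifting `rb` on the nose. -/
theorem exists_lift_of_residual_isEquiv (ρbar : ResidualGaloisRep (ResidueField 𝒪))
    (rb : GQ →* M2 (ResidueField 𝒪)) (hrb : GaloisFactorsThroughFiniteLevel rb)
    (hρbar : ρbar.IsEquiv (toRes rb hrb)) (ρA : GaloisRepAdic A)
    (hres : ρA.residual.IsEquiv (ρbar.baseChangeAlong (ResidueField.map (algebraMap 𝒪 A)))) :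
    ∃ (r : GQ →* M2 A) (hr : MatCont r),
      (∀ σ, (r σ).map (residue A) = (rb σ).map (ResidueField.map (algebraMap 𝒪 A))) ∧
      ρA.IsEquiv (toAdic r hr) := by
  obtain ⟨r0, hr0, ⟨e0⟩⟩ := exists_toAdic ρA
  obtain ⟨e1⟩ := residual_toAdic r0 hr0
  obtain ⟨e2⟩ := baseChangeAlong_toRes (ResidueField.map (algebraMap 𝒪 A)) rb hrb
  obtain ⟨e3⟩ := hρbar
  obtain ⟨e4⟩ := hres
  have e5 : (toRes (mapRep (residue A) r0) hr0.factors_residue).IsEquiv
      (toRes (mapRep (ResidueField.map (algebraMap 𝒪 A)) rb)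
        (factors_mapRep (ResidueField.map (algebraMap 𝒪 A)) hrb)) :=
    ⟨(e1.symm.trans (e0.residual.symm.trans e4)).trans
      ((e3.baseChangeAlong (ResidueField.map (algebraMap 𝒪 A))).trans e2)⟩
  rw [toRes_isEquiv_iff] at e5
  obtain ⟨Pb, hPb⟩ := e5
  obtain ⟨P, hP⟩ := exists_unit_lift Pb
  obtain ⟨e6⟩ := toAdic_conjRep_isEquiv r0 hr0 P
  refine ⟨conjRep P r0, hr0.conj P, fun σ => ?_, ⟨e0.trans e6⟩⟩
  have h1 : (conjRep P r0 σ).map (residue A) =
      (P : M2 A).map (residue A) * (r0 σ).map (residue A) *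
        (((P⁻¹ : (M2 A)ˣ) : M2 A)).map (residue A) := by
    rw [conjRep_apply, Matrix.map_mul, Matrix.map_mul]
  have h2 : (P : M2 A).map (residue A) * (((P⁻¹ : (M2 A)ˣ) : M2 A)).map (residue A) = 1 := by
    rw [← Matrix.map_mul, Units.mul_inv]
    exact (residue A).mapMatrix.map_one
  have h3 := hPb σ
  rw [mapRep_apply, mapRep_apply, ← hP] at h3
  rw [h1, h3, mul_assoc, h2, mul_one]

end Lift

end Fermat.Agent.S53
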