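import Fermat.Agent.S53.AbstractDefs
import Fermat.Agent.S53.AbstractCA

set_option autoImplicit false
set_option linter.unusedSectionVars false
set_option linter.unusedVariables false
set_option linter.style.haveILetI false

namespace Fermat.Agent.S53

open IsLocalRing GaloisRep CA

section

variable {𝒪 : Type} [CommRing 𝒪] [IsDomain 𝒪] [IsDiscreteValuationRing 𝒪]
  [IsAdicComplete (IsLocalRing.maximalIdeal 𝒪) 𝒪] [Finite (IsLocalRing.ResidueField 𝒪)]
variable {ι : Type}

/-- the `l`-th coordinate of a point, shifted by the base point -/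
def coord (c : ι → 𝒪) {d : ℕ} (idx : Fin d → ι) {A : Type} [CommRing A] [Algebra 𝒪 A]
    (x : ι → A) (l : Fin d) : A :=
  x (idx l) - algebraMap 𝒪 A (c (idx l))

theorem coord_map (c : ι → 𝒪) {d : ℕ} (idx : Fin d → ι) {A B : Type} [CommRing A] [Algebra 𝒪 A]
    [CommRing B] [Algebra 𝒪 B] (φ : A →ₐ[𝒪] B) (x : ι → A) (l : Fin d) :
    coord c idx (fun i => φ (x i)) l = φ (coord c idx x l) := by
  simp [coord]

/-- the chosen coordinates detect triviality of first order points -/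
def Sep (c : ι → 𝒪) (L : PointFamily 𝒪 ι) {d : ℕ} (idx : Fin d → ι) : Prop :=
  ∀ ⦃B : Type⦄ [CommRing B] [IsLocalRing B] [Algebra 𝒪 B],
    IsArtinianTestAlgebra 𝒪 B → maximalIdeal B ^ 2 = ⊥ →
    (maximalIdeal 𝒪).map (algebraMap 𝒪 B) = ⊥ →
    ∀ ⦃x : ι → B⦄, L x → (∀ l, coord c idx x l = 0) →
      ∀ i, x i = algebraMap 𝒪 B (c i)

theorem exists_sep {c : ι → 𝒪} {L : PointFamily 𝒪 ι} (hL : IsRigidFamily 𝒪 ι c L) :
    ∃ (d : ℕ) (idx : Fin d → ι), Sep c L idx := by
  obtain ⟨F, hF⟩ := hL.tangent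
  refine ⟨F.card, fun l => (F.equivFin.symm l : ι), ?_⟩
  intro B _ _ _ hB h2 hϖ x hx hcoord i
  refine hF hB h2 hϖ hx ?_ i
  intro j hj
  have := hcoord (F.equivFin ⟨j, hj⟩)
  simpa [coord, sub_eq_zero] using this

/-- the maximal ideal of a quotient of a local ring -/
theorem map_mk_maximalIdeal {A : Type} [CommRing A] [IsLocalRing A] (J : Ideal A)
    [IsLocalRing (A ⧸ J)] :
    (maximalIdeal A).map (Ideal.Quotient.mk J) = maximalIdeal (A ⧸ J) := by
  have hJ : J ≠ ⊤ := Ideal.Quotient.nontrivial_iff.mp inferInstance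
  ext x
  obtain ⟨x, rfl⟩ := Ideal.Quotient.mk_surjective x
  haveI := IsLocalHom.of_surjective (Ideal.Quotient.mk J) Ideal.Quotient.mk_surjective
  simp [sup_eq_left.mpr (le_maximalIdeal hJ)]

/-- in a test algebra, `algebraMap u ∈ m` forces `u ∈ m` -/
theorem mem_maximalIdeal_of_algebraMap_mem {A : Type} [CommRing A] [IsLocalRing A] [Algebra 𝒪 A]
    (hloc : IsLocalHom (algebraMap 𝒪 A)) {u : 𝒪} (hu : algebraMap 𝒪 A u ∈ maximalIdeal A) :
    u ∈ maximalIdeal 𝒪 := by
  rw [mem_maximalIdeal, mem_nonunits_iff] at hu ⊢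
  intro h
  exact hu (h.map _)

/-- **Lemma A.** Over a test algebra, every coordinate of a point is a power series in the
finitely many chosen coordinates. -/
theorem exists_eq_of_coord {c : ι → 𝒪} {L : PointFamily 𝒪 ι} (hL : IsRigidFamily 𝒪 ι c L)
    {d : ℕ} {idx : Fin d → ι} (hsep : Sep c L idx)
    {A : Type} [CommRing A] [IsLocalRing A] [Algebra 𝒪 A] (hA : IsArtinianTestAlgebra 𝒪 A)
    {x : ι → A} (hx : L x) (φ : PS 𝒪 d →ₐ[𝒪] A)
    (hφ : ∀ l, φ (MvPowerSeries.X l) = coord c idx x l) (i : ι) :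
    ∃ s, φ s = x i := by
  classical
  -- the subalgebra generated by the coordinates of `x`
  let A' : Subalgebra 𝒪 A := Algebra.adjoin 𝒪 (Set.range x)
  haveI : IsLocalRing A' := test_subalgebra_isLocalRing hA A'
  have hA' : IsArtinianTestAlgebra 𝒪 A' := test_subalgebra hA A'
  let x' : ι → A' := fun i => ⟨x i, Algebra.subset_adjoin (Set.mem_range_self i)⟩
  have hvalloc : IsLocalHom (A'.val : A' →+* A) := test_isLocalHom hA' _
  have hx' : L x' := hL.inj hA' hA A'.val hvalloc Subtype.val_injective hx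
  have hb' : ∀ l, coord c idx x' l ∈ maximalIdeal A' := fun l => hL.res hA' hx' (idx l)
  haveI := test_isAdicComplete hA'
  haveI := test_isAdicComplete hA
  obtain ⟨φ', hφ'loc, hφ'X⟩ := exists_evalS hA'.isLocalHom (coord c idx x') hb'
  have hsurj : Function.Surjective φ' := by
    apply evalS_surjective hA' φ'
    set I : Ideal A' := (maximalIdeal 𝒪).map (algebraMap 𝒪 A') ⊔
      Ideal.span (Set.range fun l => φ' (MvPowerSeries.X l)) ⊔ maximalIdeal A' ^ 2 with hI
    have hI1 : (maximalIdeal 𝒪).map (algebraMap 𝒪 A') ≤ I :=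
      le_sup_of_le_left le_sup_left
    have hI2 : ∀ l, coord c idx x' l ∈ I := fun l => by
      have h : φ' (MvPowerSeries.X l) ∈
          Ideal.span (Set.range fun l => φ' (MvPowerSeries.X l)) := Ideal.subset_span ⟨l, rfl⟩
      rw [hφ'X] at h
      exact (le_sup_of_le_left le_sup_right :
        Ideal.span (Set.range fun l => φ' (MvPowerSeries.X l)) ≤ I) h
    have hI3 : maximalIdeal A' ^ 2 ≤ I := le_sup_right
    have hIm : I ≤ maximalIdeal A' := by
      refine sup_le (sup_le ?_ ?_) ?_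
      · haveI := hA'.isLocalHom
        exact map_maximalIdeal_le (algebraMap 𝒪 A')
      · rw [Ideal.span_le]
        rintro _ ⟨l, rfl⟩
        simpa [hφ'X] using hb' l
      · exact Ideal.pow_le_self (by norm_num)
    have hItop : I ≠ ⊤ := ne_top_of_le_ne_top (Ideal.IsMaximal.ne_top inferInstance) hIm
    haveI : IsLocalRing (A' ⧸ I) := isLocalRing_quot hItop
    have hB : IsArtinianTestAlgebra 𝒪 (A' ⧸ I) := test_quotient hA' I
    have h2 : maximalIdeal (A' ⧸ I) ^ 2 = ⊥ := by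
      rw [← map_mk_maximalIdeal, ← Ideal.map_pow, Ideal.map_eq_bot_iff_le_ker, Ideal.mk_ker]
      exact hI3
    have hϖ : (maximalIdeal 𝒪).map (algebraMap 𝒪 (A' ⧸ I)) = ⊥ := by
      have : algebraMap 𝒪 (A' ⧸ I) = (Ideal.Quotient.mk I).comp (algebraMap 𝒪 A') := rfl
      rw [this, ← Ideal.map_map, Ideal.map_eq_bot_iff_le_ker, Ideal.mk_ker]
      exact hI1
    have hmkloc : IsLocalHom ((Ideal.Quotient.mkₐ 𝒪 I : A' →ₐ[𝒪] A' ⧸ I) : A' →+* A' ⧸ I) :=
      test_isLocalHom hA' _
    have hxB : L (fun i => (Ideal.Quotient.mkₐ 𝒪 I) (x' i)) :=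
      hL.map hA' hB (Ideal.Quotient.mkₐ 𝒪 I) hmkloc hx'
    have hcoord : ∀ l, coord c idx (fun i => (Ideal.Quotient.mkₐ 𝒪 I) (x' i)) l = 0 := by
      intro l
      rw [coord_map]
      exact Ideal.Quotient.eq_zero_iff_mem.mpr (hI2 l)
    have hall : ∀ i, x' i - algebraMap 𝒪 A' (c i) ∈ I := by
      intro i
      have := hsep hB h2 hϖ hxB hcoord i
      rw [← Ideal.Quotient.eq_zero_iff_mem, map_sub]
      rw [sub_eq_zero]
      exact this
    -- every element of A' is congruent to a constant modulo I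
    have hkey : ∀ a : A, ∀ ha : a ∈ A', ∃ u : 𝒪, (⟨a, ha⟩ : A') - algebraMap 𝒪 A' u ∈ I := by
      intro a ha
      induction ha using Algebra.adjoin_induction with
      | mem a ha =>
        obtain ⟨i, rfl⟩ := ha
        exact ⟨c i, hall i⟩
      | algebraMap r =>
        refine ⟨r, ?_⟩
        have : (⟨algebraMap 𝒪 A r, Subalgebra.algebraMap_mem _ r⟩ : A') = algebraMap 𝒪 A' r := rfl
        rw [this, sub_self]
        exact I.zero_mem
      | add a b ha hb iha ihb =>
        obtain ⟨u, hu⟩ := iha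
        obtain ⟨v, hv⟩ := ihb
        refine ⟨u + v, ?_⟩
        have : (⟨a + b, add_mem ha hb⟩ : A') - algebraMap 𝒪 A' (u + v) =
            ((⟨a, ha⟩ : A') - algebraMap 𝒪 A' u) + ((⟨b, hb⟩ : A') - algebraMap 𝒪 A' v) := by
          rw [map_add]; ext; simp; ring
        rw [this]
        exact I.add_mem hu hv
      | mul a b ha hb iha ihb =>
        obtain ⟨u, hu⟩ := iha
        obtain ⟨v, hv⟩ := ihb
        refine ⟨u * v, ?_⟩
        have : (⟨a * b, mul_mem ha hb⟩ : A') - algebraMap 𝒪 A' (u * v) =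
            ((⟨a, ha⟩ : A') - algebraMap 𝒪 A' u) * ⟨b, hb⟩ +
              algebraMap 𝒪 A' u * ((⟨b, hb⟩ : A') - algebraMap 𝒪 A' v) := by
          rw [map_mul]; ext; simp; ring
        rw [this]
        exact I.add_mem (I.mul_mem_right _ hu) (I.mul_mem_left _ hv)
    intro a ha
    obtain ⟨u, hu⟩ := hkey a.1 a.2
    have hau : algebraMap 𝒪 A' u ∈ maximalIdeal A' := by
      have h1 := (maximalIdeal A').sub_mem ha (hIm hu)
      simpa using h1
    have hu' : u ∈ maximalIdeal 𝒪 := mem_maximalIdeal_of_algebraMap_mem hA'.isLocalHom hau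
    have h3 : algebraMap 𝒪 A' u ∈ I := hI1 (Ideal.mem_map_of_mem _ hu')
    have := I.add_mem hu h3
    simpa using this
  have hcomp : A'.val.comp φ' = φ := by
    refine evalS_ext _ _ ?_ ?_
    · intro l
      simp only [AlgHom.comp_apply, hφ'X]
      exact hL.res hA hx (idx l)
    · intro l
      simp only [AlgHom.comp_apply, hφ'X, hφ]
      rfl
  obtain ⟨s, hs⟩ := hsurj (x' i)
  refine ⟨s, ?_⟩
  rw [← hcomp, AlgHom.comp_apply, hs]
  rfl

end

end Fermat.Agent.S53
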