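import Fermat.Agent.S53.Abstract1

set_option autoImplicit false
set_option linter.unusedSectionVars false
set_option linter.unusedVariables false
set_option linter.style.haveILetI false

namespace Fermat.Agent.S53

open IsLocalRing GaloisRep CA

section

variable {𝒪 : Type} [CommRing 𝒪] [IsDomain 𝒪] [IsDiscreteValuationRing 𝒪]
  [IsAdicComplete (IsLocalRing.maximalIdeal 𝒪) 𝒪] [Finite (IsLocalRing.ResidueField 𝒪)]
variable {ι : Type}

/-- **Lemma B.** Over a test algebra, a point is determined by its chosen coordinates. -/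
theorem eq_of_coord_eq {c : ι → 𝒪} {L : PointFamily 𝒪 ι} (hL : IsRigidFamily 𝒪 ι c L)
    {d : ℕ} {idx : Fin d → ι} (hsep : Sep c L idx)
    {A : Type} [CommRing A] [IsLocalRing A] [Algebra 𝒪 A] (hA : IsArtinianTestAlgebra 𝒪 A)
    {x y : ι → A} (hx : L x) (hy : L y)
    (h : ∀ l, coord c idx x l = coord c idx y l) : x = y := by
  classical
  let P := fibreSq 𝒪 A
  haveI : IsLocalRing P := fibreSq_isLocalRing
  have hP : IsArtinianTestAlgebra 𝒪 P := test_fibreSq hA
  have hxy : ∀ i, x i - y i ∈ maximalIdeal A := fun i => by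
    have := (maximalIdeal A).sub_mem (hL.res hA hx i) (hL.res hA hy i)
    simpa using this
  let z : ι → P := fun i => ⟨(x i, y i), hxy i⟩
  let pA : P →ₐ[𝒪] A := (AlgHom.fst 𝒪 A A).comp P.val
  let pB : P →ₐ[𝒪] A := (AlgHom.snd 𝒪 A A).comp P.val
  have hmtop : maximalIdeal A ≠ ⊤ := Ideal.IsMaximal.ne_top inferInstance
  haveI : IsLocalRing (A ⧸ maximalIdeal A) := isLocalRing_quot hmtop
  have hC : IsArtinianTestAlgebra 𝒪 (A ⧸ maximalIdeal A) := test_quotient hA _
  let f : A →ₐ[𝒪] A ⧸ maximalIdeal A := Ideal.Quotient.mkₐ 𝒪 _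
  have hz : L z := by
    refine hL.fibre hA hA hC hP f f pA pB (test_isLocalHom hP _) (test_isLocalHom hP _)
      ?_ ?_ ?_ ?_ ?_
    · ext p
      exact Ideal.Quotient.eq.mpr p.2
    · intro p q hpq
      have h1 : (p : A × A).1 = (q : A × A).1 := congrArg Prod.fst hpq
      have h2 : (p : A × A).2 = (q : A × A).2 := congrArg Prod.snd hpq
      exact Subtype.ext (Prod.ext h1 h2)
    · intro a b hab
      exact ⟨⟨(a, b), Ideal.Quotient.eq.mp hab⟩, rfl, rfl⟩
    · exact hx
    · exact hy
  haveI := test_isAdicComplete hP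
  haveI := test_isAdicComplete hA
  obtain ⟨φP, hφPloc, hφPX⟩ :=
    exists_evalS hP.isLocalHom (coord c idx z) (fun l => hL.res hP hz (idx l))
  have hpAz : ∀ l, pA (coord c idx z l) = coord c idx x l := fun l => by
    rw [← coord_map]; rfl
  have hpBz : ∀ l, pB (coord c idx z l) = coord c idx y l := fun l => by
    rw [← coord_map]; rfl
  have hcomp : pA.comp φP = pB.comp φP := by
    refine evalS_ext _ _ ?_ ?_
    · intro l
      show pA (φP (MvPowerSeries.X l)) ∈ maximalIdeal A
      rw [hφPX]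
      exact (hpAz l) ▸ hL.res hA hx (idx l)
    · intro l
      show pA (φP (MvPowerSeries.X l)) = pB (φP (MvPowerSeries.X l))
      rw [hφPX]
      exact (hpAz l).trans ((h l).trans (hpBz l).symm)
  funext i
  obtain ⟨s, hs⟩ := exists_eq_of_coord hL hsep hP hz φP hφPX i
  have h1 : pA (φP s) = pB (φP s) := congrArg (fun ψ => ψ s) hcomp
  rw [hs] at h1
  exact h1

end

end Fermat.Agent.S53
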