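import Fermat.Agent.S53.Abstract2

set_option autoImplicit false
set_option linter.unusedSectionVars false
set_option linter.unusedVariables false
set_option linter.style.haveILetI false

namespace Fermat.Agent.S53

open IsLocalRing GaloisRep CA

section

variable {𝒪 : Type} [CommRing 𝒪] [IsDomain 𝒪] [IsDiscreteValuationRing 𝒪]
  [IsAdicComplete (IsLocalRing.maximalIdeal 𝒪) 𝒪] [Finite (IsLocalRing.ResidueField 𝒪)]
variable {ι : Type}

/-- `x` is a point over `S ⧸ J` whose chosen coordinates are the variables, `J` open. -/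
structure GoodPt (c : ι → 𝒪) (L : PointFamily 𝒪 ι) {d : ℕ} (idx : Fin d → ι)
    (J : Ideal (PS 𝒪 d)) [IsLocalRing (PS 𝒪 d ⧸ J)] (x : ι → PS 𝒪 d ⧸ J) : Prop where
  isOpen : ∃ n : ℕ, maximalIdeal (PS 𝒪 d) ^ n ≤ J
  mem : L x
  coord_eq : ∀ l, coord c idx x l = Ideal.Quotient.mk J (MvPowerSeries.X l)

/-- `J` is a good ideal: proper, open and `S ⧸ J` carries a point with coordinates `X`. -/
def Good (c : ι → 𝒪) (L : PointFamily 𝒪 ι) {d : ℕ} (idx : Fin d → ι)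
    (J : Ideal (PS 𝒪 d)) : Prop :=
  ∃ (hJ : J ≠ ⊤) (x : ι → PS 𝒪 d ⧸ J),
    haveI : IsLocalRing (PS 𝒪 d ⧸ J) := isLocalRing_quot hJ
    GoodPt c L idx J x

theorem GoodPt.test {c : ι → 𝒪} {L : PointFamily 𝒪 ι} {d : ℕ} {idx : Fin d → ι}
    {J : Ideal (PS 𝒪 d)} [IsLocalRing (PS 𝒪 d ⧸ J)] {x : ι → PS 𝒪 d ⧸ J}
    (h : GoodPt c L idx J x) : IsArtinianTestAlgebra 𝒪 (PS 𝒪 d ⧸ J) := by
  obtain ⟨n, hn⟩ := h.isOpen
  exact ps_quot_test J n hn

theorem Good.ne_top {c : ι → 𝒪} {L : PointFamily 𝒪 ι} {d : ℕ} {idx : Fin d → ι}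
    {J : Ideal (PS 𝒪 d)} (h : Good c L idx J) : J ≠ ⊤ := h.1

/-- **Lemma C.** good points push forward to larger proper ideals. -/
theorem GoodPt.factor {c : ι → 𝒪} {L : PointFamily 𝒪 ι} (hL : IsRigidFamily 𝒪 ι c L)
    {d : ℕ} {idx : Fin d → ι}
    {J J' : Ideal (PS 𝒪 d)} [IsLocalRing (PS 𝒪 d ⧸ J)] [IsLocalRing (PS 𝒪 d ⧸ J')]
    {x : ι → PS 𝒪 d ⧸ J} (h : GoodPt c L idx J x) (hJJ' : J ≤ J') :
    GoodPt c L idx J' (fun i => Ideal.Quotient.factorₐ 𝒪 hJJ' (x i)) := by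
  obtain ⟨n, hn⟩ := h.isOpen
  have hT' : IsArtinianTestAlgebra 𝒪 (PS 𝒪 d ⧸ J') := ps_quot_test J' n (hn.trans hJJ')
  refine ⟨⟨n, hn.trans hJJ'⟩, hL.map h.test hT' _ (test_isLocalHom h.test _) h.mem, ?_⟩
  intro l
  rw [coord_map, h.coord_eq, Ideal.Quotient.factorₐ_apply_mk]

theorem Good.of_le {c : ι → 𝒪} {L : PointFamily 𝒪 ι} (hL : IsRigidFamily 𝒪 ι c L)
    {d : ℕ} {idx : Fin d → ι} {J J' : Ideal (PS 𝒪 d)} (h : Good c L idx J) (hJJ' : J ≤ J')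
    (hJ' : J' ≠ ⊤) : Good c L idx J' := by
  obtain ⟨hJ, x, hx⟩ := h
  haveI := isLocalRing_quot hJ
  haveI := isLocalRing_quot hJ'
  exact ⟨hJ', _, hx.factor hL hJJ'⟩

/-- good points are unique -/
theorem GoodPt.unique {c : ι → 𝒪} {L : PointFamily 𝒪 ι} (hL : IsRigidFamily 𝒪 ι c L)
    {d : ℕ} {idx : Fin d → ι} (hsep : Sep c L idx)
    {J : Ideal (PS 𝒪 d)} [IsLocalRing (PS 𝒪 d ⧸ J)]
    {x y : ι → PS 𝒪 d ⧸ J} (hx : GoodPt c L idx J x) (hy : GoodPt c L idx J y) : x = y :=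
  eq_of_coord_eq hL hsep hx.test hx.mem hy.mem (fun l => by rw [hx.coord_eq, hy.coord_eq])

/-- **Lemma C'.** good points are compatible. -/
theorem GoodPt.factor_eq {c : ι → 𝒪} {L : PointFamily 𝒪 ι} (hL : IsRigidFamily 𝒪 ι c L)
    {d : ℕ} {idx : Fin d → ι} (hsep : Sep c L idx)
    {J J' : Ideal (PS 𝒪 d)} [IsLocalRing (PS 𝒪 d ⧸ J)] [IsLocalRing (PS 𝒪 d ⧸ J')]
    {x : ι → PS 𝒪 d ⧸ J} {x' : ι → PS 𝒪 d ⧸ J'}
    (h : GoodPt c L idx J x) (h' : GoodPt c L idx J' x') (hJJ' : J ≤ J') (i : ι) :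
    Ideal.Quotient.factorₐ 𝒪 hJJ' (x i) = x' i :=
  congrFun ((h.factor hL hJJ').unique hL hsep h') i

/-- **Lemma D.** good ideals are closed under intersection. -/
theorem Good.inf {c : ι → 𝒪} {L : PointFamily 𝒪 ι} (hL : IsRigidFamily 𝒪 ι c L)
    {d : ℕ} {idx : Fin d → ι} (hsep : Sep c L idx)
    {J J' : Ideal (PS 𝒪 d)} (h : Good c L idx J) (h' : Good c L idx J') :
    Good c L idx (J ⊓ J') := by
  classical
  obtain ⟨hJ, x, hx⟩ := h
  obtain ⟨hJ', x', hx'⟩ := h'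
  have hinf : J ⊓ J' ≠ ⊤ := ne_top_of_le_ne_top hJ inf_le_left
  have hsup : J ⊔ J' ≠ ⊤ :=
    ne_top_of_le_ne_top (Ideal.IsMaximal.ne_top (inferInstance : (maximalIdeal (PS 𝒪 d)).IsMaximal))
      (sup_le (le_maximalIdeal hJ) (le_maximalIdeal hJ'))
  haveI := isLocalRing_quot hJ
  haveI := isLocalRing_quot hJ'
  haveI := isLocalRing_quot hinf
  haveI := isLocalRing_quot hsup
  obtain ⟨n, hn⟩ := hx.isOpen
  obtain ⟨n', hn'⟩ := hx'.isOpen
  have hopen : maximalIdeal (PS 𝒪 d) ^ (max n n') ≤ J ⊓ J' :=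
    le_inf ((Ideal.pow_le_pow_right (le_max_left n n')).trans hn)
      ((Ideal.pow_le_pow_right (le_max_right n n')).trans hn')
  have hP : IsArtinianTestAlgebra 𝒪 (PS 𝒪 d ⧸ J ⊓ J') := ps_quot_test _ _ hopen
  have hC : IsArtinianTestAlgebra 𝒪 (PS 𝒪 d ⧸ J ⊔ J') :=
    ps_quot_test _ n (hn.trans le_sup_left)
  let f : (PS 𝒪 d ⧸ J) →ₐ[𝒪] (PS 𝒪 d ⧸ J ⊔ J') := Ideal.Quotient.factorₐ 𝒪 le_sup_left
  let g : (PS 𝒪 d ⧸ J') →ₐ[𝒪] (PS 𝒪 d ⧸ J ⊔ J') := Ideal.Quotient.factorₐ 𝒪 le_sup_right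
  let pA : (PS 𝒪 d ⧸ J ⊓ J') →ₐ[𝒪] (PS 𝒪 d ⧸ J) := Ideal.Quotient.factorₐ 𝒪 inf_le_left
  let pB : (PS 𝒪 d ⧸ J ⊓ J') →ₐ[𝒪] (PS 𝒪 d ⧸ J') := Ideal.Quotient.factorₐ 𝒪 inf_le_right
  have hfg : ∀ i, f (x i) = g (x' i) := fun i =>
    (hx.factor_eq hL hsep (hx'.factor hL le_sup_right) le_sup_left i)
  have hsurj : ∀ a b, f a = g b → ∃ p, pA p = a ∧ pB p = b := by
    intro a b hab
    obtain ⟨s, rfl⟩ := Ideal.Quotient.mk_surjective a
    obtain ⟨t, rfl⟩ := Ideal.Quotient.mk_surjective b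
    have h1 : Ideal.Quotient.mk (J ⊔ J') s = Ideal.Quotient.mk (J ⊔ J') t := by
      simpa [f, g] using hab
    rw [Ideal.Quotient.eq, Submodule.mem_sup] at h1
    obtain ⟨j, hj, j', hj', hjj'⟩ := h1
    refine ⟨Ideal.Quotient.mk _ (s - j), ?_, ?_⟩
    · show Ideal.Quotient.factorₐ 𝒪 _ _ = _
      rw [Ideal.Quotient.factorₐ_apply_mk, Ideal.Quotient.eq]
      simpa using J.neg_mem hj
    · show Ideal.Quotient.factorₐ 𝒪 _ _ = _
      rw [Ideal.Quotient.factorₐ_apply_mk, Ideal.Quotient.eq]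
      have : s - j - t = j' := by linear_combination hjj'.symm
      rw [this]
      exact hj'
  have hinj : Function.Injective (fun p => (pA p, pB p)) := by
    intro p q hpq
    obtain ⟨s, rfl⟩ := Ideal.Quotient.mk_surjective p
    obtain ⟨t, rfl⟩ := Ideal.Quotient.mk_surjective q
    have h1 : pA (Ideal.Quotient.mk _ s) = pA (Ideal.Quotient.mk _ t) := congrArg Prod.fst hpq
    have h2 : pB (Ideal.Quotient.mk _ s) = pB (Ideal.Quotient.mk _ t) := congrArg Prod.snd hpq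
    simp only [pA, pB, Ideal.Quotient.factorₐ_apply_mk] at h1 h2
    rw [Ideal.Quotient.eq] at h1 h2 ⊢
    exact ⟨h1, h2⟩
  choose z hzA hzB using fun i => hsurj (x i) (x' i) (hfg i)
  have hLz : L z := by
    refine hL.fibre hx.test hx'.test hC hP f g pA pB (test_isLocalHom hP _) (test_isLocalHom hP _)
      ?_ hinj hsurj ?_ ?_
    · apply AlgHom.ext
      intro p
      obtain ⟨s, rfl⟩ := Ideal.Quotient.mk_surjective p
      simp [f, g, pA, pB]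
    · have : (fun i => pA (z i)) = x := funext hzA
      rw [this]; exact hx.mem
    · have : (fun i => pB (z i)) = x' := funext hzB
      rw [this]; exact hx'.mem
  refine ⟨hinf, z, ⟨_, hopen⟩, hLz, ?_⟩
  intro l
  apply hinj
  have h1 : pA (coord c idx z l) = coord c idx x l := by
    rw [← coord_map]; simp only [hzA]
  have h2 : pB (coord c idx z l) = coord c idx x' l := by
    rw [← coord_map]; simp only [hzB]
  show (pA (coord c idx z l), pB (coord c idx z l)) = (pA _, pB _)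
  rw [h1, h2, hx.coord_eq, hx'.coord_eq]
  simp [pA, pB]

end

end Fermat.Agent.S53
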