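import Fermat.Agent.S53.Abstract3

set_option autoImplicit false
set_option linter.unusedSectionVars false
set_option linter.unusedVariables false
set_option linter.style.haveILetI false

namespace Fermat.Agent.S53

open IsLocalRing GaloisRep CA

/-- a finite nonempty set closed under binary infima contains its infimum -/
theorem sInf_mem_of_finite {α : Type*} [CompleteLattice α] {s : Set α} (hs : s.Finite)
    (hne : s.Nonempty) (hinf : ∀ a ∈ s, ∀ b ∈ s, a ⊓ b ∈ s) : sInf s ∈ s := by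
  classical
  have key : ∀ t : Finset α, t.Nonempty → (↑t ⊆ s) → t.inf id ∈ s := by
    intro t ht
    induction ht using Finset.Nonempty.cons_induction with
    | singleton a =>
      intro h
      simpa using h (Finset.mem_coe.mpr (Finset.mem_singleton_self a))
    | cons a t ha ht ih =>
      intro h
      rw [Finset.inf_cons]
      refine hinf _ (h (by simp)) _ (ih (fun x hx => h (by simp [Finset.mem_coe.mp hx])))
  have := key hs.toFinset (by simpa using hne) (by simp)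
  rwa [Finset.inf_id_eq_sInf, Set.Finite.coe_toFinset] at this

section

variable {𝒪 : Type} [CommRing 𝒪] [IsDomain 𝒪] [IsDiscreteValuationRing 𝒪]
  [IsAdicComplete (IsLocalRing.maximalIdeal 𝒪) 𝒪] [Finite (IsLocalRing.ResidueField 𝒪)]
variable {ι : Type}

/-- there are finitely many ideals containing a given power of the maximal ideal -/
theorem finite_ideals_above (d n : ℕ) :
    {J : Ideal (PS 𝒪 d) | maximalIdeal (PS 𝒪 d) ^ n ≤ J}.Finite := by
  haveI : Finite (PS 𝒪 d ⧸ maximalIdeal (PS 𝒪 d) ^ n) := ps_finite_quotient 𝒪 d n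
  have hfin : Finite (Ideal (PS 𝒪 d ⧸ maximalIdeal (PS 𝒪 d) ^ n)) := inferInstance
  refine Set.Finite.of_finite_image (f := Ideal.map (Ideal.Quotient.mk (maximalIdeal (PS 𝒪 d) ^ n)))
    (Set.toFinite _) ?_
  intro J hJ J' hJ' h
  have h1 := congrArg (Ideal.comap (Ideal.Quotient.mk (maximalIdeal (PS 𝒪 d) ^ n))) h
  rw [Ideal.comap_map_of_surjective _ Ideal.Quotient.mk_surjective,
    Ideal.comap_map_of_surjective _ Ideal.Quotient.mk_surjective,
    ← RingHom.ker_eq_comap_bot, Ideal.mk_ker] at h1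
  rwa [sup_eq_left.mpr hJ, sup_eq_left.mpr hJ'] at h1

/-- the maximal ideal is good -/
theorem good_maximalIdeal {c : ι → 𝒪} {L : PointFamily 𝒪 ι} (hL : IsRigidFamily 𝒪 ι c L)
    {d : ℕ} (idx : Fin d → ι) : Good c L idx (maximalIdeal (PS 𝒪 d)) := by
  have hm : maximalIdeal (PS 𝒪 d) ≠ ⊤ := Ideal.IsMaximal.ne_top inferInstance
  haveI := isLocalRing_quot hm
  have hT : IsArtinianTestAlgebra 𝒪 (PS 𝒪 d ⧸ maximalIdeal (PS 𝒪 d)) :=
    ps_quot_test _ 1 (by rw [pow_one])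
  have hk : IsArtinianTestAlgebra 𝒪 (ResidueField 𝒪) := test_residueField 𝒪
  have hkill : ∀ a ∈ maximalIdeal 𝒪,
      (Algebra.ofId 𝒪 (PS 𝒪 d ⧸ maximalIdeal (PS 𝒪 d))) a = 0 := by
    intro a ha
    have hloc := ps_isLocalHom 𝒪 d
    have : algebraMap 𝒪 (PS 𝒪 d) a ∈ maximalIdeal (PS 𝒪 d) := by
      rw [mem_maximalIdeal, mem_nonunits_iff] at ha ⊢
      intro h
      exact ha (isUnit_of_map_unit (algebraMap 𝒪 (PS 𝒪 d)) a h)
    exact Ideal.Quotient.eq_zero_iff_mem.mpr this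
  let ψ : ResidueField 𝒪 →ₐ[𝒪] (PS 𝒪 d ⧸ maximalIdeal (PS 𝒪 d)) :=
    Ideal.Quotient.liftₐ (maximalIdeal 𝒪) (Algebra.ofId 𝒪 _) hkill
  have hx : L (fun i => ψ (algebraMap 𝒪 (ResidueField 𝒪) (c i))) :=
    hL.map hk hT ψ (test_isLocalHom hk _) hL.base
  have hx' : L (fun i => algebraMap 𝒪 (PS 𝒪 d ⧸ maximalIdeal (PS 𝒪 d)) (c i)) := by
    have : (fun i => ψ (algebraMap 𝒪 (ResidueField 𝒪) (c i))) =
        (fun i => algebraMap 𝒪 (PS 𝒪 d ⧸ maximalIdeal (PS 𝒪 d)) (c i)) := by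
      funext i
      exact ψ.commutes (c i)
    rw [← this]; exact hx
  refine ⟨hm, _, ⟨1, by rw [pow_one]⟩, hx', ?_⟩
  intro l
  simp only [coord, sub_self]
  exact (Ideal.Quotient.eq_zero_iff_mem.mpr (ps_X_mem 𝒪 d l)).symm

/-- the set of good ideals containing `m ^ n` -/
def goodSet (c : ι → 𝒪) (L : PointFamily 𝒪 ι) {d : ℕ} (idx : Fin d → ι) (n : ℕ) :
    Set (Ideal (PS 𝒪 d)) :=
  {J | Good c L idx J ∧ maximalIdeal (PS 𝒪 d) ^ n ≤ J}

/-- the smallest good ideal containing `m ^ n` -/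
noncomputable def Imin (c : ι → 𝒪) (L : PointFamily 𝒪 ι) {d : ℕ} (idx : Fin d → ι) (n : ℕ) :
    Ideal (PS 𝒪 d) :=
  sInf (goodSet c L idx n)

/-- **Lemma E.** -/
theorem Imin_mem {c : ι → 𝒪} {L : PointFamily 𝒪 ι} (hL : IsRigidFamily 𝒪 ι c L)
    {d : ℕ} {idx : Fin d → ι} (hsep : Sep c L idx) {n : ℕ} (hn : 1 ≤ n) :
    Imin c L idx n ∈ goodSet c L idx n := by
  apply sInf_mem_of_finite
  · exact (finite_ideals_above d n).subset (fun J hJ => hJ.2)
  · exact ⟨maximalIdeal (PS 𝒪 d), good_maximalIdeal hL idx, Ideal.pow_le_self (by omega)⟩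
  · intro J hJ J' hJ'
    exact ⟨hJ.1.inf hL hsep hJ'.1, le_inf hJ.2 hJ'.2⟩

theorem Imin_good {c : ι → 𝒪} {L : PointFamily 𝒪 ι} (hL : IsRigidFamily 𝒪 ι c L)
    {d : ℕ} {idx : Fin d → ι} (hsep : Sep c L idx) {n : ℕ} (hn : 1 ≤ n) :
    Good c L idx (Imin c L idx n) := (Imin_mem hL hsep hn).1

theorem pow_le_Imin (c : ι → 𝒪) (L : PointFamily 𝒪 ι) {d : ℕ} (idx : Fin d → ι) (n : ℕ) :
    maximalIdeal (PS 𝒪 d) ^ n ≤ Imin c L idx n :=
  le_sInf (fun J hJ => hJ.2)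

theorem Imin_le {c : ι → 𝒪} {L : PointFamily 𝒪 ι} {d : ℕ} {idx : Fin d → ι} {n : ℕ}
    {J : Ideal (PS 𝒪 d)} (hJ : Good c L idx J) (hn : maximalIdeal (PS 𝒪 d) ^ n ≤ J) :
    Imin c L idx n ≤ J :=
  sInf_le ⟨hJ, hn⟩

theorem Imin_zero (c : ι → 𝒪) (L : PointFamily 𝒪 ι) {d : ℕ} (idx : Fin d → ι) :
    Imin c L idx 0 = ⊤ := by
  have : goodSet c L idx 0 = (∅ : Set (Ideal (PS 𝒪 d))) := by
    ext J
    simp only [goodSet, Set.mem_setOf_eq, Set.mem_empty_iff_false, iff_false, not_and]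
    intro hJ h
    rw [pow_zero, Ideal.one_eq_top, top_le_iff] at h
    exact hJ.ne_top h
  rw [Imin, this, sInf_empty]

/-- **Lemma F.** the tower is strict -/
theorem Imin_succ {c : ι → 𝒪} {L : PointFamily 𝒪 ι} (hL : IsRigidFamily 𝒪 ι c L)
    {d : ℕ} {idx : Fin d → ι} (hsep : Sep c L idx) (n : ℕ) :
    Imin c L idx n = Imin c L idx (n + 1) ⊔ maximalIdeal (PS 𝒪 d) ^ n := by
  rcases Nat.eq_zero_or_pos n with rfl | hn
  · rw [Imin_zero, pow_zero, Ideal.one_eq_top, sup_top_eq]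
  apply le_antisymm
  · have hg : Good c L idx (Imin c L idx (n + 1)) := Imin_good hL hsep (by omega)
    have hle : Imin c L idx (n + 1) ⊔ maximalIdeal (PS 𝒪 d) ^ n ≤ maximalIdeal (PS 𝒪 d) :=
      sup_le (le_maximalIdeal hg.ne_top) (Ideal.pow_le_self (by omega))
    have hne : Imin c L idx (n + 1) ⊔ maximalIdeal (PS 𝒪 d) ^ n ≠ ⊤ :=
      ne_top_of_le_ne_top (Ideal.IsMaximal.ne_top inferInstance) hle
    exact Imin_le (hg.of_le hL le_sup_left hne) le_sup_right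
  · refine sup_le ?_ (pow_le_Imin c L idx n)
    exact Imin_le (Imin_good hL hsep hn)
      ((Ideal.pow_le_pow_right (Nat.le_succ n)).trans (pow_le_Imin c L idx n))

/-- the intersection of the tower -/
noncomputable def Iinf (c : ι → 𝒪) (L : PointFamily 𝒪 ι) {d : ℕ} (idx : Fin d → ι) :
    Ideal (PS 𝒪 d) :=
  ⨅ n, Imin c L idx n

theorem Imin_eq_Iinf_sup {c : ι → 𝒪} {L : PointFamily 𝒪 ι} (hL : IsRigidFamily 𝒪 ι c L)
    {d : ℕ} {idx : Fin d → ι} (hsep : Sep c L idx) (n : ℕ) :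
    Imin c L idx n = Iinf c L idx ⊔ maximalIdeal (PS 𝒪 d) ^ n :=
  tower (Imin c L idx) (Imin_succ hL hsep) n

theorem Iinf_le_Imin (c : ι → 𝒪) (L : PointFamily 𝒪 ι) {d : ℕ} (idx : Fin d → ι) (n : ℕ) :
    Iinf c L idx ≤ Imin c L idx n := iInf_le _ n

theorem Iinf_ne_top {c : ι → 𝒪} {L : PointFamily 𝒪 ι} (hL : IsRigidFamily 𝒪 ι c L)
    {d : ℕ} {idx : Fin d → ι} (hsep : Sep c L idx) : Iinf c L idx ≠ ⊤ :=
  ne_top_of_le_ne_top (Imin_good hL hsep le_rfl).ne_top (Iinf_le_Imin c L idx 1)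

end

end Fermat.Agent.S53
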