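import Fermat.Agent.S53.Abstract4

set_option autoImplicit false
set_option linter.unusedSectionVars false
set_option linter.unusedVariables false
set_option linter.style.haveILetI false

namespace Fermat.Agent.S53

open IsLocalRing GaloisRep CA

section General

/-- membership in powers of the maximal ideal of a quotient -/
theorem mk_mem_maximalIdeal_pow {A : Type} [CommRing A] [IsLocalRing A] (I : Ideal A)
    [IsLocalRing (A ⧸ I)] (n : ℕ) (s : A) :
    Ideal.Quotient.mk I s ∈ maximalIdeal (A ⧸ I) ^ n ↔ s ∈ I ⊔ maximalIdeal A ^ n := by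
  rw [← map_mk_maximalIdeal, ← Ideal.map_pow]
  have h := Ideal.comap_map_of_surjective (Ideal.Quotient.mk I) Ideal.Quotient.mk_surjective
    (maximalIdeal A ^ n)
  rw [← RingHom.ker_eq_comap_bot, Ideal.mk_ker] at h
  rw [sup_comm, ← h, Ideal.mem_comap]

/-- limits of Cauchy sequences in a precomplete local ring -/
theorem exists_limit {A : Type} [CommRing A] [IsLocalRing A] [IsPrecomplete (maximalIdeal A) A]
    (f : ℕ → A) (hf : ∀ n, f (n + 1) - f n ∈ maximalIdeal A ^ n) :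
    ∃ a, ∀ n, a - f n ∈ maximalIdeal A ^ n := by
  have hmono : ∀ m n, m ≤ n → f n - f m ∈ maximalIdeal A ^ m := by
    intro m n hmn
    induction n, hmn using Nat.le_induction with
    | base => simp
    | succ n hmn ih =>
      have h1 : f (n + 1) - f m = (f (n + 1) - f n) + (f n - f m) := by ring
      rw [h1]
      exact Ideal.add_mem _ (Ideal.pow_le_pow_right hmn (hf n)) ih
  obtain ⟨a, ha⟩ := IsPrecomplete.prec (I := maximalIdeal A) (M := A) inferInstance (f := f)
    (by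
      intro m n hmn
      rw [SModEq.sub_mem]
      have := hmono m n hmn
      have h2 : f m - f n = -(f n - f m) := by ring
      rw [h2]
      simpa using (maximalIdeal A ^ m).neg_mem this)
  refine ⟨a, fun n => ?_⟩
  have := ha n
  rw [SModEq.sub_mem] at this
  have h3 : f n - a ∈ maximalIdeal A ^ n := by simpa using this
  have h2 : a - f n = -(f n - a) := by ring
  rw [h2]
  exact (maximalIdeal A ^ n).neg_mem h3

/-- separatedness -/
theorem eq_of_forall_sub_mem_pow {A : Type} [CommRing A] [IsLocalRing A]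
    [IsHausdorff (maximalIdeal A) A] {a b : A} (h : ∀ n, a - b ∈ maximalIdeal A ^ n) : a = b := by
  rw [← sub_eq_zero]
  apply IsHausdorff.haus' (I := maximalIdeal A)
  intro n
  rw [SModEq.sub_mem]
  simpa using h n

end General

section

variable {𝒪 : Type} [CommRing 𝒪] [IsDomain 𝒪] [IsDiscreteValuationRing 𝒪]
  [IsAdicComplete (IsLocalRing.maximalIdeal 𝒪) 𝒪] [Finite (IsLocalRing.ResidueField 𝒪)]
variable {ι : Type} {c : ι → 𝒪} {L : PointFamily 𝒪 ι} (hL : IsRigidFamily 𝒪 ι c L)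
variable {d : ℕ} {idx : Fin d → ι} (hsep : Sep c L idx)

include hL hsep

theorem isLocalRing_Imin (n : ℕ) : IsLocalRing (PS 𝒪 d ⧸ Imin c L idx (n + 1)) :=
  isLocalRing_quot (Imin_good hL hsep (Nat.succ_pos n)).ne_top

theorem isLocalRing_Iinf : IsLocalRing (PS 𝒪 d ⧸ Iinf c L idx) :=
  isLocalRing_quot (Iinf_ne_top hL hsep)

/-- the canonical point over `S ⧸ I_{n+1}` -/
noncomputable def xn (n : ℕ) : ι → PS 𝒪 d ⧸ Imin c L idx (n + 1) :=
  (Imin_good hL hsep (Nat.succ_pos n)).2.choose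

theorem xn_spec (n : ℕ) :
    haveI := isLocalRing_Imin hL hsep n
    GoodPt c L idx (Imin c L idx (n + 1)) (xn hL hsep n) :=
  (Imin_good hL hsep (Nat.succ_pos n)).2.choose_spec

/-- lifts of the coordinates of the canonical points -/
noncomputable def sn (n : ℕ) (i : ι) : PS 𝒪 d :=
  (Ideal.Quotient.mk_surjective (xn hL hsep n i)).choose

theorem sn_spec (n : ℕ) (i : ι) :
    Ideal.Quotient.mk (Imin c L idx (n + 1)) (sn hL hsep n i) = xn hL hsep n i :=
  (Ideal.Quotient.mk_surjective (xn hL hsep n i)).choose_spec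

theorem Imin_succ_le (n : ℕ) : Imin c L idx (n + 1 + 1) ≤ Imin c L idx (n + 1) := by
  rw [Imin_succ hL hsep (n + 1)]
  exact le_sup_left

theorem sn_compat (n : ℕ) (i : ι) :
    sn hL hsep (n + 1) i - sn hL hsep n i ∈ Imin c L idx (n + 1) := by
  haveI := isLocalRing_Imin hL hsep n
  haveI := isLocalRing_Imin hL hsep (n + 1)
  have h := (xn_spec hL hsep (n + 1)).factor_eq hL hsep (xn_spec hL hsep n)
    (Imin_succ_le hL hsep n) i
  rw [← sn_spec, ← sn_spec, Ideal.Quotient.factorₐ_apply_mk, Ideal.Quotient.eq] at h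
  exact h

theorem exists_xu (i : ι) :
    ∃ u : PS 𝒪 d ⧸ Iinf c L idx, ∀ n,
      Ideal.Quotient.factorₐ 𝒪 (Iinf_le_Imin c L idx (n + 1)) u = xn hL hsep n i := by
  haveI := isLocalRing_Iinf hL hsep
  haveI : IsAdicComplete (maximalIdeal (PS 𝒪 d ⧸ Iinf c L idx)) (PS 𝒪 d ⧸ Iinf c L idx) :=
    ps_quot_isAdicComplete _
  obtain ⟨u, hu⟩ := exists_limit
    (fun n => Ideal.Quotient.mk (Iinf c L idx) (sn hL hsep n i)) (by
      intro n
      rw [← map_sub, mk_mem_maximalIdeal_pow]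
      have h1 := sn_compat hL hsep n i
      rw [Imin_eq_Iinf_sup hL hsep (n + 1)] at h1
      have h2 : Iinf c L idx ⊔ maximalIdeal (PS 𝒪 d) ^ (n + 1) ≤
          Iinf c L idx ⊔ maximalIdeal (PS 𝒪 d) ^ n :=
        sup_le_sup_left (Ideal.pow_le_pow_right (Nat.le_succ n)) _
      exact h2 h1)
  refine ⟨u, fun n => ?_⟩
  obtain ⟨t, rfl⟩ := Ideal.Quotient.mk_surjective u
  rw [Ideal.Quotient.factorₐ_apply_mk, ← sn_spec, Ideal.Quotient.eq]
  -- t - s_n ∈ I_{n+1}
  have h1 := hu (n + 1)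
  rw [← map_sub, mk_mem_maximalIdeal_pow, ← Imin_eq_Iinf_sup hL hsep (n + 1)] at h1
  have h2 := sn_compat hL hsep n i
  have : t - sn hL hsep n i = (t - sn hL hsep (n + 1) i) + (sn hL hsep (n + 1) i - sn hL hsep n i) := by
    ring
  rw [this]
  exact Ideal.add_mem _ h1 h2

/-- the universal point -/
noncomputable def xu (i : ι) : PS 𝒪 d ⧸ Iinf c L idx :=
  (exists_xu hL hsep i).choose

theorem xu_spec (n : ℕ) (i : ι) :
    Ideal.Quotient.factorₐ 𝒪 (Iinf_le_Imin c L idx (n + 1)) (xu hL hsep i) = xn hL hsep n i :=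
  (exists_xu hL hsep i).choose_spec n

/-- the kernel of `R → S ⧸ I_n` is `m_R ^ n` -/
theorem factor_eq_zero_iff (n : ℕ) (u : PS 𝒪 d ⧸ Iinf c L idx) :
    haveI := isLocalRing_Iinf hL hsep
    Ideal.Quotient.factorₐ 𝒪 (Iinf_le_Imin c L idx n) u = 0 ↔
      u ∈ maximalIdeal (PS 𝒪 d ⧸ Iinf c L idx) ^ n := by
  haveI := isLocalRing_Iinf hL hsep
  obtain ⟨t, rfl⟩ := Ideal.Quotient.mk_surjective u
  rw [Ideal.Quotient.factorₐ_apply_mk, Ideal.Quotient.eq_zero_iff_mem, mk_mem_maximalIdeal_pow,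
    ← Imin_eq_Iinf_sup hL hsep n]

theorem coord_xu (l : Fin d) :
    coord c idx (xu hL hsep) l = Ideal.Quotient.mk (Iinf c L idx) (MvPowerSeries.X l) := by
  haveI := isLocalRing_Iinf hL hsep
  haveI : IsAdicComplete (maximalIdeal (PS 𝒪 d ⧸ Iinf c L idx)) (PS 𝒪 d ⧸ Iinf c L idx) :=
    ps_quot_isAdicComplete _
  apply eq_of_forall_sub_mem_pow
  intro n
  refine Ideal.pow_le_pow_right (Nat.le_succ n) ?_
  rw [← factor_eq_zero_iff hL hsep (n + 1), map_sub, sub_eq_zero, ← coord_map]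
  haveI := isLocalRing_Imin hL hsep n
  have h1 : (fun i => Ideal.Quotient.factorₐ 𝒪 (Iinf_le_Imin c L idx (n + 1)) (xu hL hsep i)) =
      xn hL hsep n := funext (xu_spec hL hsep n)
  rw [h1, (xn_spec hL hsep n).coord_eq, Ideal.Quotient.factorₐ_apply_mk]

end

end Fermat.Agent.S53
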