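import Fermat.Agent.S53.Abstract5

set_option autoImplicit false
set_option linter.unusedSectionVars false
set_option linter.unusedVariables false
set_option linter.style.haveILetI false

namespace Fermat.Agent.S53

open IsLocalRing GaloisRep CA

theorem isLocalHom_of_surjective_algHom {R A B : Type} [CommRing R] [CommRing A] [IsLocalRing A]
    [CommRing B] [Nontrivial B] [Algebra R A] [Algebra R B] (f : A →ₐ[R] B)
    (hf : Function.Surjective f) : IsLocalHom (f : A →+* B) :=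
  IsLocalHom.of_surjective (f : A →+* B) hf

section

variable {𝒪 : Type} [CommRing 𝒪] [IsDomain 𝒪] [IsDiscreteValuationRing 𝒪]
  [IsAdicComplete (IsLocalRing.maximalIdeal 𝒪) 𝒪] [Finite (IsLocalRing.ResidueField 𝒪)]
variable {ι : Type} {c : ι → 𝒪} {L : PointFamily 𝒪 ι} (hL : IsRigidFamily 𝒪 ι c L)
variable {d : ℕ} {idx : Fin d → ι} (hsep : Sep c L idx)

include hL hsep

/-- the universal point is a point -/
theorem xu_mem :
    haveI := isLocalRing_Iinf hL hsep
    L (xu hL hsep) := by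
  haveI := isLocalRing_Iinf hL hsep
  haveI : IsAdicComplete (maximalIdeal (PS 𝒪 d ⧸ Iinf c L idx)) (PS 𝒪 d ⧸ Iinf c L idx) :=
    ps_quot_isAdicComplete _
  rw [hL.limit (ps_quot_isLocalHom _) (ps_quot_residue_surjective _)]
  intro B _ _ _ hB q hq hqsurj
  obtain ⟨n, hn⟩ := test_pow_eq_bot hB
  have hkill : ∀ u ∈ maximalIdeal (PS 𝒪 d ⧸ Iinf c L idx) ^ (n + 1), q u = 0 := by
    intro u hu
    have h1 : q u ∈ (maximalIdeal (PS 𝒪 d ⧸ Iinf c L idx) ^ (n + 1)).map
        (q : (PS 𝒪 d ⧸ Iinf c L idx) →+* B) := Ideal.mem_map_of_mem _ hu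
    rw [Ideal.map_pow] at h1
    haveI := hq
    have h2 := Ideal.pow_right_mono
      (map_maximalIdeal_le (q : (PS 𝒪 d ⧸ Iinf c L idx) →+* B)) (n + 1) h1
    have h3 : maximalIdeal B ^ (n + 1) ≤ ⊥ := hn ▸ Ideal.pow_le_pow_right (Nat.le_succ n)
    simpa using h3 h2
  let ψ : PS 𝒪 d →ₐ[𝒪] B := q.comp (Ideal.Quotient.mkₐ 𝒪 (Iinf c L idx))
  have hψ : ∀ s ∈ Imin c L idx (n + 1), ψ s = 0 := by
    intro s hs
    apply hkill
    show Ideal.Quotient.mk _ s ∈ _
    rw [mk_mem_maximalIdeal_pow, ← Imin_eq_Iinf_sup hL hsep]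
    exact hs
  let q' : (PS 𝒪 d ⧸ Imin c L idx (n + 1)) →ₐ[𝒪] B :=
    Ideal.Quotient.liftₐ (Imin c L idx (n + 1)) ψ hψ
  haveI := isLocalRing_Imin hL hsep n
  have hx := xn_spec hL hsep n
  have : (fun i => q (xu hL hsep i)) = fun i => q' (xn hL hsep n i) := by
    funext i
    rw [← xu_spec hL hsep n i]
    obtain ⟨t, ht⟩ := Ideal.Quotient.mk_surjective (xu hL hsep i)
    rw [← ht, Ideal.Quotient.factorₐ_apply_mk]
    rfl
  rw [this]
  exact hL.map hx.test hB q' (test_isLocalHom hx.test _) hx.mem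

omit hsep in
/-- points over complete local algebras reduce to the base point -/
theorem res_cnl {A : Type} [CommRing A] [IsLocalRing A] [IsNoetherianRing A]
    [IsAdicComplete (maximalIdeal A) A] [Algebra 𝒪 A]
    (hloc : IsLocalHom (algebraMap 𝒪 A))
    (hres : Function.Surjective (IsLocalRing.residue A ∘ algebraMap 𝒪 A))
    {y : ι → A} (hy : L y) (i : ι) : y i - algebraMap 𝒪 A (c i) ∈ maximalIdeal A := by
  have hne : maximalIdeal A ^ 1 ≠ ⊤ := by
    rw [pow_one]; exact Ideal.IsMaximal.ne_top inferInstance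
  haveI := isLocalRing_quot hne
  have hT : IsArtinianTestAlgebra 𝒪 (A ⧸ maximalIdeal A ^ 1) := test_quotient_pow hloc hres 1
  have hq : IsLocalHom ((Ideal.Quotient.mkₐ 𝒪 (maximalIdeal A ^ 1) :
      A →ₐ[𝒪] A ⧸ maximalIdeal A ^ 1) : A →+* A ⧸ maximalIdeal A ^ 1) :=
    isLocalHom_of_surjective_algHom _ (Ideal.Quotient.mkₐ_surjective 𝒪 _)
  have h1 := (hL.limit hloc hres y).mp hy hT (Ideal.Quotient.mkₐ 𝒪 (maximalIdeal A ^ 1)) hq
    (Ideal.Quotient.mkₐ_surjective 𝒪 _)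
  have h2 := hL.res hT h1 i
  have h3 : Ideal.Quotient.mk (maximalIdeal A ^ 1) (y i - algebraMap 𝒪 A (c i)) ∈
      maximalIdeal (A ⧸ maximalIdeal A ^ 1) ^ 1 := by
    rw [pow_one (maximalIdeal (A ⧸ maximalIdeal A ^ 1)), map_sub]
    exact h2
  rw [mk_mem_maximalIdeal_pow, sup_idem, pow_one] at h3
  exact h3

/-- **Universality.** -/
theorem xu_universal {A : Type} [CommRing A] [IsLocalRing A] [IsNoetherianRing A]
    [IsAdicComplete (maximalIdeal A) A] [Algebra 𝒪 A]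
    (hloc : IsLocalHom (algebraMap 𝒪 A))
    (hres : Function.Surjective (IsLocalRing.residue A ∘ algebraMap 𝒪 A))
    (y : ι → A) (hy : L y) :
    ∃! φ : (PS 𝒪 d ⧸ Iinf c L idx) →ₐ[𝒪] A,
      IsLocalHom (φ : (PS 𝒪 d ⧸ Iinf c L idx) →+* A) ∧ ∀ i, φ (xu hL hsep i) = y i := by
  classical
  haveI := isLocalRing_Iinf hL hsep
  have hb : ∀ l, coord c idx y l ∈ maximalIdeal A := fun l => res_cnl hL hloc hres hy (idx l)
  obtain ⟨ψ, hψloc, hψX⟩ := exists_evalS hloc (coord c idx y) hb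
  -- the Artinian quotients of A
  have hne : ∀ n : ℕ, maximalIdeal A ^ (n + 1) ≠ ⊤ := fun n =>
    ne_top_of_le_ne_top (Ideal.IsMaximal.ne_top inferInstance)
      (Ideal.pow_le_self (Nat.succ_ne_zero n))
  -- key: for every n, I_{n+1} ≤ ker (S → A/m^{n+1}) and the point is compatible
  have key : ∀ n : ℕ, ∀ t : PS 𝒪 d,
      (t ∈ Imin c L idx (n + 1) → ψ t ∈ maximalIdeal A ^ (n + 1)) ∧
      ∀ i, Ideal.Quotient.mk (Imin c L idx (n + 1)) t = xn hL hsep n i →
        ψ t - y i ∈ maximalIdeal A ^ (n + 1) := by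
    intro n
    haveI := isLocalRing_quot (hne n)
    have hAn : IsArtinianTestAlgebra 𝒪 (A ⧸ maximalIdeal A ^ (n + 1)) :=
      test_quotient_pow hloc hres (n + 1)
    let qn : A →ₐ[𝒪] (A ⧸ maximalIdeal A ^ (n + 1)) := Ideal.Quotient.mkₐ 𝒪 _
    have hqn : IsLocalHom (qn : A →+* A ⧸ maximalIdeal A ^ (n + 1)) :=
      isLocalHom_of_surjective_algHom _ (Ideal.Quotient.mkₐ_surjective 𝒪 _)
    have hyn : L (fun i => qn (y i)) :=
      (hL.limit hloc hres y).mp hy hAn qn hqn (Ideal.Quotient.mkₐ_surjective 𝒪 _)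
    let ψn : PS 𝒪 d →ₐ[𝒪] (A ⧸ maximalIdeal A ^ (n + 1)) := qn.comp ψ
    have hψnX : ∀ l, ψn (MvPowerSeries.X l) = coord c idx (fun i => qn (y i)) l := by
      intro l
      rw [coord_map]
      show qn (ψ (MvPowerSeries.X l)) = _
      rw [hψX]
    have hKne : RingHom.ker ψn ≠ ⊤ := RingHom.ker_ne_top _
    have hpow : maximalIdeal (PS 𝒪 d) ^ (n + 1) ≤ RingHom.ker ψn := by
      intro s hs
      rw [RingHom.mem_ker]
      show Ideal.Quotient.mk _ (ψ s) = 0
      rw [Ideal.Quotient.eq_zero_iff_mem]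
      have h1 : ψ s ∈ (maximalIdeal (PS 𝒪 d) ^ (n + 1)).map (ψ : PS 𝒪 d →+* A) :=
        Ideal.mem_map_of_mem _ hs
      rw [Ideal.map_pow] at h1
      haveI := hψloc
      exact Ideal.pow_right_mono (map_maximalIdeal_le (ψ : PS 𝒪 d →+* A)) (n + 1) h1
    haveI : IsLocalRing (PS 𝒪 d ⧸ RingHom.ker ψn) := isLocalRing_quot hKne
    have hTK : IsArtinianTestAlgebra 𝒪 (PS 𝒪 d ⧸ RingHom.ker ψn) :=
      ps_quot_test _ (n + 1) hpow
    let κ : (PS 𝒪 d ⧸ RingHom.ker ψn) →ₐ[𝒪] (A ⧸ maximalIdeal A ^ (n + 1)) :=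
      Ideal.kerLiftAlg ψn
    have hκinj : Function.Injective κ := Ideal.kerLiftAlg_injective ψn
    have hex := exists_eq_of_coord hL hsep hAn hyn ψn hψnX
    choose s hs using hex
    let w : ι → (PS 𝒪 d ⧸ RingHom.ker ψn) := fun i => Ideal.Quotient.mk _ (s i)
    have hκw : ∀ i, κ (w i) = qn (y i) := fun i => by
      show Ideal.kerLiftAlg ψn (Ideal.Quotient.mk _ (s i)) = _
      rw [Ideal.kerLiftAlg_mk, hs]
    have hw : L w := by
      refine hL.inj hTK hAn κ (test_isLocalHom hTK _) hκinj ?_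
      have : (fun i => κ (w i)) = fun i => qn (y i) := funext hκw
      rw [this]; exact hyn
    have hwcoord : ∀ l, coord c idx w l = Ideal.Quotient.mk _ (MvPowerSeries.X l) := by
      intro l
      apply hκinj
      rw [← coord_map]
      have : (fun i => κ (w i)) = fun i => qn (y i) := funext hκw
      rw [this, ← hψnX]
      show _ = Ideal.kerLiftAlg ψn (Ideal.Quotient.mk _ _)
      rw [Ideal.kerLiftAlg_mk]
    have hGP : GoodPt c L idx (RingHom.ker ψn) w :=
      ⟨⟨n + 1, hpow⟩, hw, hwcoord⟩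
    have hGood : Good c L idx (RingHom.ker ψn) := ⟨hKne, w, hGP⟩
    have hle : Imin c L idx (n + 1) ≤ RingHom.ker ψn := Imin_le hGood hpow
    intro t
    refine ⟨fun ht => ?_, fun i hti => ?_⟩
    · have := hle ht
      rw [RingHom.mem_ker] at this
      exact Ideal.Quotient.eq_zero_iff_mem.mp this
    · haveI := isLocalRing_Imin hL hsep n
      have h1 := (xn_spec hL hsep n).factor_eq hL hsep hGP hle i
      rw [← hti, Ideal.Quotient.factorₐ_apply_mk] at h1
      have h2 : κ (Ideal.Quotient.mk _ t) = qn (y i) := by rw [h1, hκw]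
      have h3 : qn (ψ t) = qn (y i) := by
        rw [← h2]
        show _ = Ideal.kerLiftAlg ψn (Ideal.Quotient.mk _ _)
        rw [Ideal.kerLiftAlg_mk]
        rfl
      exact Ideal.Quotient.eq.mp h3
  have hpowmono : ∀ n : ℕ, maximalIdeal A ^ (n + 1) ≤ maximalIdeal A ^ n := fun n =>
    Ideal.pow_le_pow_right (Nat.le_succ n)
  have hψI : ∀ t ∈ Iinf c L idx, ψ t = 0 := by
    intro t ht
    have : ψ t - 0 = ψ t := sub_zero _
    apply eq_of_forall_sub_mem_pow (A := A)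
    intro n
    rw [sub_zero]
    exact hpowmono n ((key n t).1 (Iinf_le_Imin c L idx (n + 1) ht))
  let φ : (PS 𝒪 d ⧸ Iinf c L idx) →ₐ[𝒪] A := Ideal.Quotient.liftₐ (Iinf c L idx) ψ hψI
  have hφmk : ∀ t, φ (Ideal.Quotient.mk _ t) = ψ t := fun t => rfl
  have hφloc : IsLocalHom (φ : (PS 𝒪 d ⧸ Iinf c L idx) →+* A) := by
    constructor
    intro a ha
    obtain ⟨t, rfl⟩ := Ideal.Quotient.mk_surjective a
    have h1 : IsUnit (ψ t) := ha
    haveI := hψloc
    have h2 : IsUnit t := isUnit_of_map_unit (ψ : PS 𝒪 d →+* A) t h1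
    exact h2.map _
  have hφxu : ∀ i, φ (xu hL hsep i) = y i := by
    intro i
    obtain ⟨t, ht⟩ := Ideal.Quotient.mk_surjective (xu hL hsep i)
    rw [← ht, hφmk]
    apply eq_of_forall_sub_mem_pow (A := A)
    intro n
    refine hpowmono n ((key n t).2 i ?_)
    rw [← xu_spec hL hsep n i, ← ht, Ideal.Quotient.factorₐ_apply_mk]
  refine ⟨φ, ⟨hφloc, hφxu⟩, ?_⟩
  rintro φ' ⟨hφ'loc, hφ'xu⟩
  apply Ideal.Quotient.algHom_ext
  have hφ'X : ∀ l, (φ'.comp (Ideal.Quotient.mkₐ 𝒪 (Iinf c L idx))) (MvPowerSeries.X l) =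
      coord c idx y l := by
    intro l
    show φ' (Ideal.Quotient.mk _ (MvPowerSeries.X l)) = _
    rw [← coord_xu hL hsep l, ← coord_map]
    have : (fun i => φ' (xu hL hsep i)) = y := funext hφ'xu
    rw [this]
  have hφX : ∀ l, (φ.comp (Ideal.Quotient.mkₐ 𝒪 (Iinf c L idx))) (MvPowerSeries.X l) =
      coord c idx y l := fun l => hψX l
  refine evalS_ext _ _ (fun l => ?_) (fun l => ?_)
  · rw [hφ'X]; exact hb l
  · rw [hφ'X, hφX]

end

end Fermat.Agent.S53
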