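import Mathlib
import Fermat.Prelude.Def_GaloisRep_DeformationRingData
import Fermat.Prelude.Def_GaloisRep_DeformationCondition

set_option autoImplicit false

/-!
# Abstract pro-representability (statement layer)

`L` is a family of subsets `L A ⊆ (ι → A)` for local `𝒪`-algebras `A`
("normalized liftings of type 𝒟", coordinates indexed by `ι`).
`IsRigidFamily` lists the closure properties, `UniversalPoint` is the conclusion.
-/

namespace Fermat.Agent.S53

open IsLocalRing GaloisRep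

/-- A family of point sets on local `𝒪`-algebras. -/
abbrev PointFamily (𝒪 : Type) [CommRing 𝒪] (ι : Type) : Type 1 :=
  ∀ ⦃A : Type⦄ [CommRing A] [IsLocalRing A] [Algebra 𝒪 A], (ι → A) → Prop

/-- Closure properties of a family of "rigid" point sets. -/
structure IsRigidFamily (𝒪 : Type) [CommRing 𝒪] [IsLocalRing 𝒪] (ι : Type) (c : ι → 𝒪)
    (L : PointFamily 𝒪 ι) : Prop where
  /-- (H1) every point reduces to the base point `c` modulo the maximal ideal. -/
  res : ∀ ⦃A : Type⦄ [CommRing A] [IsLocalRing A] [Algebra 𝒪 A],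
    IsArtinianTestAlgebra 𝒪 A → ∀ ⦃x : ι → A⦄, L x →
      ∀ i, x i - algebraMap 𝒪 A (c i) ∈ maximalIdeal A
  /-- (H2) the base point is a point over the residue field. -/
  base : L (fun i => algebraMap 𝒪 (ResidueField 𝒪) (c i))
  /-- (H3) functoriality for local homs of test algebras. -/
  map : ∀ ⦃A B : Type⦄ [CommRing A] [IsLocalRing A] [Algebra 𝒪 A]
    [CommRing B] [IsLocalRing B] [Algebra 𝒪 B],
    IsArtinianTestAlgebra 𝒪 A → IsArtinianTestAlgebra 𝒪 B →
    ∀ (φ : A →ₐ[𝒪] B), IsLocalHom (φ : A →+* B) → ∀ ⦃x : ι → A⦄,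
      L x → L (fun i => φ (x i))
  /-- (H4) descent along injective homs of test algebras. -/
  inj : ∀ ⦃A B : Type⦄ [CommRing A] [IsLocalRing A] [Algebra 𝒪 A]
    [CommRing B] [IsLocalRing B] [Algebra 𝒪 B],
    IsArtinianTestAlgebra 𝒪 A → IsArtinianTestAlgebra 𝒪 B →
    ∀ (φ : A →ₐ[𝒪] B), IsLocalHom (φ : A →+* B) → Function.Injective φ →
      ∀ ⦃x : ι → A⦄, L (fun i => φ (x i)) → L x
  /-- (H5) fibre products of test algebras. -/
  fibre : ∀ ⦃A B C P : Type⦄ [CommRing A] [IsLocalRing A] [Algebra 𝒪 A]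
    [CommRing B] [IsLocalRing B] [Algebra 𝒪 B] [CommRing C] [IsLocalRing C] [Algebra 𝒪 C]
    [CommRing P] [IsLocalRing P] [Algebra 𝒪 P],
    IsArtinianTestAlgebra 𝒪 A → IsArtinianTestAlgebra 𝒪 B → IsArtinianTestAlgebra 𝒪 C →
    IsArtinianTestAlgebra 𝒪 P →
    ∀ (f : A →ₐ[𝒪] C) (g : B →ₐ[𝒪] C) (pA : P →ₐ[𝒪] A) (pB : P →ₐ[𝒪] B),
      IsLocalHom (pA : P →+* A) → IsLocalHom (pB : P →+* B) →
      f.comp pA = g.comp pB →
      Function.Injective (fun x => (pA x, pB x)) →
      (∀ a b, f a = g b → ∃ x, pA x = a ∧ pB x = b) →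
      ∀ ⦃x : ι → P⦄, L (fun i => pA (x i)) → L (fun i => pB (x i)) → L x
  /-- (H6) finitely many coordinates detect triviality of first-order points. -/
  tangent : ∃ F : Finset ι, ∀ ⦃B : Type⦄ [CommRing B] [IsLocalRing B] [Algebra 𝒪 B],
    IsArtinianTestAlgebra 𝒪 B → maximalIdeal B ^ 2 = ⊥ →
    (maximalIdeal 𝒪).map (algebraMap 𝒪 B) = ⊥ →
    ∀ ⦃x : ι → B⦄, L x → (∀ i ∈ F, x i = algebraMap 𝒪 B (c i)) →
      ∀ i, x i = algebraMap 𝒪 B (c i)
  /-- (H7) over a complete Noetherian local algebra, membership is tested on Artinian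
  quotients. -/
  limit : ∀ ⦃A : Type⦄ [CommRing A] [IsLocalRing A] [IsNoetherianRing A]
    [IsAdicComplete (maximalIdeal A) A] [Algebra 𝒪 A],
    IsLocalHom (algebraMap 𝒪 A) → Function.Surjective (IsLocalRing.residue A ∘ algebraMap 𝒪 A) →
    ∀ (x : ι → A),
      L x ↔ ∀ ⦃B : Type⦄ [CommRing B] [IsLocalRing B] [Algebra 𝒪 B], IsArtinianTestAlgebra 𝒪 B →
        ∀ (q : A →ₐ[𝒪] B), IsLocalHom (q : A →+* B) → Function.Surjective q →
          L (fun i => q (x i))

/-- The conclusion: a complete Noetherian local `𝒪`-algebra with a universal point. -/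
structure UniversalPoint (𝒪 : Type) [CommRing 𝒪] [IsLocalRing 𝒪] (ι : Type)
    (L : PointFamily 𝒪 ι) : Type 1 where
  R : Type
  [instCommRing : CommRing R]
  [instIsLocalRing : IsLocalRing R]
  [instIsNoetherianRing : IsNoetherianRing R]
  [instIsAdicComplete : IsAdicComplete (IsLocalRing.maximalIdeal R) R]
  [instAlgebra : Algebra 𝒪 R]
  [instIsLocalHom : IsLocalHom (algebraMap 𝒪 R)]
  residue_surjective : Function.Surjective (IsLocalRing.residue R ∘ algebraMap 𝒪 R)
  xu : ι → R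
  mem : L xu
  universal : ∀ (A : Type) [CommRing A] [IsLocalRing A] [IsNoetherianRing A]
      [IsAdicComplete (IsLocalRing.maximalIdeal A) A] [Algebra 𝒪 A] [IsLocalHom (algebraMap 𝒪 A)],
      Function.Surjective (IsLocalRing.residue A ∘ algebraMap 𝒪 A) →
      ∀ y : ι → A, L y →
        ∃! φ : R →ₐ[𝒪] A, IsLocalHom (φ : R →+* A) ∧ ∀ i, φ (xu i) = y i

attribute [instance] UniversalPoint.instCommRing UniversalPoint.instIsLocalRing
  UniversalPoint.instIsNoetherianRing UniversalPoint.instIsAdicComplete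
  UniversalPoint.instAlgebra UniversalPoint.instIsLocalHom

end Fermat.Agent.S53
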