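import Fermat.Agent.S53.Dict
import Fermat.Prelude.Def_GaloisRep_DeformationCondition

set_option autoImplicit false
set_option linter.unusedSectionVars false

namespace Fermat.Agent.S53

open IsLocalRing GaloisRep

section Tan

variable (𝒪 : Type) [CommRing 𝒪] [IsLocalRing 𝒪]

/-- The `𝒪`-algebra structure on the dual numbers over the residue field which is used in the
Prelude definition `GaloisRep.TangentFinite` (there it is a `letI`). -/
@[reducible] noncomputable def dualAlgebra : Algebra 𝒪 (DualNumber (ResidueField 𝒪)) :=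
  ((algebraMap (ResidueField 𝒪) (DualNumber (ResidueField 𝒪))).comp
    (algebraMap 𝒪 (ResidueField 𝒪))).toAlgebra

/-- The `k`-algebra structure on the residue field of the dual numbers which is used in the
Prelude definition `GaloisRep.TangentFinite` (there it is a `letI`). -/
@[reducible] noncomputable def dualResAlgebra :
    Algebra (ResidueField 𝒪) (ResidueField (DualNumber (ResidueField 𝒪))) :=
  ((IsLocalRing.residue (DualNumber (ResidueField 𝒪))).comp
    (algebraMap (ResidueField 𝒪) (DualNumber (ResidueField 𝒪)))).toAlgebra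

lemma dualAlgebra_algebraMap_apply (x : 𝒪) :
    @algebraMap 𝒪 (DualNumber (ResidueField 𝒪)) _ _ (dualAlgebra 𝒪) x =
      algebraMap (ResidueField 𝒪) (DualNumber (ResidueField 𝒪)) (residue 𝒪 x) := rfl

theorem isLocalHom_dualAlgebra :
    IsLocalHom (@algebraMap 𝒪 (DualNumber (ResidueField 𝒪)) _ _ (dualAlgebra 𝒪)) := by
  refine ⟨fun x hx => ?_⟩
  rw [dualAlgebra_algebraMap_apply] at hx
  rw [← residue_ne_zero_iff_isUnit]
  intro h0
  rw [h0, map_zero] at hx
  exact not_isUnit_zero hx

theorem residue_dualAlgebra_surjective :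
    Function.Surjective (IsLocalRing.residue (DualNumber (ResidueField 𝒪)) ∘
      @algebraMap 𝒪 (DualNumber (ResidueField 𝒪)) _ _ (dualAlgebra 𝒪)) := by
  intro y
  obtain ⟨z, rfl⟩ := residue_surjective y
  obtain ⟨a, ha⟩ := residue_surjective (TrivSqZeroExt.fst z)
  refine ⟨a, ?_⟩
  rw [Function.comp_apply, dualAlgebra_algebraMap_apply, ha, ← sub_eq_zero, ← map_sub,
    residue_eq_zero_iff, DualNumber.maximalIdeal_eq_span_singleton_eps,
    Ideal.mem_span_singleton, ← DualNumber.fst_eq_zero_iff_eps_dvd]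
  simp [TrivSqZeroExt.algebraMap_eq_inl]

/-- The two ring homomorphisms `k → ResidueField k[ε]` (the one of `TangentFinite` and the one of
`DeformationRingData`) agree. -/
theorem dual_residueMap_eq :
    (IsLocalRing.residue (DualNumber (ResidueField 𝒪))).comp
      (algebraMap (ResidueField 𝒪) (DualNumber (ResidueField 𝒪))) =
    @ResidueField.map 𝒪 (DualNumber (ResidueField 𝒪)) _ _ _ _
      (@algebraMap 𝒪 (DualNumber (ResidueField 𝒪)) _ _ (dualAlgebra 𝒪))
      (isLocalHom_dualAlgebra 𝒪) := by
  have _ := isLocalHom_dualAlgebra 𝒪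
  apply RingHom.ext
  intro y
  obtain ⟨a, rfl⟩ := residue_surjective y
  rw [ResidueField.map_residue]
  rfl

theorem isArtinianRing_dualNumber (k : Type) [Field k] : IsArtinianRing (DualNumber k) := by
  have _ : Module.Finite k (DualNumber k) := inferInstanceAs (Module.Finite k (k × k))
  exact IsArtinianRing.of_finite k (DualNumber k)

/-- The dual numbers, with the algebra structure of `TangentFinite`, are an Artinian test
algebra. -/
theorem isArtinianTestAlgebra_dualNumber :
    @IsArtinianTestAlgebra 𝒪 _ (DualNumber (ResidueField 𝒪)) _ _ (dualAlgebra 𝒪) := by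
  letI : Algebra 𝒪 (DualNumber (ResidueField 𝒪)) := dualAlgebra 𝒪
  exact ⟨isLocalHom_dualAlgebra 𝒪, residue_dualAlgebra_surjective 𝒪,
    isArtinianRing_dualNumber (ResidueField 𝒪)⟩

variable {𝒪}

/-- **Tangent bridge.** From `TangentFinite`, any family of pairwise inequivalent matrix liftings
of type `𝒟` to the dual numbers (with the algebra structure `dualAlgebra 𝒪`) is finite. -/
theorem finite_of_tangentFinite (ρbar : ResidualGaloisRep (ResidueField 𝒪))
    (𝒟 : ∀ ⦃A : Type⦄ [CommRing A] [IsLocalRing A] [Algebra 𝒪 A], GaloisRepAdic A → Prop)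
    (hfin : TangentFinite 𝒪 ρbar 𝒟)
    (rb : GQ →* M2 (ResidueField 𝒪)) (hrb : GaloisFactorsThroughFiniteLevel rb)
    (hρbar : ρbar.IsEquiv (toRes rb hrb))
    (X : Type) (f : X → GQ →* M2 (DualNumber (ResidueField 𝒪))) (hc : ∀ x, MatCont (f x))
    (hl : ∀ x σ, (f x σ).map (IsLocalRing.residue (DualNumber (ResidueField 𝒪))) =
      (rb σ).map (@ResidueField.map 𝒪 (DualNumber (ResidueField 𝒪)) _ _ _ _
        (@algebraMap 𝒪 (DualNumber (ResidueField 𝒪)) _ _ (dualAlgebra 𝒪))
        (isLocalHom_dualAlgebra 𝒪)))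
    (hD : ∀ x, @𝒟 (DualNumber (ResidueField 𝒪)) _ _ (dualAlgebra 𝒪) (toAdic (f x) (hc x)))
    (hinj : ∀ x y, (toAdic (f x) (hc x)).IsEquiv (toAdic (f y) (hc y)) → x = y) :
    Finite X := by
  let _ : Algebra 𝒪 (DualNumber (ResidueField 𝒪)) := dualAlgebra 𝒪
  have _ : IsLocalHom (algebraMap 𝒪 (DualNumber (ResidueField 𝒪))) := isLocalHom_dualAlgebra 𝒪
  have hres : ∀ x, (toAdic (f x) (hc x)).residual.IsEquiv
      (ρbar.baseChangeAlong ((IsLocalRing.residue (DualNumber (ResidueField 𝒪))).comp
        (algebraMap (ResidueField 𝒪) (DualNumber (ResidueField 𝒪))))) := by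
    intro x
    rw [dual_residueMap_eq]
    exact residual_isEquiv_of_lift ρbar rb hrb hρbar (f x) (hc x) (hl x)
  unfold TangentFinite at hfin
  refine @Finite.of_injective _ _ hfin (fun x => Quotient.mk _ ⟨toAdic (f x) (hc x), hD x, hres x⟩)
    ?_
  intro x y hxy
  exact hinj x y (Quotient.exact hxy)

end Tan

end Fermat.Agent.S53
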