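import Fermat.Agent.S53.GlueSpec
import Fermat.Agent.S53.Rigid.Statement

set_option autoImplicit false

open IsLocalRing GaloisRep

namespace Fermat.Agent.S53

/-- The S53 statement from the abstract core alone (block B = `Rigid.rigidStatement` is done). -/
theorem nonempty_deformationRingData_of_core
    (hD : Spec.AbstractCoreStatement)
    (𝒪 : Type) [CommRing 𝒪] [IsDomain 𝒪] [IsDiscreteValuationRing 𝒪]
    [IsAdicComplete (IsLocalRing.maximalIdeal 𝒪) 𝒪] [Finite (IsLocalRing.ResidueField 𝒪)]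
    (ρbar : ResidualGaloisRep (IsLocalRing.ResidueField 𝒪))
    (𝒟 : ∀ ⦃A : Type⦄ [CommRing A] [IsLocalRing A] [Algebra 𝒪 A], GaloisRepAdic A → Prop)
    (habs : ρbar.IsAbsolutelyIrreducible)
    (h𝒟 : GaloisRep.IsDeformationCondition 𝒪 𝒟)
    (hbar : 𝒟 (GaloisRepAdic.ofResidualGaloisRep ρbar))
    (hfin : GaloisRep.TangentFinite 𝒪 ρbar 𝒟) :
    Nonempty (GaloisRep.DeformationRingData 𝒪 ρbar 𝒟) :=
  nonempty_deformationRingData_of_spec 𝒪 hD Rigid.rigidStatement ρbar 𝒟 habs h𝒟 hbar hfin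

end Fermat.Agent.S53
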