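import Fermat.Agent.S53.GlueDefs

set_option autoImplicit false
set_option linter.unusedSectionVars false
set_option linter.unusedVariables false
set_option linter.style.haveILetI false

open IsLocalRing GaloisRep

noncomputable section

namespace Fermat.Agent.S53

section Generic

variable {A : Type} [CommRing A] [IsLocalRing A]

lemma matCont_of_factors {r : GQ →* M2 A}
    (h : GaloisFactorsThroughFiniteLevel r) : MatCont r := by
  intro n
  obtain ⟨L, hL, h1⟩ := h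
  refine ⟨L, hL, fun σ hσ i j => ?_⟩
  rw [h1 σ hσ, sub_self]
  exact Ideal.zero_mem _

lemma MatCont.factors_of_pow_eq_bot {r : GQ →* M2 A} (hr : MatCont r) {N : ℕ}
    (hN : maximalIdeal A ^ N = ⊥) : GaloisFactorsThroughFiniteLevel r := by
  obtain ⟨L, hL, h⟩ := hr N
  refine ⟨L, hL, fun σ hσ => ?_⟩
  ext i j
  have h1 := h σ hσ i j
  rw [hN, Ideal.mem_bot, Matrix.sub_apply, sub_eq_zero] at h1
  exact h1

lemma exists_pow_eq_bot_of_isArtinianRing [IsArtinianRing A] :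
    ∃ N : ℕ, maximalIdeal A ^ N = ⊥ := by
  obtain ⟨n, hn⟩ := IsArtinianRing.isNilpotent_jacobson_bot (R := A)
  refine ⟨n, ?_⟩
  rwa [IsLocalRing.jacobson_eq_maximalIdeal ⊥ bot_ne_top] at hn

lemma toAdic_congr {r r' : GQ →* M2 A} (h : r = r') (hr : MatCont r) (hr' : MatCont r') :
    (toAdic r hr).IsEquiv (toAdic r' hr') := by
  subst h
  exact ⟨GaloisRepAdic.Equiv.refl _⟩

lemma factors_sup {M N : Type} [MulOneClass M] [MulOneClass N] {r : GQ →* M} {s : GQ →* N}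
    (hr : GaloisFactorsThroughFiniteLevel r) (hs : GaloisFactorsThroughFiniteLevel s) :
    ∃ L : IntermediateField ℚ (AlgebraicClosure ℚ), FiniteDimensional ℚ L ∧
      ∀ σ : GQ, (∀ x ∈ L, σ x = x) → r σ = 1 ∧ s σ = 1 := by
  obtain ⟨L1, hL1, h1⟩ := hr
  obtain ⟨L2, hL2, h2⟩ := hs
  refine ⟨L1 ⊔ L2, IntermediateField.finiteDimensional_sup L1 L2, fun σ hσ => ⟨?_, ?_⟩⟩
  · exact h1 σ fun x hx => hσ x ((le_sup_left : L1 ≤ L1 ⊔ L2) hx)
  · exact h2 σ fun x hx => hσ x ((le_sup_right : L2 ≤ L1 ⊔ L2) hx)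

end Generic

section JointInj

variable {Q A B : Type} [CommRing Q] [CommRing A] [CommRing B]

lemma mat_eq_of_joint_injective (pA : Q →+* A) (pB : Q →+* B)
    (hinj : Function.Injective (fun q => (pA q, pB q))) (X Y : M2 Q)
    (h1 : X.map pA = Y.map pA) (h2 : X.map pB = Y.map pB) : X = Y := by
  ext i j
  apply hinj
  simp only [Prod.mk.injEq]
  exact ⟨by simpa using congrFun (congrFun h1 i) j, by simpa using congrFun (congrFun h2 i) j⟩

lemma mat_eq_one_of_joint_injective (pA : Q →+* A) (pB : Q →+* B)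
    (hinj : Function.Injective (fun q => (pA q, pB q))) (X : M2 Q)
    (h1 : X.map pA = 1) (h2 : X.map pB = 1) : X = 1 := by
  apply mat_eq_of_joint_injective pA pB hinj
  · rw [h1]; exact (pA.mapMatrix.map_one).symm
  · rw [h2]; exact (pB.mapMatrix.map_one).symm

/-- A family of entries over `Q` whose images under two jointly injective ring homs are
representations is itself a representation. -/
lemma exists_rep_of_joint_injective (pA : Q →+* A) (pB : Q →+* B)
    (hinj : Function.Injective (fun q => (pA q, pB q)))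
    (x : Idx → Q) (rA : GQ →* M2 A) (rB : GQ →* M2 B)
    (hA : entries rA = fun t => pA (x t)) (hB : entries rB = fun t => pB (x t)) :
    ∃ r : GQ →* M2 Q, entries r = x ∧ mapRep pA r = rA ∧ mapRep pB r = rB := by
  have hAe : ∀ σ i j, rA σ i j = pA (x (σ, i, j)) := fun σ i j => congrFun hA (σ, i, j)
  have hBe : ∀ σ i j, rB σ i j = pB (x (σ, i, j)) := fun σ i j => congrFun hB (σ, i, j)
  let m : GQ → M2 Q := fun σ => Matrix.of fun i j => x (σ, i, j)
  have hmA : ∀ σ, (m σ).map pA = rA σ := fun σ => by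
    ext i j; simp [m, hAe]
  have hmB : ∀ σ, (m σ).map pB = rB σ := fun σ => by
    ext i j; simp [m, hBe]
  have hmat : ∀ X Y : M2 Q, X.map pA = Y.map pA → X.map pB = Y.map pB → X = Y := by
    intro X Y h1 h2
    ext i j
    apply hinj
    simp only [Prod.mk.injEq]
    exact ⟨by simpa using congrFun (congrFun h1 i) j, by simpa using congrFun (congrFun h2 i) j⟩
  refine ⟨⟨⟨m, ?_⟩, ?_⟩, rfl, ?_, ?_⟩
  · apply hmat
    · rw [hmA, map_one]; exact (pA.mapMatrix.map_one).symm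
    · rw [hmB, map_one]; exact (pB.mapMatrix.map_one).symm
  · intro σ τ
    apply hmat
    · rw [Matrix.map_mul, hmA, hmA, hmA, map_mul]
    · rw [Matrix.map_mul, hmB, hmB, hmB, map_mul]
  · ext σ i j
    exact (hAe σ i j).symm
  · ext σ i j
    exact (hBe σ i j).symm

end JointInj

section LiftNorm

variable {𝒪 : Type} [CommRing 𝒪] {c : Idx → 𝒪} {m : ℕ} {coord : Fin m → Idx} {cst : Fin m → 𝒪}
variable {A B Q : Type} [CommRing A] [IsLocalRing A] [Algebra 𝒪 A]
  [CommRing B] [IsLocalRing B] [Algebra 𝒪 B] [CommRing Q] [IsLocalRing Q] [Algebra 𝒪 Q]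

lemma IsLiftC.map (φ : A →ₐ[𝒪] B) (hφ : IsLocalHom (φ : A →+* B)) {x : Idx → A}
    (hl : IsLiftC c x) : IsLiftC c (fun t => φ (x t)) := by
  intro t
  have h1 : φ (x t) - algebraMap 𝒪 B (c t) = (φ : A →+* B) (x t - algebraMap 𝒪 A (c t)) := by
    simp [map_sub, AlgHom.commutes]
  rw [h1]
  exact haveI := hφ; map_nonunit (φ : A →+* B) _ (hl t)

lemma IsLiftC.of_map (φ : A →ₐ[𝒪] B) {x : Idx → A}
    (hl : IsLiftC c (fun t => φ (x t))) : IsLiftC c x := by
  intro t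
  have h1 : φ (x t) - algebraMap 𝒪 B (c t) = φ (x t - algebraMap 𝒪 A (c t)) := by
    simp [map_sub, AlgHom.commutes]
  have h2 := hl t
  rw [h1] at h2
  rw [mem_maximalIdeal, mem_nonunits_iff] at h2 ⊢
  exact fun hu => h2 (hu.map φ)

lemma NormC.map (φ : A →ₐ[𝒪] B) {x : Idx → A}
    (hn : NormC coord cst x) : NormC coord cst (fun t => φ (x t)) := by
  intro a
  show φ (x (coord a)) = _
  rw [hn a, AlgHom.commutes]

lemma NormC.of_joint (pA : Q →ₐ[𝒪] A) (pB : Q →ₐ[𝒪] B)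
    (hinj : Function.Injective (fun q => (pA q, pB q))) {x : Idx → Q}
    (hA : NormC coord cst (fun t => pA (x t))) (hB : NormC coord cst (fun t => pB (x t))) :
    NormC coord cst x := by
  intro a
  apply hinj
  simp only [Prod.mk.injEq, AlgHom.commutes]
  exact ⟨hA a, hB a⟩

end LiftNorm

section Fields

variable {𝒪 : Type} [CommRing 𝒪] [IsLocalRing 𝒪]
  {𝒟 : ∀ ⦃A : Type⦄ [CommRing A] [IsLocalRing A] [Algebra 𝒪 A], GaloisRepAdic A → Prop}
  (h𝒟 : IsDeformationCondition 𝒪 𝒟)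
  {c : Idx → 𝒪} (K : RigidKit 𝒪 c)

include h𝒟

lemma Lpred_map {A B : Type} [CommRing A] [IsLocalRing A] [Algebra 𝒪 A]
    [CommRing B] [IsLocalRing B] [Algebra 𝒪 B]
    (hA : IsArtinianTestAlgebra 𝒪 A) (hB : IsArtinianTestAlgebra 𝒪 B)
    (φ : A →ₐ[𝒪] B) (hφ : IsLocalHom (φ : A →+* B)) {x : Idx → A} (hx : Lpred 𝒟 K x) :
    Lpred 𝒟 K (fun i => φ (x i)) := by
  obtain ⟨r, hr, rfl, hD, hl, hn⟩ := hx
  refine ⟨mapRep (φ : A →+* B) r, hr.map _ hφ, rfl, ?_, hl.map φ hφ, hn.map φ⟩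
  exact h𝒟.of_isEquiv hB (baseChangeAlong_toAdic (φ : A →+* B) hφ r hr)
    (h𝒟.baseChangeAlong hA hB φ hφ hD)

lemma Lpred_fibre {A B C P : Type} [CommRing A] [IsLocalRing A] [Algebra 𝒪 A]
    [CommRing B] [IsLocalRing B] [Algebra 𝒪 B] [CommRing C] [IsLocalRing C] [Algebra 𝒪 C]
    [CommRing P] [IsLocalRing P] [Algebra 𝒪 P]
    (hA : IsArtinianTestAlgebra 𝒪 A) (hB : IsArtinianTestAlgebra 𝒪 B)
    (hC : IsArtinianTestAlgebra 𝒪 C) (hP : IsArtinianTestAlgebra 𝒪 P)
    (f : A →ₐ[𝒪] C) (g : B →ₐ[𝒪] C) (pA : P →ₐ[𝒪] A) (pB : P →ₐ[𝒪] B)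
    (hpA : IsLocalHom (pA : P →+* A)) (hpB : IsLocalHom (pB : P →+* B))
    (hfg : f.comp pA = g.comp pB)
    (hinj : Function.Injective (fun x => (pA x, pB x)))
    (hsurj : ∀ a b, f a = g b → ∃ x, pA x = a ∧ pB x = b)
    {x : Idx → P} (hxA : Lpred 𝒟 K (fun i => pA (x i))) (hxB : Lpred 𝒟 K (fun i => pB (x i))) :
    Lpred 𝒟 K x := by
  obtain ⟨rA, hrA, hentA, hDA, hlA, hnA⟩ := hxA
  obtain ⟨rB, hrB, hentB, hDB, hlB, hnB⟩ := hxB
  obtain ⟨r, hr_ent, hmA, hmB⟩ := exists_rep_of_joint_injective (pA : P →+* A) (pB : P →+* B)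
    hinj x rA rB hentA hentB
  subst hmA hmB
  have := hA.isArtinian
  have := hB.isArtinian
  obtain ⟨NA, hNA⟩ := exists_pow_eq_bot_of_isArtinianRing (A := A)
  obtain ⟨NB, hNB⟩ := exists_pow_eq_bot_of_isArtinianRing (A := B)
  obtain ⟨L, hL, h1⟩ := factors_sup (hrA.factors_of_pow_eq_bot hNA) (hrB.factors_of_pow_eq_bot hNB)
  have hf : GaloisFactorsThroughFiniteLevel r := by
    refine ⟨L, hL, fun σ hσ => ?_⟩
    obtain ⟨h2, h3⟩ := h1 σ hσ
    exact mat_eq_one_of_joint_injective (pA : P →+* A) (pB : P →+* B) hinj _ h2 h3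
  have hr : MatCont r := matCont_of_factors hf
  refine ⟨r, hr, hr_ent, ?_, ?_, NormC.of_joint pA pB hinj hnA hnB⟩
  · apply h𝒟.of_fibreProduct hA hB hC hP f g pA pB hpA hpB hfg hinj hsurj
    · obtain ⟨e⟩ := baseChangeAlong_toAdic (pA : P →+* A) hpA r hr
      exact h𝒟.of_isEquiv hA ⟨e.symm⟩ hDA
    · obtain ⟨e⟩ := baseChangeAlong_toAdic (pB : P →+* B) hpB r hr
      exact h𝒟.of_isEquiv hB ⟨e.symm⟩ hDB
  · exact IsLiftC.of_map pA hlA

lemma Lpred_inj {A B : Type} [CommRing A] [IsLocalRing A] [Algebra 𝒪 A]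
    [CommRing B] [IsLocalRing B] [Algebra 𝒪 B]
    (hA : IsArtinianTestAlgebra 𝒪 A) (hB : IsArtinianTestAlgebra 𝒪 B)
    (φ : A →ₐ[𝒪] B) (hφ : IsLocalHom (φ : A →+* B)) (hinj : Function.Injective φ)
    {x : Idx → A} (hx : Lpred 𝒟 K (fun i => φ (x i))) : Lpred 𝒟 K x := by
  obtain ⟨rB, hrB, hentB, hDB, hlB, hnB⟩ := hx
  have hinj2 : Function.Injective (fun q => ((φ : A →+* B) q, (φ : A →+* B) q)) :=
    fun a b hab => hinj (congrArg Prod.fst hab)
  obtain ⟨r, hr_ent, hmA, -⟩ := exists_rep_of_joint_injective (φ : A →+* B) (φ : A →+* B)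
    hinj2 x rB rB hentB hentB
  subst hmA
  have := hB.isArtinian
  obtain ⟨NB, hNB⟩ := exists_pow_eq_bot_of_isArtinianRing (A := B)
  obtain ⟨L, hL, h1⟩ := hrB.factors_of_pow_eq_bot hNB
  have hf : GaloisFactorsThroughFiniteLevel r := by
    refine ⟨L, hL, fun σ hσ => ?_⟩
    have h2 := h1 σ hσ
    exact mat_eq_one_of_joint_injective (φ : A →+* B) (φ : A →+* B) hinj2 _ h2 h2
  have hr : MatCont r := matCont_of_factors hf
  refine ⟨r, hr, hr_ent, ?_, IsLiftC.of_map φ hlB, NormC.of_joint φ φ hinj2 hnB hnB⟩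
  apply h𝒟.of_baseChangeAlong_injective hA hB φ hφ hinj
  obtain ⟨e⟩ := baseChangeAlong_toAdic (φ : A →+* B) hφ r hr
  exact h𝒟.of_isEquiv hB ⟨e.symm⟩ hDB

omit h𝒟 in
lemma isArtinianTestAlgebra_residueField_h953 :
    IsArtinianTestAlgebra 𝒪 (ResidueField 𝒪) where
  isLocalHom := by
    rw [IsLocalRing.ResidueField.algebraMap_eq]
    infer_instance
  residue_surjective := by
    rw [IsLocalRing.ResidueField.algebraMap_eq]
    exact (IsLocalRing.residue_surjective).comp IsLocalRing.residue_surjective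
  isArtinian := inferInstance

lemma Lpred_base (ρbar : ResidualGaloisRep (ResidueField 𝒪))
    (hbar : 𝒟 (GaloisRepAdic.ofResidualGaloisRep ρbar))
    (rbar : GQ →* M2 (ResidueField 𝒪)) (hrbar : GaloisFactorsThroughFiniteLevel rbar)
    (e0 : ρbar.IsEquiv (toRes rbar hrbar)) (hc : ∀ t, residue 𝒪 (c t) = entries rbar t) :
    Lpred 𝒟 K (fun i => algebraMap 𝒪 (ResidueField 𝒪) (c i)) := by
  have hent : entries rbar = fun i => algebraMap 𝒪 (ResidueField 𝒪) (c i) := by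
    funext t
    rw [IsLocalRing.ResidueField.algebraMap_eq, hc t]
  refine ⟨rbar, matCont_of_factors hrbar, hent, ?_, ?_, ?_⟩
  · obtain ⟨e⟩ := e0
    exact h𝒟.of_isEquiv isArtinianTestAlgebra_residueField_h953
      ⟨⟨e.toLinearEquiv, e.map_apply⟩⟩ hbar
  · intro t
    simp
  · intro a
    show algebraMap 𝒪 (ResidueField 𝒪) (c (K.coord a)) = algebraMap 𝒪 (ResidueField 𝒪) (K.cst a)
    rw [IsLocalRing.ResidueField.algebraMap_eq, K.cst_res a]

section Limit

variable {A : Type} [CommRing A] [IsLocalRing A] [IsNoetherianRing A]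
  [IsAdicComplete (maximalIdeal A) A] [Algebra 𝒪 A]

omit h𝒟 in
lemma pow_succ_ne_top (n : ℕ) : maximalIdeal A ^ (n + 1) ≠ ⊤ := by
  intro h
  have h1 : maximalIdeal A ^ (n + 1) ≤ maximalIdeal A := Ideal.pow_le_self (Nat.succ_ne_zero n)
  rw [h] at h1
  exact (maximalIdeal.isMaximal A).ne_top (top_le_iff.1 h1)

omit h𝒟 in
lemma isLocalRing_quot_pow (n : ℕ) : IsLocalRing (A ⧸ maximalIdeal A ^ (n + 1)) :=
  haveI : Nontrivial (A ⧸ maximalIdeal A ^ (n + 1)) :=
    Ideal.Quotient.nontrivial_iff.2 (pow_succ_ne_top n)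
  IsLocalRing.of_surjective' (Ideal.Quotient.mk _) Ideal.Quotient.mk_surjective

omit h𝒟 in
lemma isLocalHom_mk_pow (n : ℕ) :
    haveI := isLocalRing_quot_pow (A := A) n
    IsLocalHom (Ideal.Quotient.mk (maximalIdeal A ^ (n + 1))) :=
  haveI := isLocalRing_quot_pow (A := A) n
  IsLocalHom.of_surjective _ Ideal.Quotient.mk_surjective

omit h𝒟 in
lemma maximalIdeal_quot_pow (n : ℕ) :
    haveI := isLocalRing_quot_pow (A := A) n
    maximalIdeal (A ⧸ maximalIdeal A ^ (n + 1)) ^ (n + 1) = ⊥ := by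
  haveI := isLocalRing_quot_pow (A := A) n
  rw [← IsLocalRing.map_maximalIdeal_of_surjective (Ideal.Quotient.mk (maximalIdeal A ^ (n + 1)))
    Ideal.Quotient.mk_surjective, ← Ideal.map_pow, Ideal.map_quotient_self]

omit h𝒟 in
lemma isArtinianTestAlgebra_quot_pow (hloc : IsLocalHom (algebraMap 𝒪 A))
    (hsurj : Function.Surjective (IsLocalRing.residue A ∘ algebraMap 𝒪 A)) (n : ℕ) :
    haveI := isLocalRing_quot_pow (A := A) n
    IsArtinianTestAlgebra 𝒪 (A ⧸ maximalIdeal A ^ (n + 1)) := by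
  haveI := isLocalRing_quot_pow (A := A) n
  haveI := isLocalHom_mk_pow (A := A) n
  refine ⟨?_, ?_, ?_⟩
  · have : algebraMap 𝒪 (A ⧸ maximalIdeal A ^ (n + 1)) =
        (Ideal.Quotient.mk (maximalIdeal A ^ (n + 1))).comp (algebraMap 𝒪 A) := rfl
    rw [this]
    infer_instance
  · intro y
    obtain ⟨z, rfl⟩ := IsLocalRing.residue_surjective y
    obtain ⟨a, rfl⟩ := Ideal.Quotient.mk_surjective z
    obtain ⟨o, ho⟩ := hsurj (IsLocalRing.residue A a)
    refine ⟨o, ?_⟩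
    simp only [Function.comp_apply] at ho ⊢
    rw [← sub_eq_zero, ← map_sub, IsLocalRing.residue_eq_zero_iff] at ho ⊢
    have : algebraMap 𝒪 (A ⧸ maximalIdeal A ^ (n + 1)) o - Ideal.Quotient.mk _ a =
        Ideal.Quotient.mk (maximalIdeal A ^ (n + 1)) (algebraMap 𝒪 A o - a) := by
      rw [map_sub]; rfl
    rw [this]
    exact map_nonunit _ _ ho
  · rw [isArtinianRing_iff_isNilpotent_maximalIdeal]
    exact ⟨n + 1, maximalIdeal_quot_pow n⟩

omit h𝒟 in
lemma eq_of_forall_mk_eq {a b : A}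
    (h : ∀ n : ℕ, Ideal.Quotient.mk (maximalIdeal A ^ (n + 1)) a =
      Ideal.Quotient.mk (maximalIdeal A ^ (n + 1)) b) : a = b := by
  rw [← sub_eq_zero, ← Ideal.mem_bot,
    ← Ideal.iInf_pow_eq_bot_of_isLocalRing (maximalIdeal A) (maximalIdeal.isMaximal A).ne_top,
    Ideal.mem_iInf]
  intro n
  have h1 := h n
  rw [Ideal.Quotient.eq] at h1
  exact Ideal.pow_le_pow_right (Nat.le_succ n) h1

lemma Lpred_limit_mp (hloc : IsLocalHom (algebraMap 𝒪 A))
    (hsurj : Function.Surjective (IsLocalRing.residue A ∘ algebraMap 𝒪 A))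
    {x : Idx → A} (hx : Lpred 𝒟 K x)
    {B : Type} [CommRing B] [IsLocalRing B] [Algebra 𝒪 B] (hB : IsArtinianTestAlgebra 𝒪 B)
    (q : A →ₐ[𝒪] B) (hq : IsLocalHom (q : A →+* B)) (hqs : Function.Surjective q) :
    Lpred 𝒟 K (fun i => q (x i)) := by
  obtain ⟨r, hr, rfl, hD, hl, hn⟩ := hx
  refine ⟨mapRep (q : A →+* B) r, hr.map _ hq, rfl, ?_, hl.map q hq, hn.map q⟩
  exact h𝒟.of_isEquiv hB (baseChangeAlong_toAdic _ hq r hr)
    ((h𝒟.iff_forall_surjective hloc hsurj (toAdic r hr)).1 hD hB q hq hqs)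

lemma Lpred_limit_mpr (hloc : IsLocalHom (algebraMap 𝒪 A))
    (hsurj : Function.Surjective (IsLocalRing.residue A ∘ algebraMap 𝒪 A))
    {x : Idx → A}
    (h : ∀ ⦃B : Type⦄ [CommRing B] [IsLocalRing B] [Algebra 𝒪 B], IsArtinianTestAlgebra 𝒪 B →
        ∀ (q : A →ₐ[𝒪] B), IsLocalHom (q : A →+* B) → Function.Surjective q →
          Lpred 𝒟 K (fun i => q (x i))) :
    Lpred 𝒟 K x := by
  -- the levels
  have hlev : ∀ n : ℕ, haveI := isLocalRing_quot_pow (A := A) n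
      Lpred 𝒟 K (fun i => Ideal.Quotient.mkₐ 𝒪 (maximalIdeal A ^ (n + 1)) (x i)) := by
    intro n
    haveI := isLocalRing_quot_pow (A := A) n
    exact h (isArtinianTestAlgebra_quot_pow hloc hsurj n)
      (Ideal.Quotient.mkₐ 𝒪 (maximalIdeal A ^ (n + 1))) (isLocalHom_mk_pow n)
      (Ideal.Quotient.mkₐ_surjective 𝒪 _)
  let m : GQ → M2 A := fun σ => Matrix.of fun i j => x (σ, i, j)
  have hm : ∀ (n : ℕ), haveI := isLocalRing_quot_pow (A := A) n
      ∀ (rn : GQ →* M2 (A ⧸ maximalIdeal A ^ (n + 1))),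
      entries rn = (fun i => Ideal.Quotient.mkₐ 𝒪 (maximalIdeal A ^ (n + 1)) (x i)) →
      ∀ σ, (m σ).map (Ideal.Quotient.mk (maximalIdeal A ^ (n + 1))) = rn σ := by
    intro n rn hrn σ
    ext i j
    have := congrFun hrn (σ, i, j)
    simpa [m, entries] using this.symm
  have hmat : ∀ X Y : M2 A, (∀ n : ℕ, X.map (Ideal.Quotient.mk (maximalIdeal A ^ (n + 1))) =
      Y.map (Ideal.Quotient.mk (maximalIdeal A ^ (n + 1)))) → X = Y := by
    intro X Y hXY
    ext i j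
    exact eq_of_forall_mk_eq fun n => by simpa using congrFun (congrFun (hXY n) i) j
  let r : GQ →* M2 A :=
    { toFun := m
      map_one' := by
        apply hmat
        intro n
        haveI := isLocalRing_quot_pow (A := A) n
        obtain ⟨rn, hrn, hent, -⟩ := hlev n
        rw [hm n rn hent, map_one]
        exact ((Ideal.Quotient.mk (maximalIdeal A ^ (n + 1))).mapMatrix.map_one).symm
      map_mul' := by
        intro σ τ
        apply hmat
        intro n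
        haveI := isLocalRing_quot_pow (A := A) n
        obtain ⟨rn, hrn, hent, -⟩ := hlev n
        rw [Matrix.map_mul, hm n rn hent, hm n rn hent, hm n rn hent, map_mul] }
  have hr_ent : entries r = x := rfl
  have hmap : ∀ (n : ℕ), haveI := isLocalRing_quot_pow (A := A) n
      ∀ (rn : GQ →* M2 (A ⧸ maximalIdeal A ^ (n + 1))),
      entries rn = (fun i => Ideal.Quotient.mkₐ 𝒪 (maximalIdeal A ^ (n + 1)) (x i)) →
      mapRep (Ideal.Quotient.mk (maximalIdeal A ^ (n + 1))) r = rn := by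
    intro n rn hrn
    ext σ i j
    exact (congrFun hrn (σ, i, j)).symm
  have hr : MatCont r := by
    intro n
    haveI := isLocalRing_quot_pow (A := A) n
    obtain ⟨rn, hrn, hent, -⟩ := hlev n
    obtain ⟨L, hL, h1⟩ := hrn.factors_of_pow_eq_bot (maximalIdeal_quot_pow n)
    refine ⟨L, hL, fun σ hσ i j => ?_⟩
    have h2 := h1 σ hσ
    rw [← hmap n rn hent] at h2
    have h3 : Ideal.Quotient.mk (maximalIdeal A ^ (n + 1)) ((r σ - 1) i j) = 0 := by
      have := congrFun (congrFun h2 i) j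
      rw [mapRep_apply_apply] at this
      rw [Matrix.sub_apply, map_sub, this]
      by_cases hij : i = j
      · subst hij; simp
      · simp [hij]
    rw [Ideal.Quotient.eq_zero_iff_mem] at h3
    exact Ideal.pow_le_pow_right (Nat.le_succ n) h3
  refine ⟨r, hr, hr_ent, ?_, ?_, ?_⟩
  · rw [h𝒟.iff_forall_surjective hloc hsurj (toAdic r hr)]
    intro B _ _ _ hB q hq hqs
    obtain ⟨rB, hrB, hentB, hDB, -, -⟩ := h hB q hq hqs
    have hrB_eq : mapRep (q : A →+* B) r = rB := by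
      ext σ i j
      exact (congrFun hentB (σ, i, j)).symm
    subst hrB_eq
    obtain ⟨e⟩ := baseChangeAlong_toAdic (q : A →+* B) hq r hr
    exact h𝒟.of_isEquiv hB ⟨e.symm⟩ hDB
  · haveI := isLocalRing_quot_pow (A := A) 0
    obtain ⟨-, -, -, -, hl0, -⟩ := hlev 0
    exact IsLiftC.of_map (Ideal.Quotient.mkₐ 𝒪 (maximalIdeal A ^ (0 + 1))) hl0
  · intro a
    apply eq_of_forall_mk_eq
    intro n
    haveI := isLocalRing_quot_pow (A := A) n
    obtain ⟨-, -, -, -, -, hnn⟩ := hlev n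
    exact hnn a

end Limit

end Fields

end Fermat.Agent.S53

end
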