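import Fermat.Agent.S53.Glue

set_option autoImplicit false
set_option linter.unusedSectionVars false
set_option linter.unusedVariables false
set_option linter.style.haveILetI false

open IsLocalRing GaloisRep

noncomputable section

namespace Fermat.Agent.S53

section Transport

variable {𝒪 : Type} [CommRing 𝒪] [IsLocalRing 𝒪]
  {𝒟 : ∀ ⦃A : Type⦄ [CommRing A] [IsLocalRing A] [Algebra 𝒪 A], GaloisRepAdic A → Prop}
  (h𝒟 : IsDeformationCondition 𝒪 𝒟)

include h𝒟 in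
/-- Over a complete Noetherian local algebra, `𝒟` is invariant under equivalence. -/
lemma D_of_isEquiv_cnl {A : Type} [CommRing A] [IsLocalRing A] [IsNoetherianRing A]
    [IsAdicComplete (maximalIdeal A) A] [Algebra 𝒪 A]
    (hloc : IsLocalHom (algebraMap 𝒪 A))
    (hsurj : Function.Surjective (IsLocalRing.residue A ∘ algebraMap 𝒪 A))
    {ρ ρ' : GaloisRepAdic A} (e : ρ.IsEquiv ρ') (h : 𝒟 ρ) : 𝒟 ρ' := by
  rw [h𝒟.iff_forall_surjective hloc hsurj] at h ⊢
  intro B _ _ _ hB q hq hqs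
  obtain ⟨e⟩ := e
  exact h𝒟.of_isEquiv hB ⟨e.baseChangeAlong (q : A →+* B) hq⟩ (h hB q hq hqs)

lemma isLiftC_iff_lift {A : Type} [CommRing A] [IsLocalRing A] [Algebra 𝒪 A]
    [IsLocalHom (algebraMap 𝒪 A)]
    (rbar : GQ →* M2 (ResidueField 𝒪)) (c : Idx → 𝒪)
    (hc : ∀ t, residue 𝒪 (c t) = entries rbar t) (r : GQ →* M2 A) :
    IsLiftC c (entries r) ↔
      ∀ σ, (r σ).map (residue A) = (rbar σ).map (ResidueField.map (algebraMap 𝒪 A)) := by
  have key : ∀ σ i j, (r σ i j - algebraMap 𝒪 A (c (σ, i, j)) ∈ maximalIdeal A ↔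
      residue A (r σ i j) = ResidueField.map (algebraMap 𝒪 A) (rbar σ i j)) := by
    intro σ i j
    rw [← IsLocalRing.residue_eq_zero_iff, map_sub, sub_eq_zero]
    have : residue A (algebraMap 𝒪 A (c (σ, i, j))) =
        ResidueField.map (algebraMap 𝒪 A) (rbar σ i j) := by
      rw [← entries_apply rbar, ← hc, IsLocalRing.ResidueField.map_residue]
    rw [this]
  constructor
  · intro h σ
    ext i j
    exact (key σ i j).1 (h (σ, i, j))
  · intro h t
    obtain ⟨σ, i, j⟩ := t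
    exact (key σ i j).2 (congrFun (congrFun (h σ) i) j)

end Transport

section Assembly

variable (𝒪 : Type) [CommRing 𝒪] [IsDomain 𝒪] [IsDiscreteValuationRing 𝒪]
    [IsAdicComplete (IsLocalRing.maximalIdeal 𝒪) 𝒪]

theorem deformationRingData_of_universalPoint
    (ρbar : ResidualGaloisRep (IsLocalRing.ResidueField 𝒪))
    (𝒟 : ∀ ⦃A : Type⦄ [CommRing A] [IsLocalRing A] [Algebra 𝒪 A], GaloisRepAdic A → Prop)
    (habs : ρbar.IsAbsolutelyIrreducible)
    (h𝒟 : GaloisRep.IsDeformationCondition 𝒪 𝒟)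
    (rbar : GQ →* M2 (ResidueField 𝒪)) (hrbar : GaloisFactorsThroughFiniteLevel rbar)
    (e0 : ρbar.IsEquiv (toRes rbar hrbar))
    (c : Idx → 𝒪) (hc : ∀ t, residue 𝒪 (c t) = entries rbar t)
    (K : RigidKit 𝒪 c)
    (U : UniversalPoint 𝒪 Idx (Lpred 𝒟 K)) :
    Nonempty (GaloisRep.DeformationRingData 𝒪 ρbar 𝒟) := by
  obtain ⟨ru, hru, hent, hDu, hlu, hnu⟩ := U.mem
  have hlu' : IsLiftC c (entries ru) := by rw [hent]; exact hlu
  have hnu' : NormC K.coord K.cst (entries ru) := by rw [hent]; exact hnu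
  refine ⟨{
    R := U.R
    residue_surjective := U.residue_surjective
    absIrr := habs
    ρ := toAdic ru hru
    isOfType := hDu
    residual_isEquiv := residual_isEquiv_of_lift ρbar rbar hrbar e0 ru hru
      ((isLiftC_iff_lift rbar c hc ru).1 hlu')
    universal := ?_ }⟩
  intro A _ _ _ _ _ hloc hsurj ρA hρA hres
  obtain ⟨r0, hr0, hlift0, e1⟩ := exists_lift_of_residual_isEquiv ρbar rbar hrbar e0 ρA hres
  obtain ⟨P, hl1, hn1⟩ := K.exists_norm r0 ((isLiftC_iff_lift rbar c hc r0).2 hlift0)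
  have e2 := toAdic_conjRep_isEquiv r0 hr0 P
  have e12 : ρA.IsEquiv (toAdic (conjRep P r0) (hr0.conj P)) := by
    obtain ⟨e1⟩ := e1
    obtain ⟨e2⟩ := e2
    exact ⟨e1.trans e2⟩
  have hD1 : 𝒟 (toAdic (conjRep P r0) (hr0.conj P)) :=
    D_of_isEquiv_cnl h𝒟 hloc hsurj e12 hρA
  have hL1 : Lpred 𝒟 K (entries (conjRep P r0)) :=
    ⟨conjRep P r0, hr0.conj P, rfl, hD1, hl1, hn1⟩
  obtain ⟨φ, ⟨hφloc, hφ⟩, huniq⟩ := U.universal A hsurj (entries (conjRep P r0)) hL1
  have hφr : mapRep (φ : U.R →+* A) ru = conjRep P r0 := by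
    apply entries_injective
    funext t
    rw [entries_mapRep, ← hφ t, hent]
    rfl
  refine ⟨φ, ⟨hφloc, ?_⟩, ?_⟩
  · obtain ⟨e3⟩ := baseChangeAlong_toAdic (φ : U.R →+* A) hφloc ru hru
    obtain ⟨e4⟩ := toAdic_congr hφr (hru.map _ hφloc) (hr0.conj P)
    obtain ⟨e12⟩ := e12
    exact ⟨(e3.trans e4).trans e12.symm⟩
  · rintro φ' ⟨hφ'loc, hφ'⟩
    apply huniq
    refine ⟨hφ'loc, ?_⟩
    obtain ⟨e3⟩ := baseChangeAlong_toAdic (φ' : U.R →+* A) hφ'loc ru hru
    obtain ⟨e12⟩ := e12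
    obtain ⟨e5⟩ := hφ'
    have e6 : (toAdic (mapRep (φ' : U.R →+* A) ru) (hru.map _ hφ'loc)).IsEquiv
        (toAdic (conjRep P r0) (hr0.conj P)) := ⟨(e3.symm.trans e5).trans e12⟩
    rw [toAdic_isEquiv_iff] at e6
    obtain ⟨P', hP'⟩ := e6
    have hl' : IsLiftC c (entries (mapRep (φ' : U.R →+* A) ru)) := by
      rw [entries_mapRep]
      exact hlu'.map φ' hφ'loc
    have hn' : NormC K.coord K.cst (entries (mapRep (φ' : U.R →+* A) ru)) := by
      rw [entries_mapRep]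
      exact hnu'.map φ'
    have := K.rigid (mapRep (φ' : U.R →+* A) ru) (conjRep P r0) hl' hl1 hn' hn1 P' hP'
    intro t
    rw [← this, entries_mapRep, hent]
    rfl

end Assembly

end Fermat.Agent.S53

end
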