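import Mathlib
import Fermat.Prelude.Def_GaloisRep_DeformationRingData
import Fermat.Prelude.Def_GaloisRep_DeformationCondition
import Fermat.Agent.S53.Dict
import Fermat.Agent.S53.AbstractDefs

set_option autoImplicit false
set_option linter.unusedSectionVars false
set_option linter.unusedVariables false

open IsLocalRing GaloisRep

noncomputable section

namespace Fermat.Agent.S53

/-- Index type of matrix-entry coordinates. -/
abbrev Idx : Type := GQ × Fin 2 × Fin 2

/-- The entry function of a matrix representation. -/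
def entries {A : Type} [CommRing A] (r : GQ →* M2 A) : Idx → A := fun t => r t.1 t.2.1 t.2.2

lemma entries_apply {A : Type} [CommRing A] (r : GQ →* M2 A) (σ : GQ) (i j : Fin 2) :
    entries r (σ, i, j) = r σ i j := rfl

lemma entries_injective {A : Type} [CommRing A] {r r' : GQ →* M2 A}
    (h : entries r = entries r') : r = r' := by
  ext σ i j
  exact congrFun h (σ, i, j)

lemma entries_mapRep {A B : Type} [CommRing A] [CommRing B] (φ : A →+* B) (r : GQ →* M2 A) :
    entries (mapRep φ r) = fun t => φ (entries r t) := rfl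

section Basic

variable {𝒪 : Type} [CommRing 𝒪]

/-- `x` lifts the fixed family `c` modulo the maximal ideal. -/
def IsLiftC (c : Idx → 𝒪) {A : Type} [CommRing A] [IsLocalRing A] [Algebra 𝒪 A]
    (x : Idx → A) : Prop :=
  ∀ t, x t - algebraMap 𝒪 A (c t) ∈ maximalIdeal A

/-- `x` takes prescribed constant values at finitely many coordinates. -/
def NormC {m : ℕ} (coord : Fin m → Idx) (cst : Fin m → 𝒪) {A : Type} [CommRing A] [Algebra 𝒪 A]
    (x : Idx → A) : Prop :=
  ∀ a, x (coord a) = algebraMap 𝒪 A (cst a)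

end Basic

/-- The rigidification kit: three coordinates and constants such that normalized lifts are
rigid and exist. -/
structure RigidKit (𝒪 : Type) [CommRing 𝒪] [IsLocalRing 𝒪] (c : Idx → 𝒪) where
  m : ℕ
  coord : Fin m → Idx
  cst : Fin m → 𝒪
  cst_res : ∀ a, residue 𝒪 (cst a) = residue 𝒪 (c (coord a))
  rigid : ∀ ⦃A : Type⦄ [CommRing A] [IsLocalRing A] [Algebra 𝒪 A]
    [IsLocalHom (algebraMap 𝒪 A)] [IsAdicComplete (maximalIdeal A) A] (r r' : GQ →* M2 A),
    IsLiftC c (entries r) → IsLiftC c (entries r') →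
    NormC coord cst (entries r) → NormC coord cst (entries r') →
    ∀ P : (M2 A)ˣ, (∀ σ, (P : M2 A) * r σ = r' σ * P) → r = r'
  exists_norm : ∀ ⦃A : Type⦄ [CommRing A] [IsLocalRing A] [Algebra 𝒪 A]
    [IsLocalHom (algebraMap 𝒪 A)] [IsAdicComplete (maximalIdeal A) A] (r : GQ →* M2 A),
    IsLiftC c (entries r) →
    ∃ P : (M2 A)ˣ, IsLiftC c (entries (conjRep P r)) ∧ NormC coord cst (entries (conjRep P r))

/-- The predicate "`x` is the entry function of a normalized `𝒟`-lifting". -/
def Lpred {𝒪 : Type} [CommRing 𝒪] [IsLocalRing 𝒪]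
    (𝒟 : ∀ ⦃A : Type⦄ [CommRing A] [IsLocalRing A] [Algebra 𝒪 A], GaloisRepAdic A → Prop)
    {c : Idx → 𝒪} (K : RigidKit 𝒪 c) : PointFamily 𝒪 Idx :=
  fun A _ _ _ x => ∃ (r : GQ →* M2 A) (hr : MatCont r), entries r = x ∧ 𝒟 (toAdic r hr) ∧
    IsLiftC c x ∧ NormC K.coord K.cst x

end Fermat.Agent.S53

end
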