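import Mathlib
import Fermat.Prelude.Def_GaloisRep_DeformationRingData
import Fermat.Prelude.Def_GaloisRep_DeformationCondition

/-!
# S53 — row-lead SPEC file (helper53)

Authoritative shapes of the hand-over points between the blocks of the S53 proof.
Everything lives in `Fermat.Agent.S53.Spec`, so it cannot clash with block files.
A block is DONE when it proves a theorem whose type is exactly one of the
`...Statement` propositions below (in its own file, importing this one).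
-/

set_option autoImplicit false

namespace Fermat.Agent.S53.Spec

open IsLocalRing

/-- The `𝒪`-algebra structure on `k[ε]` used by `GaloisRep.TangentFinite` (NOT an instance;
pass it explicitly, typeclass synthesis finds a different one). -/
@[reducible] noncomputable def dualNumberAlgebra (𝒪 : Type) [CommRing 𝒪] [IsLocalRing 𝒪] :
    Algebra 𝒪 (DualNumber (ResidueField 𝒪)) :=
  ((algebraMap (ResidueField 𝒪) (DualNumber (ResidueField 𝒪))).comp
    (algebraMap 𝒪 (ResidueField 𝒪))).toAlgebra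

/-- Complete Noetherian local `𝒪`-algebra with residue field `k` (the test objects of
`DeformationRingData.universal`). -/
structure IsCNL (𝒪 : Type) [CommRing 𝒪] [IsLocalRing 𝒪]
    (A : Type) [CommRing A] [IsLocalRing A] [Algebra 𝒪 A] : Prop where
  isNoetherianRing : IsNoetherianRing A
  isAdicComplete : IsAdicComplete (maximalIdeal A) A
  isLocalHom : IsLocalHom (algebraMap 𝒪 A)
  residue_surjective : Function.Surjective (IsLocalRing.residue A ∘ algebraMap 𝒪 A)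

/-! ## Block D: abstract pro-representability -/

/-- Hypotheses of the abstract pro-representability theorem: `F` is a property of
`X`-indexed coordinate families, and only its values on Artinian test algebras matter. -/
structure CoordFunctor (𝒪 : Type) [CommRing 𝒪] [IsLocalRing 𝒪] (X : Type) (c : X → 𝒪)
    (F : ∀ ⦃A : Type⦄ [CommRing A] [IsLocalRing A] [Algebra 𝒪 A], (X → A) → Prop) : Prop where
  red : ∀ ⦃A : Type⦄ [CommRing A] [IsLocalRing A] [Algebra 𝒪 A],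
    GaloisRep.IsArtinianTestAlgebra 𝒪 A → ∀ ⦃x : X → A⦄, F x →
      ∀ ξ, x ξ - algebraMap 𝒪 A (c ξ) ∈ maximalIdeal A
  base : F (fun ξ => algebraMap 𝒪 (ResidueField 𝒪) (c ξ))
  push : ∀ ⦃A B : Type⦄ [CommRing A] [IsLocalRing A] [Algebra 𝒪 A]
    [CommRing B] [IsLocalRing B] [Algebra 𝒪 B],
    GaloisRep.IsArtinianTestAlgebra 𝒪 A → GaloisRep.IsArtinianTestAlgebra 𝒪 B →
    ∀ (φ : A →ₐ[𝒪] B), IsLocalHom (φ : A →+* B) → ∀ ⦃x : X → A⦄, F x → F (φ ∘ x)
  descent : ∀ ⦃A B : Type⦄ [CommRing A] [IsLocalRing A] [Algebra 𝒪 A]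
    [CommRing B] [IsLocalRing B] [Algebra 𝒪 B],
    GaloisRep.IsArtinianTestAlgebra 𝒪 A → GaloisRep.IsArtinianTestAlgebra 𝒪 B →
    ∀ (φ : A →ₐ[𝒪] B), IsLocalHom (φ : A →+* B) → Function.Injective φ →
      ∀ ⦃x : X → A⦄, F (φ ∘ x) → F x
  fibre : ∀ ⦃A B C P : Type⦄ [CommRing A] [IsLocalRing A] [Algebra 𝒪 A]
    [CommRing B] [IsLocalRing B] [Algebra 𝒪 B] [CommRing C] [IsLocalRing C] [Algebra 𝒪 C]
    [CommRing P] [IsLocalRing P] [Algebra 𝒪 P],
    GaloisRep.IsArtinianTestAlgebra 𝒪 A → GaloisRep.IsArtinianTestAlgebra 𝒪 B →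
    GaloisRep.IsArtinianTestAlgebra 𝒪 C → GaloisRep.IsArtinianTestAlgebra 𝒪 P →
    ∀ (f : A →ₐ[𝒪] C) (g : B →ₐ[𝒪] C) (pA : P →ₐ[𝒪] A) (pB : P →ₐ[𝒪] B),
      IsLocalHom (pA : P →+* A) → IsLocalHom (pB : P →+* B) →
      f.comp pA = g.comp pB →
      Function.Injective (fun x => (pA x, pB x)) →
      (∀ a b, f a = g b → ∃ x, pA x = a ∧ pB x = b) →
      ∀ ⦃x : X → P⦄, F (pA ∘ x) → F (pB ∘ x) → F x
  tangent : Finite {x : X → DualNumber (ResidueField 𝒪) //
    @F (DualNumber (ResidueField 𝒪)) _ _ (dualNumberAlgebra 𝒪) x}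

/-- Conclusion of the abstract pro-representability theorem. -/
structure CoordUniversal (𝒪 : Type) [CommRing 𝒪] [IsLocalRing 𝒪] (X : Type)
    (F : ∀ ⦃A : Type⦄ [CommRing A] [IsLocalRing A] [Algebra 𝒪 A], (X → A) → Prop) : Type 1 where
  R : Type
  [instCommRing : CommRing R]
  [instIsLocalRing : IsLocalRing R]
  [instAlgebra : Algebra 𝒪 R]
  isCNL : IsCNL 𝒪 R
  xR : X → R
  /-- (U1) every Artinian quotient of the universal point is an `F`-point -/
  quot : ∀ ⦃B : Type⦄ [CommRing B] [IsLocalRing B] [Algebra 𝒪 B],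
    GaloisRep.IsArtinianTestAlgebra 𝒪 B → ∀ q : R →ₐ[𝒪] B, Function.Surjective q → F (q ∘ xR)
  /-- (U2) universality among pro-`F`-points of CNL algebras -/
  univ : ∀ (A : Type) [CommRing A] [IsLocalRing A] [Algebra 𝒪 A], IsCNL 𝒪 A →
    ∀ xA : X → A,
      (∀ ⦃B : Type⦄ [CommRing B] [IsLocalRing B] [Algebra 𝒪 B],
        GaloisRep.IsArtinianTestAlgebra 𝒪 B → ∀ q : A →ₐ[𝒪] B, Function.Surjective q →
          F (q ∘ xA)) →
      ∃! φ : R →ₐ[𝒪] A, ∀ ξ, φ (xR ξ) = xA ξ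

attribute [instance] CoordUniversal.instCommRing CoordUniversal.instIsLocalRing
  CoordUniversal.instAlgebra

/-- DELIVERABLE of block D (abstract core). -/
def AbstractCoreStatement : Prop :=
  ∀ (𝒪 : Type) [CommRing 𝒪] [IsDomain 𝒪] [IsDiscreteValuationRing 𝒪]
    [IsAdicComplete (maximalIdeal 𝒪) 𝒪] [Finite (ResidueField 𝒪)]
    (X : Type) (c : X → 𝒪)
    (F : ∀ ⦃A : Type⦄ [CommRing A] [IsLocalRing A] [Algebra 𝒪 A], (X → A) → Prop),
    CoordFunctor 𝒪 X c F → Nonempty (CoordUniversal 𝒪 X F)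

/-! ## Block B: rigid normal form (pure matrices, generic group `Γ`) -/

/-- `r` lifts `rbar` (entrywise, modulo the maximal ideal). -/
def IsLift {𝒪 : Type} [CommRing 𝒪] [IsLocalRing 𝒪] {Γ : Type} [Group Γ]
    (rbar : Γ →* Matrix (Fin 2) (Fin 2) (ResidueField 𝒪))
    {A : Type} [CommRing A] [IsLocalRing A] [Algebra 𝒪 A] [IsLocalHom (algebraMap 𝒪 A)]
    (r : Γ →* Matrix (Fin 2) (Fin 2) A) : Prop :=
  ∀ γ i j, residue A (r γ i j) = ResidueField.map (algebraMap 𝒪 A) (rbar γ i j)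

/-- A rigid normal form for liftings of `rbar`: `m` matrix entries are prescribed to be
constants coming from `𝒪`. -/
structure NormalFormPackage (𝒪 : Type) [CommRing 𝒪] [IsLocalRing 𝒪] (Γ : Type) [Group Γ]
    (rbar : Γ →* Matrix (Fin 2) (Fin 2) (ResidueField 𝒪)) where
  m : ℕ
  g : Fin m → Γ
  i : Fin m → Fin 2
  j : Fin m → Fin 2
  d : Fin m → 𝒪
  /-- `rbar` itself is normalized -/
  base : ∀ a, rbar (g a) (i a) (j a) = residue 𝒪 (d a)
  /-- two conjugate normalized liftings are equal -/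
  rigid : ∀ ⦃A : Type⦄ [CommRing A] [IsLocalRing A] [Algebra 𝒪 A] [IsLocalHom (algebraMap 𝒪 A)]
    [IsHausdorff (maximalIdeal A) A] (r r' : Γ →* Matrix (Fin 2) (Fin 2) A),
    IsLift rbar r → IsLift rbar r' →
    (∀ a, r (g a) (i a) (j a) = algebraMap 𝒪 A (d a)) →
    (∀ a, r' (g a) (i a) (j a) = algebraMap 𝒪 A (d a)) →
    ∀ P : (Matrix (Fin 2) (Fin 2) A)ˣ, (∀ γ, (P : Matrix (Fin 2) (Fin 2) A) * r γ = r' γ * P) →
      r = r'
  /-- every lifting is conjugate to a normalized lifting -/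
  exists_normalized : ∀ ⦃A : Type⦄ [CommRing A] [IsLocalRing A] [Algebra 𝒪 A]
    [IsLocalHom (algebraMap 𝒪 A)] [IsAdicComplete (maximalIdeal A) A]
    (r : Γ →* Matrix (Fin 2) (Fin 2) A), IsLift rbar r →
    ∃ (P : (Matrix (Fin 2) (Fin 2) A)ˣ) (r' : Γ →* Matrix (Fin 2) (Fin 2) A),
      IsLift rbar r' ∧ (∀ a, r' (g a) (i a) (j a) = algebraMap 𝒪 A (d a)) ∧
      ∀ γ, (P : Matrix (Fin 2) (Fin 2) A) * r γ = r' γ * P

/-- DELIVERABLE of block B: for every `rbar₀` with scalar centralizer there is a conjugate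
`rbar` (same representation, adapted basis; `Q = 1` allowed) carrying a normal form package. -/
def RigidStatement : Prop :=
  ∀ (𝒪 : Type) [CommRing 𝒪] [IsDomain 𝒪] [IsDiscreteValuationRing 𝒪]
    [IsAdicComplete (maximalIdeal 𝒪) 𝒪] (Γ : Type) [Group Γ]
    (rbar₀ : Γ →* Matrix (Fin 2) (Fin 2) (ResidueField 𝒪)),
    (∀ X : Matrix (Fin 2) (Fin 2) (ResidueField 𝒪),
      (∀ γ, X * rbar₀ γ = rbar₀ γ * X) → ∃ c : ResidueField 𝒪, X = c • 1) →
    ∃ (Q : (Matrix (Fin 2) (Fin 2) (ResidueField 𝒪))ˣ)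
      (rbar : Γ →* Matrix (Fin 2) (Fin 2) (ResidueField 𝒪)),
      (∀ γ, (Q : Matrix (Fin 2) (Fin 2) (ResidueField 𝒪)) * rbar₀ γ = rbar γ * Q) ∧
      Nonempty (NormalFormPackage 𝒪 Γ rbar)

end Fermat.Agent.S53.Spec
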