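import Fermat.Agent.S53.GlueAssembly
import Fermat.Agent.S53.DictSchur
import Fermat.Agent.S53.DictTan
import Fermat.Agent.S53.Spec

set_option autoImplicit false
set_option linter.unusedSectionVars false
set_option linter.unusedVariables false
set_option linter.style.haveILetI false

open IsLocalRing GaloisRep

noncomputable section

namespace Fermat.Agent.S53

section Local

variable {𝒪 : Type} [CommRing 𝒪] [IsLocalRing 𝒪]

/-- Every `𝒪`-algebra hom into a local algebra with residue field `k` is local. -/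
lemma isLocalHom_of_residue_surjective {R A : Type} [CommRing R] [IsLocalRing R] [Algebra 𝒪 R]
    [CommRing A] [IsLocalRing A] [Algebra 𝒪 A]
    (hsurj : Function.Surjective (IsLocalRing.residue A ∘ algebraMap 𝒪 A))
    (φ : R →ₐ[𝒪] A) : IsLocalHom (φ : R →+* A) := by
  refine ⟨fun a ha => ?_⟩
  by_contra hna
  have ham : a ∈ maximalIdeal R := hna
  obtain ⟨v, hv⟩ := ha.exists_right_inv
  obtain ⟨o, ho⟩ := hsurj (IsLocalRing.residue A v)
  simp only [Function.comp_apply] at ho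
  have h1 : IsUnit (1 - a * algebraMap 𝒪 R o) := by
    have : a * algebraMap 𝒪 R o ∈ maximalIdeal R := Ideal.mul_mem_right _ _ ham
    by_contra h
    have h2 : 1 - a * algebraMap 𝒪 R o ∈ maximalIdeal R := h
    have := Ideal.add_mem _ h2 this
    rw [sub_add_cancel] at this
    exact (maximalIdeal.isMaximal R).ne_top ((Ideal.eq_top_iff_one _).2 this)
  have h3 : IsUnit (φ (1 - a * algebraMap 𝒪 R o)) := h1.map φ
  have h4 : φ (1 - a * algebraMap 𝒪 R o) ∈ maximalIdeal A := by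
    rw [← IsLocalRing.residue_eq_zero_iff]
    have hφa : (φ : R →+* A) a = φ a := rfl
    rw [map_sub, map_one, map_mul, AlgHom.commutes, map_sub, map_one, map_mul, ho,
      ← map_mul, ← hφa, hv, map_one, sub_self]
  exact h4 h3

lemma isLiftC_iff_specIsLift {A : Type} [CommRing A] [IsLocalRing A] [Algebra 𝒪 A]
    [IsLocalHom (algebraMap 𝒪 A)]
    (rbar : GQ →* M2 (ResidueField 𝒪)) (c : Idx → 𝒪)
    (hc : ∀ t, residue 𝒪 (c t) = entries rbar t) (r : GQ →* M2 A) :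
    IsLiftC c (entries r) ↔ Spec.IsLift rbar r := by
  rw [isLiftC_iff_lift rbar c hc r]
  constructor
  · intro h σ i j
    exact congrFun (congrFun (h σ) i) j
  · intro h σ
    ext i j
    exact h σ i j

/-- Adapter: a normal form package in the shape of the row spec gives a rigid kit. -/
def rigidKit_of_package (rbar : GQ →* M2 (ResidueField 𝒪)) (c : Idx → 𝒪)
    (hc : ∀ t, residue 𝒪 (c t) = entries rbar t)
    (N : Spec.NormalFormPackage 𝒪 GQ rbar) : RigidKit 𝒪 c where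
  m := N.m
  coord := fun a => (N.g a, N.i a, N.j a)
  cst := N.d
  cst_res := fun a => by
    rw [hc]
    exact (N.base a).symm
  rigid := fun A _ _ _ _ _ r r' hl hl' hn hn' P hP =>
    N.rigid r r' ((isLiftC_iff_specIsLift rbar c hc r).1 hl)
      ((isLiftC_iff_specIsLift rbar c hc r').1 hl') hn hn' P hP
  exists_norm := fun A _ _ _ _ _ r hl => by
    obtain ⟨P, r', hl', hn', hP⟩ :=
      N.exists_normalized r ((isLiftC_iff_specIsLift rbar c hc r).1 hl)
    have hr' : r' = conjRep P r := by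
      ext σ : 1
      rw [conjRep_apply, hP σ, mul_assoc, Units.mul_inv, mul_one]
    subst hr'
    exact ⟨P, (isLiftC_iff_specIsLift rbar c hc _).2 hl', hn'⟩

end Local

section Main

variable (𝒪 : Type) [CommRing 𝒪] [IsDomain 𝒪] [IsDiscreteValuationRing 𝒪]
    [IsAdicComplete (IsLocalRing.maximalIdeal 𝒪) 𝒪]

theorem exists_rigidKit_of_rigidStatement (hB : Spec.RigidStatement)
    (ρbar : ResidualGaloisRep (IsLocalRing.ResidueField 𝒪))
    (habs : ρbar.IsAbsolutelyIrreducible) :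
    ∃ (rbar : GQ →* M2 (ResidueField 𝒪)) (hrbar : GaloisFactorsThroughFiniteLevel rbar)
      (c : Idx → 𝒪), ρbar.IsEquiv (toRes rbar hrbar) ∧ (∀ t, residue 𝒪 (c t) = entries rbar t) ∧
      Nonempty (RigidKit 𝒪 c) := by
  obtain ⟨rb0, hrb0, e0⟩ := exists_toRes ρbar
  obtain ⟨Q, rbar, hQ, ⟨N⟩⟩ := hB 𝒪 GQ rb0
    (fun X hX => schur_matrix ρbar habs rb0 hrb0 e0 X hX)
  have hrbar : GaloisFactorsThroughFiniteLevel rbar := by
    obtain ⟨L, hL, h1⟩ := hrb0
    refine ⟨L, hL, fun σ hσ => ?_⟩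
    have h2 := hQ σ
    rw [h1 σ hσ, mul_one] at h2
    have h3 : rbar σ = rbar σ * (Q : M2 (ResidueField 𝒪)) * ((Q⁻¹ : (M2 (ResidueField 𝒪))ˣ) :
        M2 (ResidueField 𝒪)) := by
      rw [mul_assoc, Units.mul_inv, mul_one]
    rw [h3, ← h2, Units.mul_inv]
  have e1 : (toRes rb0 hrb0).IsEquiv (toRes rbar hrbar) :=
    (toRes_isEquiv_iff rb0 rbar hrb0 hrbar).2 ⟨Q, hQ⟩
  choose c hc using fun t : Idx => IsLocalRing.residue_surjective (entries rbar t)
  obtain ⟨e0⟩ := e0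
  obtain ⟨e1⟩ := e1
  exact ⟨rbar, hrbar, c, ⟨e0.trans e1⟩, hc, ⟨rigidKit_of_package rbar c hc N⟩⟩

variable {𝒪}

theorem Lpred_tangent_finite
    (ρbar : ResidualGaloisRep (IsLocalRing.ResidueField 𝒪))
    (𝒟 : ∀ ⦃A : Type⦄ [CommRing A] [IsLocalRing A] [Algebra 𝒪 A], GaloisRepAdic A → Prop)
    (hfin : GaloisRep.TangentFinite 𝒪 ρbar 𝒟)
    (rbar : GQ →* M2 (ResidueField 𝒪)) (hrbar : GaloisFactorsThroughFiniteLevel rbar)
    (e0 : ρbar.IsEquiv (toRes rbar hrbar))
    (c : Idx → 𝒪) (hc : ∀ t, residue 𝒪 (c t) = entries rbar t)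
    (K : RigidKit 𝒪 c) :
    Finite {x : Idx → DualNumber (ResidueField 𝒪) //
      @Lpred 𝒪 _ _ 𝒟 c K (DualNumber (ResidueField 𝒪)) _ _ (Spec.dualNumberAlgebra 𝒪) x} := by
  letI : Algebra 𝒪 (DualNumber (ResidueField 𝒪)) := dualAlgebra 𝒪
  haveI : IsLocalHom (algebraMap 𝒪 (DualNumber (ResidueField 𝒪))) := isLocalHom_dualAlgebra 𝒪
  haveI : IsArtinianRing (DualNumber (ResidueField 𝒪)) := isArtinianRing_dualNumber _
  let X := {x : Idx → DualNumber (ResidueField 𝒪) // Lpred 𝒟 K x}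
  show Finite X
  let f : X → GQ →* M2 (DualNumber (ResidueField 𝒪)) := fun x => x.2.choose
  have hc' : ∀ x : X, MatCont (f x) := fun x => x.2.choose_spec.choose
  have hspec : ∀ x : X, entries (f x) = x.1 ∧ 𝒟 (toAdic (f x) (hc' x)) ∧ IsLiftC c x.1 ∧
      NormC K.coord K.cst x.1 := fun x => x.2.choose_spec.choose_spec
  refine finite_of_tangentFinite ρbar 𝒟 hfin rbar hrbar e0 X f hc' ?_ (fun x => (hspec x).2.1) ?_
  · intro x
    have h1 : IsLiftC c (entries (f x)) := by rw [(hspec x).1]; exact (hspec x).2.2.1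
    exact (isLiftC_iff_lift rbar c hc (f x)).1 h1
  · intro x y hxy
    rw [toAdic_isEquiv_iff] at hxy
    obtain ⟨P, hP⟩ := hxy
    have h1 : IsLiftC c (entries (f x)) := by rw [(hspec x).1]; exact (hspec x).2.2.1
    have h2 : IsLiftC c (entries (f y)) := by rw [(hspec y).1]; exact (hspec y).2.2.1
    have h3 : NormC K.coord K.cst (entries (f x)) := by rw [(hspec x).1]; exact (hspec x).2.2.2
    have h4 : NormC K.coord K.cst (entries (f y)) := by rw [(hspec y).1]; exact (hspec y).2.2.2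
    have := K.rigid (f x) (f y) h1 h2 h3 h4 P hP
    apply Subtype.ext
    rw [← (hspec x).1, ← (hspec y).1, this]

theorem coordFunctor_Lpred
    (ρbar : ResidualGaloisRep (IsLocalRing.ResidueField 𝒪))
    (𝒟 : ∀ ⦃A : Type⦄ [CommRing A] [IsLocalRing A] [Algebra 𝒪 A], GaloisRepAdic A → Prop)
    (h𝒟 : GaloisRep.IsDeformationCondition 𝒪 𝒟)
    (hbar : 𝒟 (GaloisRepAdic.ofResidualGaloisRep ρbar))
    (hfin : GaloisRep.TangentFinite 𝒪 ρbar 𝒟)
    (rbar : GQ →* M2 (ResidueField 𝒪)) (hrbar : GaloisFactorsThroughFiniteLevel rbar)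
    (e0 : ρbar.IsEquiv (toRes rbar hrbar))
    (c : Idx → 𝒪) (hc : ∀ t, residue 𝒪 (c t) = entries rbar t)
    (K : RigidKit 𝒪 c) :
    Spec.CoordFunctor 𝒪 Idx c (Lpred 𝒟 K) where
  red := fun A _ _ _ hA x hx => by
    obtain ⟨-, -, -, -, hl, -⟩ := hx
    exact hl
  base := Lpred_base h𝒟 K ρbar hbar rbar hrbar e0 hc
  push := fun A B _ _ _ _ _ _ hA hB φ hφ x hx => Lpred_map h𝒟 K hA hB φ hφ hx
  descent := fun A B _ _ _ _ _ _ hA hB φ hφ hinj x hx => Lpred_inj h𝒟 K hA hB φ hφ hinj hx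
  fibre := fun A B C P _ _ _ _ _ _ _ _ _ _ _ _ hA hB hC hP f g pA pB hpA hpB hfg hinj hsurj
      x hxA hxB =>
    Lpred_fibre h𝒟 K hA hB hC hP f g pA pB hpA hpB hfg hinj hsurj hxA hxB
  tangent := Lpred_tangent_finite ρbar 𝒟 hfin rbar hrbar e0 c hc K

/-- Adapter from the row-spec conclusion to `UniversalPoint`. -/
def universalPoint_of_coordUniversal
    {𝒟 : ∀ ⦃A : Type⦄ [CommRing A] [IsLocalRing A] [Algebra 𝒪 A], GaloisRepAdic A → Prop}
    (h𝒟 : GaloisRep.IsDeformationCondition 𝒪 𝒟)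
    {c : Idx → 𝒪} (K : RigidKit 𝒪 c)
    (U : Spec.CoordUniversal 𝒪 Idx (Lpred 𝒟 K)) : UniversalPoint 𝒪 Idx (Lpred 𝒟 K) :=
  haveI := U.isCNL.isNoetherianRing
  haveI := U.isCNL.isAdicComplete
  { R := U.R
    instIsNoetherianRing := U.isCNL.isNoetherianRing
    instIsAdicComplete := U.isCNL.isAdicComplete
    instIsLocalHom := U.isCNL.isLocalHom
    residue_surjective := U.isCNL.residue_surjective
    xu := U.xR
    mem := Lpred_limit_mpr h𝒟 K U.isCNL.isLocalHom U.isCNL.residue_surjective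
      (fun B _ _ _ hB q hq hqs => U.quot hB q hqs)
    universal := fun A _ _ _ _ _ hloc hsurj y hy => by
      obtain ⟨φ, hφ, huniq⟩ := U.univ A ⟨inferInstance, inferInstance, hloc, hsurj⟩ y
        (fun B _ _ _ hB q hqs => Lpred_limit_mp h𝒟 K hloc hsurj hy hB q
          (IsLocalHom.of_surjective _ hqs) hqs)
      exact ⟨φ, ⟨isLocalHom_of_residue_surjective hsurj φ, hφ⟩, fun φ' h => huniq φ' h.2⟩ }

variable (𝒪)

/-- The S53 statement, from the two row-spec deliverables. -/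
theorem nonempty_deformationRingData_of_spec
    (hD : Spec.AbstractCoreStatement) (hB : Spec.RigidStatement)
    [Finite (IsLocalRing.ResidueField 𝒪)]
    (ρbar : ResidualGaloisRep (IsLocalRing.ResidueField 𝒪))
    (𝒟 : ∀ ⦃A : Type⦄ [CommRing A] [IsLocalRing A] [Algebra 𝒪 A], GaloisRepAdic A → Prop)
    (habs : ρbar.IsAbsolutelyIrreducible)
    (h𝒟 : GaloisRep.IsDeformationCondition 𝒪 𝒟)
    (hbar : 𝒟 (GaloisRepAdic.ofResidualGaloisRep ρbar))
    (hfin : GaloisRep.TangentFinite 𝒪 ρbar 𝒟) :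
    Nonempty (GaloisRep.DeformationRingData 𝒪 ρbar 𝒟) := by
  obtain ⟨rbar, hrbar, c, e0, hc, ⟨K⟩⟩ := exists_rigidKit_of_rigidStatement 𝒪 hB ρbar habs
  obtain ⟨U⟩ := hD 𝒪 Idx c (Lpred 𝒟 K)
    (coordFunctor_Lpred ρbar 𝒟 h𝒟 hbar hfin rbar hrbar e0 c hc K)
  exact deformationRingData_of_universalPoint 𝒪 ρbar 𝒟 habs h𝒟 rbar hrbar e0 c hc K
    (universalPoint_of_coordUniversal h𝒟 K U)

end Main

end Fermat.Agent.S53

end
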